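import Fermat.Agent.S34.Loc

set_option autoImplicit false
set_option linter.unusedSectionVars false
set_option linter.style.haveILetI false

/-!
# S34 / Val : families of discrete valuations of `F / K`   (task T-Val)

Abstract language for chapter D-abs ("divisor divisible by `m`  ⟹  locally an `m`-th power").
`w : ι → F → ℤ` is a family of discrete valuations of `F`, trivial on `K` (the value at `0` is junk).
In the application `ι = Place ℚ̄ (FN N)`, `F = F_K`, `w v z = v.ord (toFN z)` (chapter BR).

All proofs in this file are short.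
* `map_one … map_prod`: as in `S24.IsVal` (file `S24/PlaceOfVal.lean`).
* `nonneg_of_mem_CInt`: `c` is a root of a monic polynomial with coefficients `evR a_j`, `w (evR a) ≥ 0`
  (sum of `rE r * t^j`); if `w c < 0` the leading term `c^d` has strictly smallest valuation.
  (Alternative: the set `{z | z = 0 ∨ 0 ≤ w i z}` is a `ValuationSubring`, then `S18.mem_of_isIntegralElem`.)
* `exists_pow_mul_mem_CInt`: `z` integral over `K[t]`: monic `P` with coefficients `aeval t r_j`, `r_j : K[X]`;
  choose `k` with `ϖ^k r_j ∈ R[X]` for all `j`; then `ϖ^k z` is a root of the monic polynomial with coefficients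
  `ϖ^(k (d - j)) r_j` (`Polynomial.scaleRoots`, cf. `IsIntegral.exists_multiple_integral_of_isLocalization`).
* `exists_mul_mem_CInt`: `z` is algebraic over `K(t) = Frac R[t]` (`S18.chart_isFractionRing`, `exists_integral_multiple`).
-/

noncomputable section

namespace Fermat.Agent.S34

open Polynomial IntermediateField Fermat.Agent.S18

/-- a family of discrete valuations of `F`, trivial on `K`; the value at `0` is junk. -/
structure ValFam (K : Type) {F ι : Type} [Field K] [Field F] [Algebra K F] (w : ι → F → ℤ) : Prop where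
  map_mul : ∀ (i : ι) (a b : F), a ≠ 0 → b ≠ 0 → w i (a * b) = w i a + w i b
  map_add : ∀ (i : ι) (a b : F), a ≠ 0 → b ≠ 0 → a + b ≠ 0 → min (w i a) (w i b) ≤ w i (a + b)
  map_const : ∀ (i : ι) (c : K), c ≠ 0 → w i (algebraMap K F c) = 0
  fin : ∀ z : F, z ≠ 0 → {i : ι | w i z ≠ 0}.Finite

/-- the family detects integrality over `K[t]`. -/
def IntAt (K : Type) {F ι : Type} [Field K] [Field F] [Algebra K F] (w : ι → F → ℤ) (t : F) : Prop :=
  ∀ z : F, z ≠ 0 → (∀ i, 0 ≤ w i t → 0 ≤ w i z) → IsIntegral (Algebra.adjoin K {t}) z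

/-- `w i` is normalised and its residue field is `K`. -/
def RatAt (K : Type) {F ι : Type} [Field K] [Field F] [Algebra K F] (w : ι → F → ℤ) (i : ι) : Prop :=
  (∀ z : F, z ≠ 0 → 0 ≤ w i z → ∃ c : K, z = algebraMap K F c ∨ 0 < w i (z - algebraMap K F c)) ∧
    ∃ u : F, u ≠ 0 ∧ w i u = 1

/-- the (horizontal) valuation `w i` passes through the closed point `n` of the chart `t`. -/
def Thru {R K F ι : Type} [CommRing R] [Field K] [Algebra R K] [Field F] [Algebra K F]
    (w : ι → F → ℤ) (i : ι) {t : F} (n : Ideal (CInt R K t)) : Prop :=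
  0 ≤ w i t ∧ ∀ d : CInt R K t, d ∉ n → w i (d : F) = 0

namespace ValFam

variable {K F ι : Type} [Field K] [Field F] [Algebra K F] {w : ι → F → ℤ} (hw : ValFam K w)
include hw

theorem map_one (i : ι) : w i 1 = 0 := by
  have := hw.map_mul i 1 1 one_ne_zero one_ne_zero
  rw [mul_one] at this; omega

theorem map_neg (i : ι) {a : F} (ha : a ≠ 0) : w i (-a) = w i a := by
  have h1 := hw.map_mul i (-1) (-1) (by simp) (by simp)
  rw [neg_mul_neg, mul_one, hw.map_one] at h1
  have h2 := hw.map_mul i (-1) a (by simp) ha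
  rw [neg_one_mul] at h2; omega

theorem map_inv (i : ι) {a : F} (ha : a ≠ 0) : w i a⁻¹ = - w i a := by
  have := hw.map_mul i a a⁻¹ ha (inv_ne_zero ha)
  rw [mul_inv_cancel₀ ha, hw.map_one] at this; omega

theorem map_div (i : ι) {a b : F} (ha : a ≠ 0) (hb : b ≠ 0) : w i (a / b) = w i a - w i b := by
  rw [div_eq_mul_inv, hw.map_mul i a b⁻¹ ha (inv_ne_zero hb), hw.map_inv i hb]; ring

theorem map_pow (i : ι) {a : F} (ha : a ≠ 0) (k : ℕ) : w i (a ^ k) = k * w i a := by
  induction k with
  | zero => simp [hw.map_one]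
  | succ k ih =>
    rw [pow_succ, hw.map_mul i _ _ (pow_ne_zero _ ha) ha, ih]; push_cast; ring

theorem map_zpow (i : ι) {a : F} (ha : a ≠ 0) (k : ℤ) : w i (a ^ k) = k * w i a := by
  obtain ⟨k, rfl | rfl⟩ := k.eq_nat_or_neg
  · rw [zpow_natCast, hw.map_pow i ha]
  · rw [zpow_neg, zpow_natCast, hw.map_inv i (pow_ne_zero _ ha), hw.map_pow i ha]; ring

theorem map_sub (i : ι) {a b : F} (ha : a ≠ 0) (hb : b ≠ 0) (hab : a - b ≠ 0) :
    min (w i a) (w i b) ≤ w i (a - b) := by
  have := hw.map_add i a (-b) ha (neg_ne_zero.2 hb) (by rwa [← sub_eq_add_neg])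
  rwa [hw.map_neg i hb, ← sub_eq_add_neg] at this

theorem map_prod (i : ι) {κ : Type} (s : Finset κ) (g : κ → F) (hg : ∀ j ∈ s, g j ≠ 0) :
    w i (∏ j ∈ s, g j) = ∑ j ∈ s, w i (g j) := by
  classical
  induction s using Finset.induction_on with
  | empty => simp [hw.map_one]
  | insert a s ha ih =>
    rw [Finset.prod_insert ha, Finset.sum_insert ha,
      hw.map_mul i _ _ (hg a (Finset.mem_insert_self a s))
        (Finset.prod_ne_zero_iff.2 fun j hj => hg j (Finset.mem_insert_of_mem hj)),
      ih fun j hj => hg j (Finset.mem_insert_of_mem hj)]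

end ValFam

variable {R K F : Type} [CommRing R] [IsDomain R] [IsDiscreteValuationRing R] [Field K] [CharZero K]
  [Algebra R K] [IsFractionRing R K] [Field F] [Algebra K F] {ι : Type} {w : ι → F → ℤ}

theorem ValFam.map_rE (hw : ValFam K w) (i : ι) {r : R} (hr : r ≠ 0) : w i (rE R K F r) = 0 := by
  rw [rE_apply]
  exact hw.map_const i _ (by simpa using hr)

/-- the valuation ring of `w i`. -/
def ValFam.valO {K F ι : Type} [Field K] [Field F] [Algebra K F] {w : ι → F → ℤ}
    (hw : ValFam K w) (i : ι) : ValuationSubring F where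
  carrier := {z | z = 0 ∨ 0 ≤ w i z}
  mul_mem' := by
    rintro a b (rfl | ha) hb
    · left; rw [zero_mul]
    rcases hb with rfl | hb
    · left; rw [mul_zero]
    by_cases ha0 : a = 0
    · left; rw [ha0, zero_mul]
    by_cases hb0 : b = 0
    · left; rw [hb0, mul_zero]
    right
    rw [hw.map_mul i a b ha0 hb0]
    omega
  one_mem' := Or.inr (by rw [hw.map_one])
  add_mem' := by
    rintro a b (rfl | ha) hb
    · rwa [zero_add]
    rcases hb with rfl | hb
    · rw [add_zero]; exact Or.inr ha
    by_cases hab : a + b = 0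
    · exact Or.inl hab
    by_cases ha0 : a = 0
    · rw [ha0, zero_add]; exact Or.inr hb
    by_cases hb0 : b = 0
    · rw [hb0, add_zero]; exact Or.inr ha
    right
    exact le_trans (le_min ha hb) (hw.map_add i a b ha0 hb0 hab)
  zero_mem' := Or.inl rfl
  neg_mem' := by
    rintro a (rfl | ha)
    · left; rw [neg_zero]
    by_cases ha0 : a = 0
    · left; rw [ha0, neg_zero]
    right
    rwa [hw.map_neg i ha0]
  mem_or_inv_mem' := by
    intro a
    by_cases ha0 : a = 0
    · exact Or.inl (Or.inl ha0)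
    by_cases ha : 0 ≤ w i a
    · exact Or.inl (Or.inr ha)
    · right; right
      rw [hw.map_inv i ha0]
      omega

/-- elements integral over `R[t]` are `w i`-integral as soon as `t` is. -/
theorem ValFam.nonneg_of_mem_CInt (hw : ValFam K w) {i : ι} {t : F} (ht : 0 ≤ w i t) {c : F}
    (hc : c ∈ CInt R K t) (hc0 : c ≠ 0) : 0 ≤ w i c := by
  have hf : ∀ p : R[X], evR R K t p ∈ hw.valO i := by
    intro p
    induction p using Polynomial.induction_on' with
    | add p q hp hq => rw [_root_.map_add]; exact add_mem hp hq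
    | monomial k a =>
      rw [← C_mul_X_pow_eq_monomial, _root_.map_mul, _root_.map_pow, evR_C, evR_X]
      refine mul_mem ?_ (pow_mem (Or.inr ht) k)
      by_cases ha : a = 0
      · left; rw [ha, _root_.map_zero]
      · right; rw [hw.map_rE i ha]
  exact (mem_of_isIntegralElem (hw.valO i) (evR R K t) hf hc).resolve_left hc0

attribute [local instance] Polynomial.algebra in
theorem val_exists_mul_mem {t z : F} (hz : IsIntegral (Algebra.adjoin K {t}) z) :
    ∃ a : R, a ≠ 0 ∧ rE R K F a * z ∈ CInt R K t := by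
  letI := chartAlg R K t
  letI : Algebra K[X] F := (aeval t : K[X] →ₐ[K] F).toRingHom.toAlgebra
  haveI : IsScalarTower R[X] K[X] F := IsScalarTower.of_algebraMap_eq fun p => by
    show evR R K t p = aeval t (p.map (algebraMap R K))
    exact evR_eq_aeval_map t p
  haveI := Polynomial.isLocalization (nonZeroDivisors R) K
  have hz' : IsIntegral K[X] z := by
    let g : K[X] →ₐ[K] Algebra.adjoin K {t} :=
      (aeval t : K[X] →ₐ[K] F).codRestrict (Algebra.adjoin K {t})
        (fun p => aeval_mem_adjoin_singleton K t)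
    letI : Algebra K[X] (Algebra.adjoin K {t}) := g.toRingHom.toAlgebra
    haveI : IsScalarTower K[X] (Algebra.adjoin K {t}) F :=
      IsScalarTower.of_algebraMap_eq fun p => rfl
    have hsurj : Function.Surjective (algebraMap K[X] (Algebra.adjoin K {t})) := by
      rintro ⟨y, hy⟩
      rw [Algebra.adjoin_singleton_eq_range_aeval] at hy
      obtain ⟨p, hp⟩ := hy
      exact ⟨p, Subtype.ext hp⟩
    haveI : Algebra.IsIntegral K[X] (Algebra.adjoin K {t}) := Algebra.isIntegral_of_surjective hsurj
    exact isIntegral_trans z hz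
  obtain ⟨⟨m, a, ha, rfl⟩, hm⟩ := IsIntegral.exists_multiple_integral_of_isLocalization
    ((nonZeroDivisors R).map (C : R →+* R[X])) (Rₘ := K[X]) z hz'
  refine ⟨a, nonZeroDivisors.ne_zero ha, ?_⟩
  have e : rE R K F a * z = (⟨C a, a, ha, rfl⟩ : (nonZeroDivisors R).map (C : R →+* R[X])) • z := by
    rw [Submonoid.smul_def, Algebra.smul_def]
    show _ = evR R K t (C a) * z
    rw [evR_C]
  rw [e]
  exact hm

/-- an element integral over `K[t]` becomes integral over `R[t]` after multiplication by a power of `ϖ`. -/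
theorem exists_pow_mul_mem_CInt {ϖ : R} (hϖ : Irreducible ϖ) {t z : F}
    (hz : IsIntegral (Algebra.adjoin K {t}) z) : ∃ k : ℕ, rE R K F ϖ ^ k * z ∈ CInt R K t := by
  obtain ⟨a, ha, haz⟩ := val_exists_mul_mem (R := R) hz
  obtain ⟨k, u, rfl⟩ := IsDiscreteValuationRing.eq_unit_mul_pow_irreducible ha hϖ
  refine ⟨k, ?_⟩
  have e : rE R K F ϖ ^ k * z =
      rE R K F ((u⁻¹ : Rˣ) : R) * (rE R K F ((u : R) * ϖ ^ k) * z) := by
    rw [← mul_assoc, ← map_mul, ← mul_assoc, Units.inv_mul, one_mul, map_pow]
  rw [e]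
  exact mul_mem (rE_mem_CInt t _) haz

/-- `F = Frac (CInt R K t)`. -/
theorem exists_mul_mem_CInt {t : F} (ht : Transcendental K t) (hfin : FiniteDimensional K⟮t⟯ F)
    (z : F) : ∃ b : CInt R K t, b ≠ 0 ∧ (b : F) * z ∈ CInt R K t := by
  letI := chartAlg R K t
  letI := chartAlgL R K t
  haveI := chart_tower (R := R) (K := K) t
  haveI := chart_isFractionRing (R := R) ht
  have halg : IsAlgebraic R[X] z :=
    (IsFractionRing.isAlgebraic_iff R[X] K⟮t⟯ F).mpr (Algebra.IsAlgebraic.isAlgebraic z)
  obtain ⟨y, hy0, hy⟩ := halg.exists_integral_multiple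
  refine ⟨⟨evR R K t y, evR_mem_CInt t y⟩, ?_, ?_⟩
  · intro h
    apply hy0
    apply evR_injective (R := R) ht
    rw [map_zero]
    exact congrArg Subtype.val h
  · rw [Algebra.smul_def] at hy
    exact hy

end Fermat.Agent.S34
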