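import Fermat.Agent.S34.Loc

set_option autoImplicit false
set_option linter.unusedSectionVars false
set_option linter.style.haveILetI false

/-!
# S34 / LF : a rational horizontal section through a smooth-like or node-like point is principal up to `R \ 0`   (task T-LF)

`C = CInt R K t`, `n` a closed point, `O = Oloc n`, `𝔭 ⊆ n` an ideal of `C` with `C = R ⊕ 𝔭` (`IsSection`).

SKETCH.  `ev : C → R`, `ev c` = the unique `r` with `c - r ∈ 𝔭` (unique by `inj`): a ring retraction with kernel `𝔭`.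
 * `d ∉ n ⟹ ev d ∈ Rˣ` (otherwise `ϖ ∣ ev d`, `d = (d - ev d) + ev d ∈ 𝔭 + ϖ C ⊆ n`);  `c ∈ n ⟹ ϖ ∣ ev c` (otherwise `ev c` is a unit of `R`, `ev c = c - (c - ev c) ∈ n`).
 * so `ev` extends to `O → R` (`z = c / d ↦ ev c / ev d`), kernel `P = 𝔭 O = {z | ∃ d ∉ n, d z ∈ 𝔭}`, and `ev (InMax) ⊆ ϖ R`.
 * Sm case, `InMax = (ϖ, S)`: `s₀ = ev S ∈ ϖ R`.  For `z ∈ P`: `z = ϖ a + S b = ϖ (a + (s₀/ϖ) b) + (S - s₀) b`, and applying `ev`: `a' := a + (s₀/ϖ) b ∈ P`.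
   So `P ≤ (S - s₀) O ⊔ ϖ • P`; `P` is finitely generated (`O` is noetherian: localisation of `C`, which is finite over `R[t]`: `S18.chart_finite`),
   `ϖ ∈ jacobson ⊥` (`O` local): Nakayama `Submodule.le_of_le_smul_of_le_jacobson_bot` gives `P = (S - s₀) O`.  Take `c₀ = 1`, `h = d (S - s₀) ∈ 𝔭` where `d ∉ n`, `d S ∈ C`.
 * Nd case, `InMax = (ϖ, S, T)`, `S T = ϖ₀ ≠ 0`: `s₀ = ev S`, `t₀ = ev T`, `s₀ t₀ = ϖ₀`, so `s₀ ≠ 0`.  As above `P = (S - s₀, T - t₀) O`, and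
   `s₀ (T - t₀) = s₀ T - S T = - T (S - s₀)`.  Take `c₀ = s₀`, `h = d (S - s₀)`.
 Suggested set-up: `Algebra C (Oloc n)`, `IsLocalization.AtPrime (Oloc n) n`, whence `IsLocalRing`, `IsNoetherianRing (Oloc n)`.
-/

noncomputable section

namespace Fermat.Agent.S34

open Polynomial IntermediateField Fermat.Agent.S18

variable {R K F : Type} [CommRing R] [IsDomain R] [IsDiscreteValuationRing R] [Field K] [CharZero K]
  [Algebra R K] [IsFractionRing R K] [Field F] [Algebra K F] {ϖ : R}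

/-- `𝔭` is (the ideal of) an `R`-rational horizontal section of the chart through the point `n`. -/
structure IsSection {t : F} (n 𝔭 : Ideal (CInt R K t)) : Prop where
  le : 𝔭 ≤ n
  rat : ∀ c : CInt R K t, ∃ r : R, c - ⟨rE R K F r, rE_mem_CInt t r⟩ ∈ 𝔭
  inj : ∀ r : R, (⟨rE R K F r, rE_mem_CInt t r⟩ : CInt R K t) ∈ 𝔭 → r = 0

/-! ### helper lemmas -/

/-- the chart is a noetherian ring. -/
theorem lf_noeth {t : F} (ht : Transcendental K t) (hfin : FiniteDimensional K⟮t⟯ F) :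
    IsNoetherianRing (CInt R K t) := by
  letI := chartAlg R K t
  haveI := chart_finite (R := R) ht hfin
  haveI : IsNoetherianRing (integralClosure R[X] F) := IsNoetherianRing.of_finite R[X] _
  let e : integralClosure R[X] F ≃+* CInt R K t :=
    { toFun := fun y => ⟨y.1, y.2⟩
      invFun := fun y => ⟨y.1, y.2⟩
      left_inv := fun _ => rfl
      right_inv := fun _ => rfl
      map_mul' := fun _ _ => rfl
      map_add' := fun _ _ => rfl }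
  exact isNoetherianRing_of_ringEquiv _ e

/-- `z` lies in `𝔭 O`. -/
def LfInP {t : F} (n 𝔭 : Ideal (CInt R K t)) (z : F) : Prop :=
  ∃ e : CInt R K t, e ∉ n ∧ ∃ p : CInt R K t, p ∈ 𝔭 ∧ (e : F) * z = p

theorem lf_inv_inLoc {t : F} {n : Ideal (CInt R K t)} {e : CInt R K t} (he : e ∉ n) :
    InLoc n ((e : F)⁻¹) := by
  have he0 : (e : F) ≠ 0 := by
    intro h
    apply he
    have : e = 0 := Subtype.ext h
    rw [this]; exact n.zero_mem
  exact ⟨e, he, by rw [mul_inv_cancel₀ he0]; exact (CInt R K t).one_mem⟩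

theorem lf_ne_zero {t : F} {n : Ideal (CInt R K t)} {e : CInt R K t} (he : e ∉ n) :
    (e : F) ≠ 0 := by
  intro h
  apply he
  have : e = 0 := Subtype.ext h
  rw [this]; exact n.zero_mem

theorem LfInP.of_mem {t : F} {n 𝔭 : Ideal (CInt R K t)} [n.IsPrime] {p : CInt R K t}
    (hp : p ∈ 𝔭) : LfInP n 𝔭 (p : F) :=
  ⟨1, loc_one_notMem n, p, hp, by simp⟩

theorem LfInP.add {t : F} {n 𝔭 : Ideal (CInt R K t)} [n.IsPrime] {y z : F} (hy : LfInP n 𝔭 y)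
    (hz : LfInP n 𝔭 z) : LfInP n 𝔭 (y + z) := by
  obtain ⟨d, hd, w, hw, h1⟩ := hy
  obtain ⟨e, he, w', hw', h2⟩ := hz
  refine ⟨d * e, loc_mul_notMem hd he, e * w + d * w',
    𝔭.add_mem (𝔭.mul_mem_left _ hw) (𝔭.mul_mem_left _ hw'), ?_⟩
  rw [Subring.coe_mul, Subring.coe_add, Subring.coe_mul, Subring.coe_mul, ← h1, ← h2]
  ring

theorem LfInP.mul_left {t : F} {n 𝔭 : Ideal (CInt R K t)} [n.IsPrime] {y z : F} (hy : InLoc n y)
    (hz : LfInP n 𝔭 z) : LfInP n 𝔭 (y * z) := by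
  obtain ⟨d, hd, h1⟩ := hy
  obtain ⟨e, he, w', hw', h2⟩ := hz
  refine ⟨d * e, loc_mul_notMem hd he, ⟨_, h1⟩ * w', 𝔭.mul_mem_left _ hw', ?_⟩
  rw [Subring.coe_mul, Subring.coe_mul, ← h2]
  ring

theorem LfInP.inLoc {t : F} {n 𝔭 : Ideal (CInt R K t)} {z : F} (hz : LfInP n 𝔭 z) :
    InLoc n z := by
  obtain ⟨d, hd, w, -, h⟩ := hz
  exact ⟨d, hd, h ▸ w.2⟩

theorem LfInP.inMax {t : F} {n 𝔭 : Ideal (CInt R K t)} (hle : 𝔭 ≤ n) {z : F}
    (hz : LfInP n 𝔭 z) : InMax n z := by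
  obtain ⟨d, hd, w, hw, h⟩ := hz
  exact ⟨d, hd, w, hle hw, h⟩

/-- `𝔭` is "prime to `R`". -/
theorem lf_cancel {t : F} {n 𝔭 : Ideal (CInt R K t)} (h𝔭 : IsSection n 𝔭) {r : R} (hr : r ≠ 0)
    {c : CInt R K t} (h : (⟨rE R K F r, rE_mem_CInt t r⟩ : CInt R K t) * c ∈ 𝔭) : c ∈ 𝔭 := by
  obtain ⟨r', hr'⟩ := h𝔭.rat c
  have h1 : (⟨rE R K F (r * r'), rE_mem_CInt t (r * r')⟩ : CInt R K t) ∈ 𝔭 := by
    have h2 := 𝔭.sub_mem h (𝔭.mul_mem_left (⟨rE R K F r, rE_mem_CInt t r⟩ : CInt R K t) hr')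
    have e : (⟨rE R K F r, rE_mem_CInt t r⟩ : CInt R K t) * c -
        (⟨rE R K F r, rE_mem_CInt t r⟩ : CInt R K t) * (c - ⟨rE R K F r', rE_mem_CInt t r'⟩) =
        ⟨rE R K F (r * r'), rE_mem_CInt t (r * r')⟩ := by
      apply Subtype.ext
      simp only [AddSubgroupClass.coe_sub, Subring.coe_mul, map_mul]
      ring
    rwa [e] at h2
  have h3 := h𝔭.inj _ h1
  have h4 : r' = 0 := (mul_eq_zero.mp h3).resolve_left hr
  subst h4
  have e : c - (⟨rE R K F 0, rE_mem_CInt t 0⟩ : CInt R K t) = c := by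
    apply Subtype.ext
    simp
  rwa [e] at hr'

theorem LfInP.cancel {t : F} {n 𝔭 : Ideal (CInt R K t)} [n.IsPrime] (h𝔭 : IsSection n 𝔭) {r : R}
    (hr : r ≠ 0) {a : F} (ha : InLoc n a) (h : LfInP n 𝔭 (rE R K F r * a)) : LfInP n 𝔭 a := by
  obtain ⟨d, hd, h1⟩ := ha
  obtain ⟨e, he, p, hp, h2⟩ := h
  refine ⟨e * d, loc_mul_notMem he hd, e * ⟨_, h1⟩, ?_, by rw [Subring.coe_mul, Subring.coe_mul,
    mul_assoc]⟩
  apply lf_cancel h𝔭 hr
  have e1 : (⟨rE R K F r, rE_mem_CInt t r⟩ : CInt R K t) * (e * ⟨_, h1⟩) = d * p := by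
    apply Subtype.ext
    simp only [Subring.coe_mul]
    rw [← h2]
    ring
  rw [e1]
  exact 𝔭.mul_mem_left _ hp

theorem LfInP.rE_eq_zero {t : F} {n 𝔭 : Ideal (CInt R K t)} [n.IsPrime] (h𝔭 : IsSection n 𝔭)
    {r : R} (h : LfInP n 𝔭 (rE R K F r)) : r = 0 := by
  by_contra hr
  obtain ⟨e, he, p, hp, h2⟩ := h
  apply he
  apply h𝔭.le
  apply lf_cancel h𝔭 hr
  have e1 : (⟨rE R K F r, rE_mem_CInt t r⟩ : CInt R K t) * e = p := by
    apply Subtype.ext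
    simp only [Subring.coe_mul]
    rw [← h2]
    ring
  rw [e1]
  exact hp

theorem lf_dvd_of_not_isUnit (hϖ : Irreducible ϖ) {r : R} (hr : ¬ IsUnit r) : ϖ ∣ r := by
  have h1 := (IsDiscreteValuationRing.irreducible_iff_uniformizer ϖ).mp hϖ
  have h2 : r ∈ IsLocalRing.maximalIdeal R := (IsLocalRing.mem_maximalIdeal r).mpr hr
  rw [h1] at h2
  exact Ideal.mem_span_singleton.mp h2

/-- the value of `ev` at an element outside `n` is a unit. -/
theorem lf_ev_unit (hϖ : Irreducible ϖ) {t : F} {n 𝔭 : Ideal (CInt R K t)} (hn : IsClosedPt ϖ n)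
    (h𝔭 : IsSection n 𝔭) {d : CInt R K t} (hd : d ∉ n) {r : R}
    (hr : d - ⟨rE R K F r, rE_mem_CInt t r⟩ ∈ 𝔭) : IsUnit r := by
  by_contra hu
  obtain ⟨r', rfl⟩ := lf_dvd_of_not_isUnit hϖ hu
  apply hd
  have h1 : (⟨rE R K F (ϖ * r'), rE_mem_CInt t (ϖ * r')⟩ : CInt R K t) ∈ n := by
    have e : (⟨rE R K F (ϖ * r'), rE_mem_CInt t (ϖ * r')⟩ : CInt R K t) =
        ⟨rE R K F r', rE_mem_CInt t r'⟩ * unifC t ϖ := by
      apply Subtype.ext
      simp only [Subring.coe_mul, map_mul, unifC]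
      ring
    rw [e]
    exact n.mul_mem_left _ hn.mem
  have := n.add_mem (h𝔭.le hr) h1
  simpa using this

/-- the value of `ev` at an element of `n` is divisible by `ϖ`. -/
theorem lf_ev_dvd (hϖ : Irreducible ϖ) {t : F} {n 𝔭 : Ideal (CInt R K t)} (hn : IsClosedPt ϖ n)
    (h𝔭 : IsSection n 𝔭) {c : CInt R K t} (hc : c ∈ n) {r : R}
    (hr : c - ⟨rE R K F r, rE_mem_CInt t r⟩ ∈ 𝔭) : ϖ ∣ r := by
  apply lf_dvd_of_not_isUnit hϖ
  intro hu
  obtain ⟨r', hr'⟩ := hu.exists_left_inv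
  have h1 : (⟨rE R K F r, rE_mem_CInt t r⟩ : CInt R K t) ∈ n := by
    have := n.sub_mem hc (h𝔭.le hr)
    simpa using this
  have h2 := n.mul_mem_left (⟨rE R K F r', rE_mem_CInt t r'⟩ : CInt R K t) h1
  have e : (⟨rE R K F r', rE_mem_CInt t r'⟩ : CInt R K t) * ⟨rE R K F r, rE_mem_CInt t r⟩ = 1 := by
    apply Subtype.ext
    simp only [Subring.coe_mul, Subring.coe_one]
    rw [← map_mul, hr', map_one]
  rw [e] at h2
  exact hn.max.ne_top ((Ideal.eq_top_iff_one n).mpr h2)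

/-- `ev` on the maximal ideal of the local ring. -/
theorem lf_shift (hϖ : Irreducible ϖ) {t : F} {n 𝔭 : Ideal (CInt R K t)} (hn : IsClosedPt ϖ n)
    (h𝔭 : IsSection n 𝔭) {S : F} (hS : InMax n S) :
    ∃ s₁ : R, LfInP n 𝔭 (S - rE R K F (ϖ * s₁)) := by
  obtain ⟨d, hd, c, hc, hdS⟩ := hS
  obtain ⟨rd, hrd⟩ := h𝔭.rat d
  obtain ⟨rc, hrc⟩ := h𝔭.rat c
  obtain ⟨u, hu⟩ := (lf_ev_unit hϖ hn h𝔭 hd hrd).exists_left_inv
  obtain ⟨s, rfl⟩ := lf_ev_dvd hϖ hn h𝔭 hc hrc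
  refine ⟨s * u, d, hd, (c - ⟨rE R K F (ϖ * s), rE_mem_CInt t (ϖ * s)⟩) -
    ⟨rE R K F (ϖ * (s * u)), rE_mem_CInt t _⟩ * (d - ⟨rE R K F rd, rE_mem_CInt t rd⟩),
    𝔭.sub_mem hrc (𝔭.mul_mem_left _ hrd), ?_⟩
  simp only [AddSubgroupClass.coe_sub, Subring.coe_mul]
  rw [← hdS]
  have e : rE R K F (ϖ * (s * u)) * rE R K F rd = rE R K F (ϖ * s) := by
    rw [← map_mul]
    congr 1
    calc ϖ * (s * u) * rd = ϖ * s * (u * rd) := by ring
      _ = ϖ * s := by rw [hu, mul_one]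
  linear_combination -e

/-- `𝔭 O` as a submodule of `F` over the local ring. -/
def lfP {t : F} (n 𝔭 : Ideal (CInt R K t)) [n.IsPrime] : Submodule (Oloc n) F where
  carrier := {z | LfInP n 𝔭 z}
  add_mem' := fun ha hb => LfInP.add ha hb
  zero_mem' := by
    have := LfInP.of_mem (n := n) 𝔭.zero_mem
    simpa using this
  smul_mem' := fun a _ hz => LfInP.mul_left a.2 hz

theorem lfP_fg {t : F} (ht : Transcendental K t) (hfin : FiniteDimensional K⟮t⟯ F)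
    (n 𝔭 : Ideal (CInt R K t)) [n.IsPrime] : (lfP n 𝔭).FG := by
  haveI := lf_noeth (R := R) ht hfin
  obtain ⟨s, hs⟩ := (isNoetherianRing_iff_ideal_fg (CInt R K t)).mp inferInstance 𝔭
  rw [Submodule.fg_def]
  refine ⟨(fun c : CInt R K t => (c : F)) '' (s : Set (CInt R K t)), s.finite_toSet.image _, ?_⟩
  apply le_antisymm
  · rw [Submodule.span_le]
    rintro _ ⟨c, hc, rfl⟩
    exact LfInP.of_mem (hs ▸ Ideal.subset_span hc)
  · have key : ∀ p : CInt R K t, p ∈ Ideal.span (s : Set (CInt R K t)) → (p : F) ∈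
        Submodule.span (Oloc n) ((fun c : CInt R K t => (c : F)) '' (s : Set (CInt R K t))) := by
      intro p hp
      induction hp using Submodule.span_induction with
      | mem x hx => exact Submodule.subset_span ⟨x, hx, rfl⟩
      | zero => exact Submodule.zero_mem _
      | add x y _ _ hx hy => exact Submodule.add_mem _ hx hy
      | smul a x _ hx =>
        exact Submodule.smul_mem _ (⟨(a : F), InLoc.of_mem n a.2⟩ : Oloc n) hx
    rintro z ⟨e, he, p, hp, hz⟩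
    have h1 := Submodule.smul_mem _ (⟨(e : F)⁻¹, lf_inv_inLoc he⟩ : Oloc n) (key p (hs.symm ▸ hp))
    have e1 : (⟨(e : F)⁻¹, lf_inv_inLoc he⟩ : Oloc n) • (p : F) = z := by
      show (e : F)⁻¹ * (p : F) = z
      rw [← hz, inv_mul_cancel_left₀ (lf_ne_zero he)]
    rwa [e1] at h1

/-- Nakayama. -/
theorem lf_nak (hϖ : Irreducible ϖ) {t : F} (ht : Transcendental K t)
    (hfin : FiniteDimensional K⟮t⟯ F) {n 𝔭 : Ideal (CInt R K t)} [n.IsPrime]
    (hn : IsClosedPt ϖ n) (h𝔭 : IsSection n 𝔭) (N : Submodule (Oloc n) F)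
    (hN : ∀ z : F, LfInP n 𝔭 z → ∃ a y : F, InLoc n a ∧ y ∈ N ∧ LfInP n 𝔭 y ∧
      z = rE R K F ϖ * a + y) : ∀ z : F, LfInP n 𝔭 z → z ∈ N := by
  have hϖloc : InLoc n (rE R K F ϖ) := InLoc.of_mem n (rE_mem_CInt t ϖ)
  have hϖmax : InMax n (rE R K F ϖ) := ⟨1, loc_one_notMem n, unifC t ϖ, hn.mem, by simp [unifC]⟩
  let I : Ideal (Oloc n) := Ideal.span {(⟨rE R K F ϖ, hϖloc⟩ : Oloc n)}
  have hI : I ≤ Ideal.jacobson ⊥ := by
    rw [Ideal.span_singleton_le_iff_mem, Ideal.mem_jacobson_bot]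
    intro y
    have h1 : InMax n ((y : F) * rE R K F ϖ) := InMax.mul_left y.2 hϖmax
    obtain ⟨h0, h2, h3⟩ := LocUnit.one_add h1
    refine IsUnit.of_mul_eq_one (⟨_, h3⟩ : Oloc n) ?_
    apply Subtype.ext
    show (rE R K F ϖ * (y : F) + 1) * (1 + (y : F) * rE R K F ϖ)⁻¹ = 1
    rw [mul_comm (rE R K F ϖ), add_comm, mul_inv_cancel₀ h0]
  have hle : lfP n 𝔭 ≤ N ⊔ I • lfP n 𝔭 := by
    intro z hz
    obtain ⟨a, y, ha, hy, hyP, rfl⟩ := hN z hz
    have haP : LfInP n 𝔭 a := by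
      apply LfInP.cancel h𝔭 hϖ.ne_zero ha
      have h1 : LfInP n 𝔭 (-1 * y) :=
        LfInP.mul_left (InLoc.of_mem n (CInt R K t).one_mem).neg hyP
      have h2 := LfInP.add hz h1
      have e : rE R K F ϖ * a + y + -1 * y = rE R K F ϖ * a := by ring
      rwa [e] at h2
    rw [add_comm]
    refine Submodule.add_mem_sup hy ?_
    exact Submodule.smul_mem_smul (Ideal.mem_span_singleton_self _) haP
  exact fun z hz => Submodule.le_of_le_smul_of_le_jacobson_bot (lfP_fg ht hfin n 𝔭) hI hle hz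

/-- **LF**. -/
theorem lf (hϖ : Irreducible ϖ) {t : F} (ht : Transcendental K t) (hfin : FiniteDimensional K⟮t⟯ F)
    {n : Ideal (CInt R K t)} (hn : IsClosedPt ϖ n) (hS : SmAt ϖ n ∨ NdAt ϖ n)
    {𝔭 : Ideal (CInt R K t)} (h𝔭 : IsSection n 𝔭) :
    ∃ h : CInt R K t, h ∈ 𝔭 ∧ ∃ c₀ : R, c₀ ≠ 0 ∧ ∀ z : CInt R K t, z ∈ 𝔭 →
      ∃ a : F, InLoc n a ∧ rE R K F c₀ * (z : F) = (h : F) * a := by
  haveI : n.IsPrime := hn.max.isPrime
  have hrE : ∀ r : R, InLoc n (rE R K F r) := fun r => InLoc.of_mem n (rE_mem_CInt t r)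
  rcases hS with ⟨S, hSmax, hgen⟩ | ⟨S, T, ϖ₀, hϖ₀, hSmax, hTmax, hST, hgen⟩
  · obtain ⟨s₁, hs⟩ := lf_shift hϖ hn h𝔭 hSmax
    have hnak := lf_nak hϖ ht hfin hn h𝔭
      (Submodule.span (Oloc n) {S - rE R K F (ϖ * s₁)}) (by
        intro z hz
        obtain ⟨a, b, ha, hb, rfl⟩ := hgen z (hz.inMax h𝔭.le)
        refine ⟨a + rE R K F s₁ * b, b * (S - rE R K F (ϖ * s₁)), ha.add ((hrE s₁).mul hb),
          Submodule.smul_mem _ (⟨b, hb⟩ : Oloc n) (Submodule.mem_span_singleton_self _),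
          LfInP.mul_left hb hs, ?_⟩
        rw [map_mul]
        ring)
    obtain ⟨e, he, p, hp, hep⟩ := hs
    refine ⟨p, hp, 1, one_ne_zero, fun z hz => ?_⟩
    obtain ⟨a, ha⟩ := Submodule.mem_span_singleton.mp (hnak z (LfInP.of_mem hz))
    refine ⟨(a : F) * (e : F)⁻¹, InLoc.mul a.2 (lf_inv_inLoc he), ?_⟩
    have ha' : (a : F) * (S - rE R K F (ϖ * s₁)) = z := ha
    have he0 := lf_ne_zero he
    rw [map_one, one_mul, ← hep, ← ha']
    field_simp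
  · obtain ⟨s₁, hs⟩ := lf_shift hϖ hn h𝔭 hSmax
    obtain ⟨t₁, ht₁⟩ := lf_shift hϖ hn h𝔭 hTmax
    have hnak := lf_nak hϖ ht hfin hn h𝔭
      (Submodule.span (Oloc n) {S - rE R K F (ϖ * s₁), T - rE R K F (ϖ * t₁)}) (by
        intro z hz
        obtain ⟨a, b, c, ha, hb, hc, rfl⟩ := hgen z (hz.inMax h𝔭.le)
        refine ⟨a + rE R K F s₁ * b + rE R K F t₁ * c,
          b * (S - rE R K F (ϖ * s₁)) + c * (T - rE R K F (ϖ * t₁)),
          (ha.add ((hrE s₁).mul hb)).add ((hrE t₁).mul hc),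
          Submodule.add_mem _
            (Submodule.smul_mem _ (⟨b, hb⟩ : Oloc n) (Submodule.subset_span (by simp)))
            (Submodule.smul_mem _ (⟨c, hc⟩ : Oloc n) (Submodule.subset_span (by simp))),
          (LfInP.mul_left hb hs).add (LfInP.mul_left hc ht₁), ?_⟩
        rw [map_mul, map_mul]
        ring)
    -- `s₀ t₀ = ϖ₀`
    have hprod : ϖ₀ = (ϖ * s₁) * (ϖ * t₁) := by
      have h1 : LfInP n 𝔭 (rE R K F (ϖ₀ - (ϖ * s₁) * (ϖ * t₁))) := by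
        have h2 := (LfInP.mul_left hTmax.inLoc hs).add (LfInP.mul_left (hrE (ϖ * s₁)) ht₁)
        have e : T * (S - rE R K F (ϖ * s₁)) + rE R K F (ϖ * s₁) * (T - rE R K F (ϖ * t₁)) =
            rE R K F (ϖ₀ - (ϖ * s₁) * (ϖ * t₁)) := by
          rw [map_sub, ← hST, map_mul (rE R K F) (ϖ * s₁) (ϖ * t₁)]
          ring
        rwa [e] at h2
      exact sub_eq_zero.mp (LfInP.rE_eq_zero h𝔭 h1)
    have hs0 : ϖ * s₁ ≠ 0 := by
      intro h0
      rw [h0, zero_mul] at hprod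
      exact hϖ₀ hprod
    obtain ⟨e, he, p, hp, hep⟩ := hs
    refine ⟨p, hp, ϖ * s₁, hs0, fun z hz => ?_⟩
    obtain ⟨a, b, hab⟩ := Submodule.mem_span_pair.mp (hnak z (LfInP.of_mem hz))
    refine ⟨(rE R K F (ϖ * s₁) * (a : F) - (b : F) * T) * (e : F)⁻¹,
      InLoc.mul (((hrE _).mul a.2).sub (InLoc.mul b.2 hTmax.inLoc)) (lf_inv_inLoc he), ?_⟩
    have hab' : (a : F) * (S - rE R K F (ϖ * s₁)) + (b : F) * (T - rE R K F (ϖ * t₁)) = z := hab
    have he0 := lf_ne_zero he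
    have hST' : S * T = rE R K F (ϖ * s₁) * rE R K F (ϖ * t₁) := by
      rw [hST, hprod, map_mul (rE R K F) (ϖ * s₁) (ϖ * t₁)]
    rw [← hep, ← hab']
    field_simp
    linear_combination (b : F) * hST'

end Fermat.Agent.S34
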