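import Fermat.Agent.S34.Val

set_option autoImplicit false

/-!
# S34 / DA1 : an element without poles through `n` lies in `Oloc n [1/ϖ]`   (task T-DA1)

SKETCH.  `S = {i | w i z < 0 ∧ 0 ≤ w i t}` is finite (`hw.fin`).  For `i ∈ S`, `¬ Thru w i n`, so there is `d_i ∉ n` with `w i d_i ≠ 0`,
 hence `0 < w i d_i` (`nonneg_of_mem_CInt`).  `d = ∏_{i ∈ S} d_i ^ (- w i z).toNat ∉ n` (`n` prime).  For every `j` with `0 ≤ w j t`: `0 ≤ w j (d z)`
 (`map_mul`, `map_prod`, `map_pow`; every factor has `w j ≥ 0`, and for `j ∈ S` the factor `j` has `w j ≥ - w j z`).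
 `hint` + `exists_pow_mul_mem_CInt`: `ϖ^k d z ∈ C`, i.e. `InLoc n (ϖ^k z)` with denominator `d`.
-/

noncomputable section

namespace Fermat.Agent.S34

open Polynomial IntermediateField Fermat.Agent.S18

variable {R K F : Type} [CommRing R] [IsDomain R] [IsDiscreteValuationRing R] [Field K] [CharZero K]
  [Algebra R K] [IsFractionRing R K] [Field F] [Algebra K F] {ϖ : R} {ι : Type} {w : ι → F → ℤ}

theorem exists_inLoc_of_nonneg (hϖ : Irreducible ϖ) (hw : ValFam K w) {t : F} (hint : IntAt K w t)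
    (n : Ideal (CInt R K t)) [hn : n.IsPrime] {z : F} (hz : z ≠ 0)
    (h : ∀ i, Thru w i n → 0 ≤ w i z) : ∃ k : ℕ, InLoc n (rE R K F ϖ ^ k * z) := by
  classical
  have hne : ∀ d : CInt R K t, d ∉ n → (d : F) ≠ 0 := by
    intro d hd h0
    apply hd
    have : d = 0 := Subtype.ext h0
    rw [this]; exact n.zero_mem
  have hd : ∀ i, ∃ d : CInt R K t, d ∉ n ∧ (w i z < 0 → 0 ≤ w i t → 0 < w i (d : F)) := by
    intro i
    by_cases hi : w i z < 0 ∧ 0 ≤ w i t
    · have hnot : ¬ Thru w i n := fun hT => by have := h i hT; omega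
      simp only [Thru, not_and, not_forall] at hnot
      obtain ⟨d, hdn, hd0⟩ := hnot hi.2
      refine ⟨d, hdn, fun _ _ => ?_⟩
      have := hw.nonneg_of_mem_CInt (R := R) hi.2 d.2 (hne d hdn)
      omega
    · exact ⟨1, (Ideal.ne_top_iff_one n).1 hn.ne_top, fun h1 h2 => absurd ⟨h1, h2⟩ hi⟩
  choose d hdn hdpos using hd
  set S : Finset ι := (hw.fin z hz).toFinset.filter (fun i => w i z < 0 ∧ 0 ≤ w i t) with hS
  set D : CInt R K t := ∏ i ∈ S, d i ^ (- w i z).toNat with hD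
  have hDn : D ∉ n := by
    intro hmem
    rw [hD, hn.prod_mem_iff] at hmem
    obtain ⟨i, -, hi⟩ := hmem
    exact hdn i (hn.mem_of_pow_mem _ hi)
  have hDF : (D : F) = ∏ i ∈ S, (d i : F) ^ (- w i z).toNat := by
    rw [hD]; simp
  have hfac : ∀ i ∈ S, (d i : F) ^ (- w i z).toNat ≠ 0 := fun i _ => pow_ne_zero _ (hne _ (hdn i))
  have hDz : (D : F) * z ≠ 0 := mul_ne_zero (hne D hDn) hz
  have hnonneg : ∀ j, 0 ≤ w j t → 0 ≤ w j ((D : F) * z) := by
    intro j hj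
    rw [hw.map_mul j _ _ (hne D hDn) hz, hDF, hw.map_prod j S _ hfac]
    have hterm : ∀ i ∈ S, 0 ≤ w j ((d i : F) ^ (- w i z).toNat) := by
      intro i _
      rw [hw.map_pow j (hne _ (hdn i))]
      exact mul_nonneg (by positivity) (hw.nonneg_of_mem_CInt (R := R) hj (d i).2 (hne _ (hdn i)))
    have hsum : 0 ≤ ∑ i ∈ S, w j ((d i : F) ^ (- w i z).toNat) := Finset.sum_nonneg hterm
    by_cases hjz : w j z < 0
    · have hjS : j ∈ S := by
        rw [hS, Finset.mem_filter, Set.Finite.mem_toFinset]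
        exact ⟨by simp only [Set.mem_ofPred_eq]; omega, hjz, hj⟩
      have h1 : w j ((d j : F) ^ (- w j z).toNat) ≤ ∑ i ∈ S, w j ((d i : F) ^ (- w i z).toNat) :=
        Finset.single_le_sum hterm hjS
      rw [hw.map_pow j (hne _ (hdn j))] at h1
      have h2 := hdpos j hjz hj
      have h3 : (((- w j z).toNat : ℕ) : ℤ) = - w j z := Int.toNat_of_nonneg (by omega)
      rw [h3] at h1
      nlinarith
    · omega
  obtain ⟨k, hk⟩ := exists_pow_mul_mem_CInt (R := R) hϖ (hint _ hDz hnonneg)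
  refine ⟨k, D, hDn, ?_⟩
  have : (D : F) * (rE R K F ϖ ^ k * z) = rE R K F ϖ ^ k * ((D : F) * z) := by ring
  rw [this]; exact hk

/-- consequence: no zero and no pole through `n` ⟹ unit of `Oloc n [1/ϖ]`. -/
theorem genUnit_of_eq_zero (hϖ : Irreducible ϖ) (hw : ValFam K w) {t : F} (hint : IntAt K w t)
    (n : Ideal (CInt R K t)) [n.IsPrime] {z : F} (hz : z ≠ 0)
    (h : ∀ i, Thru w i n → w i z = 0) : GenUnit ϖ n z := by
  obtain ⟨k₁, h₁⟩ := exists_inLoc_of_nonneg hϖ hw hint n hz (fun i hi => (h i hi).ge)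
  obtain ⟨k₂, h₂⟩ := exists_inLoc_of_nonneg hϖ hw hint n (inv_ne_zero hz)
    (fun i hi => by rw [hw.map_inv i hz, h i hi]; simp)
  have hϖL : ∀ j : ℕ, InLoc n (rE R K F ϖ ^ j) := fun j =>
    (InLoc.of_mem n (rE_mem_CInt t ϖ)).pow j
  refine ⟨hz, k₁ + k₂, ?_, ?_⟩
  · have : rE R K F ϖ ^ (k₁ + k₂) * z = rE R K F ϖ ^ k₂ * (rE R K F ϖ ^ k₁ * z) := by
      rw [pow_add]; ring
    rw [this]; exact (hϖL k₂).mul h₁
  · have : rE R K F ϖ ^ (k₁ + k₂) * z⁻¹ = rE R K F ϖ ^ k₁ * (rE R K F ϖ ^ k₂ * z⁻¹) := by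
      rw [pow_add]; ring
    rw [this]; exact (hϖL k₁).mul h₂

end Fermat.Agent.S34
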