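import Fermat.Agent.S34.Val
import Fermat.Agent.S34.LF

set_option autoImplicit false
set_option linter.unusedSectionVars false
set_option linter.style.haveILetI false

/-!
# S34 / DA2 : a local equation of a rational horizontal valuation through `n`   (task T-DA2)

`i` passes through `n` and is rational (`RatAt`).  `𝔭 := {c ∈ C | c = 0 ∨ 0 < w i c}`.

SKETCH.
 (a) `𝔭` is an ideal of `C` (`nonneg_of_mem_CInt`), `𝔭 ≤ n` (`d ∉ n ⟹ w i d = 0`).
 (b) `rat`: for `c ∈ C`, `c ≠ 0`: `RatAt` gives `ρ : K` with `c = ρ` or `0 < w i (c - ρ)`.  Claim `ρ ∈ R` (image of `R`): otherwise `ρ⁻¹ = ϖ r`, `r ∈ R` (DVR),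
     `1 - ρ⁻¹ c = - ρ⁻¹ (c - ρ) ∈ 𝔭 ⊆ n` and `ρ⁻¹ c = ϖ r c ∈ n`, so `1 ∈ n`: contradiction.    `inj`: `w i (rE r) = 0` for `r ≠ 0`.
     In particular `IsRat n`, so `hSS` gives `SmAt ∨ NdAt`, and `lf` gives `h ∈ 𝔭`, `c₀ ≠ 0` with `c₀ 𝔭 ⊆ h O`.   (`h ≠ 0` because `𝔭 ≠ 0`: see (c).)
 (c) for `a` with `InLoc n a`, `a ≠ 0` and `j` through `n`: `0 ≤ w j a`.  Let `e = w i h ≥ 1`.  By strong induction on `w i c`: `e ∣ w i c` for all `c ∈ C \ 0`
     (`w i c > 0 ⟹ c ∈ 𝔭 ⟹ c₀ c = h a`, `d a = c' ∈ C`, `d ∉ n`, `w i c' = w i c - e`).  With `exists_mul_mem_CInt`: `e ∣ w i z` for all `z ≠ 0`; `u` with `w i u = 1` gives `e = 1`.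
 (d) `j` through `n` with `w j h ≠ 0`, i.e. `e' = w j h > 0`: then `𝔭 ⊆ 𝔭_j` (`c₀ z = h a`), and `𝔭_j ⊆ 𝔭` (`c = r + z`, `z ∈ 𝔭`, `r = c - z ∈ 𝔭_j ∩ R = 0`).
     By the same induction `w j c = e' * w i c` for `c ∈ C \ 0`, hence for all `z ≠ 0`; in particular `w i z = 0 → w j z = 0`.
-/

noncomputable section

namespace Fermat.Agent.S34

open Polynomial IntermediateField Fermat.Agent.S18

variable {R K F : Type} [CommRing R] [IsDomain R] [IsDiscreteValuationRing R] [Field K] [CharZero K]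
  [Algebra R K] [IsFractionRing R K] [Field F] [Algebra K F] {ϖ : R} {ι : Type} {w : ι → F → ℤ}

/-- the ideal of the horizontal valuation `w i`. -/
def da2Ideal (hw : ValFam K w) {t : F} {i : ι} (hi : 0 ≤ w i t) : Ideal (CInt R K t) where
  carrier := {c | c = 0 ∨ 0 < w i (c : F)}
  zero_mem' := Or.inl rfl
  add_mem' := by
    rintro a b (rfl | ha) hb
    · rwa [zero_add]
    rcases hb with rfl | hb
    · rw [add_zero]; exact Or.inr ha
    by_cases hab : a + b = 0
    · exact Or.inl hab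
    by_cases ha0 : a = 0
    · subst ha0; rw [zero_add]; exact Or.inr hb
    by_cases hb0 : b = 0
    · subst hb0; rw [add_zero]; exact Or.inr ha
    right
    have h1 := hw.map_add i (a : F) (b : F) (fun h => ha0 (Subtype.ext h))
      (fun h => hb0 (Subtype.ext h)) (fun h => hab (Subtype.ext h))
    rw [Subring.coe_add]
    exact lt_of_lt_of_le (lt_min ha hb) h1
  smul_mem' := by
    rintro c a (rfl | ha)
    · left; simp
    by_cases hc0 : c = 0
    · left; simp [hc0]
    by_cases ha0 : a = 0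
    · left; simp [ha0]
    right
    have hc0' : (c : F) ≠ 0 := fun h => hc0 (Subtype.ext h)
    have h1 := hw.map_mul i (c : F) (a : F) hc0' (fun h => ha0 (Subtype.ext h))
    have h2 := hw.nonneg_of_mem_CInt hi c.2 hc0'
    rw [smul_eq_mul, Subring.coe_mul, h1]
    omega

theorem mem_da2Ideal (hw : ValFam K w) {t : F} {i : ι} (hi : 0 ≤ w i t) (c : CInt R K t) :
    c ∈ da2Ideal hw hi ↔ c = 0 ∨ 0 < w i (c : F) := Iff.rfl

theorem da2_coe_ne_zero {t : F} {c : CInt R K t} (hc : c ≠ 0) : (c : F) ≠ 0 :=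
  fun h => hc (Subtype.ext h)

theorem da2_isSection (hϖ : Irreducible ϖ) (hw : ValFam K w) {t : F}
    {n : Ideal (CInt R K t)} (hn : IsClosedPt ϖ n) {i : ι} (hi : Thru w i n) (hr : RatAt K w i) :
    IsSection n (da2Ideal hw hi.1) := by
  have hle : da2Ideal hw hi.1 ≤ n := by
    rintro c (rfl | hc)
    · exact n.zero_mem
    · by_contra hcn
      rw [hi.2 c hcn] at hc
      exact lt_irrefl _ hc
  refine ⟨hle, ?_, ?_⟩
  · intro c
    by_cases hc0 : c = 0
    · refine ⟨0, Or.inl ?_⟩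
      apply Subtype.ext
      simp [hc0]
    have hc0' := da2_coe_ne_zero hc0
    obtain ⟨ρ, hρ⟩ := hr.1 c hc0' (hw.nonneg_of_mem_CInt hi.1 c.2 hc0')
    -- `ρ` is integral
    have hρR : ∃ r : R, algebraMap R K r = ρ := by
      by_cases hρ0 : ρ = 0
      · exact ⟨0, by rw [hρ0, map_zero]⟩
      rcases ValuationRing.isInteger_or_isInteger R ρ with h | ⟨r, hr'⟩
      · exact h
      by_cases hu : IsUnit r
      · obtain ⟨r', hr''⟩ := hu.exists_left_inv
        refine ⟨r', ?_⟩
        have h1 : algebraMap R K r' * ρ⁻¹ = 1 := by rw [← hr', ← map_mul, hr'', map_one]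
        field_simp at h1
        exact h1
      exfalso
      obtain ⟨r', rfl⟩ := lf_dvd_of_not_isUnit hϖ hu
      have hρF : algebraMap K F ρ ≠ 0 := by simpa using hρ0
      have hrE : rE R K F (ϖ * r') = (algebraMap K F ρ)⁻¹ := by
        rw [rE_apply, hr', map_inv₀]
      have hq : (1 - ⟨rE R K F (ϖ * r'), rE_mem_CInt t _⟩ * c : CInt R K t) ∈
          da2Ideal hw hi.1 := by
        by_cases hz : (c : F) = algebraMap K F ρ
        · left
          apply Subtype.ext
          show 1 - rE R K F (ϖ * r') * (c : F) = 0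
          rw [hz, hrE, inv_mul_cancel₀ hρF, sub_self]
        · right
          have hpos := hρ.resolve_left hz
          have e : ((1 - ⟨rE R K F (ϖ * r'), rE_mem_CInt t _⟩ * c : CInt R K t) : F) =
              (-(algebraMap K F ρ⁻¹)) * ((c : F) - algebraMap K F ρ) := by
            show 1 - rE R K F (ϖ * r') * (c : F) = _
            rw [hrE, map_inv₀]
            field_simp
            ring
          have hne : algebraMap K F ρ⁻¹ ≠ 0 := by simpa using hρ0
          rw [e, hw.map_mul i _ _ (neg_ne_zero.mpr hne) (sub_ne_zero.mpr hz), hw.map_neg i hne,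
            hw.map_const i _ (inv_ne_zero hρ0), zero_add]
          exact hpos
      have h1 : (⟨rE R K F (ϖ * r'), rE_mem_CInt t _⟩ * c : CInt R K t) ∈ n := by
        have e : (⟨rE R K F (ϖ * r'), rE_mem_CInt t _⟩ * c : CInt R K t) =
            (⟨rE R K F r', rE_mem_CInt t r'⟩ * c) * unifC t ϖ := by
          apply Subtype.ext
          simp only [Subring.coe_mul, map_mul, unifC]
          ring
        rw [e]
        exact n.mul_mem_left _ hn.mem
      have h2 := n.add_mem (hle hq) h1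
      rw [sub_add_cancel] at h2
      exact hn.max.ne_top ((Ideal.eq_top_iff_one n).mpr h2)
    obtain ⟨r, rfl⟩ := hρR
    refine ⟨r, ?_⟩
    by_cases hz : (c : F) = algebraMap K F (algebraMap R K r)
    · left
      apply Subtype.ext
      show (c : F) - rE R K F r = 0
      rw [rE_apply, hz, sub_self]
    · right
      exact hρ.resolve_left hz
  · rintro r (h | h)
    · apply rE_injective (K := K) (E := F)
      rw [map_zero]
      exact congrArg Subtype.val h
    · by_contra hr0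
      have h' : 0 < w i (rE R K F r) := h
      rw [hw.map_rE i hr0] at h'
      exact lt_irrefl _ h'

theorem exists_local_eq (hϖ : Irreducible ϖ) (hw : ValFam K w) {t : F} (ht : Transcendental K t)
    (hfin : FiniteDimensional K⟮t⟯ F) {n : Ideal (CInt R K t)} (hn : IsClosedPt ϖ n)
    (hSS : IsRat n → SmAt ϖ n ∨ NdAt ϖ n) {i : ι} (hi : Thru w i n) (hr : RatAt K w i) :
    ∃ h : F, h ≠ 0 ∧ w i h = 1 ∧
      ∀ j, Thru w j n → (w j h = 0 ∨ ∀ z : F, z ≠ 0 → w i z = 0 → w j z = 0) := by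
  haveI : n.IsPrime := hn.max.isPrime
  set 𝔭 : Ideal (CInt R K t) := da2Ideal (R := R) hw hi.1 with h𝔭def
  have h𝔭 : IsSection n 𝔭 := da2_isSection hϖ hw hn hi hr
  have hrat : IsRat n := fun c => by
    obtain ⟨r, hr⟩ := h𝔭.rat c
    exact ⟨r, h𝔭.le hr⟩
  obtain ⟨h, hh, c₀, hc₀, hlf⟩ := lf hϖ ht hfin hn (hSS hrat) h𝔭
  have hnn : ∀ j, Thru w j n → ∀ c : CInt R K t, c ≠ 0 → 0 ≤ w j (c : F) :=
    fun j hj c hc => hw.nonneg_of_mem_CInt hj.1 c.2 (da2_coe_ne_zero hc)
  -- one division step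
  have hstep : ∀ c : CInt R K t, c ∈ 𝔭 → c ≠ 0 → (h : F) ≠ 0 ∧ ∃ c' : CInt R K t, c' ≠ 0 ∧
      ∀ j, Thru w j n → w j (c : F) = w j (h : F) + w j (c' : F) := by
    intro c hc hc0
    obtain ⟨a, ⟨d, hd, hda⟩, hca⟩ := hlf c hc
    have hc0' := da2_coe_ne_zero hc0
    have hc₀' : rE R K F c₀ ≠ 0 :=
      fun h0 => hc₀ (rE_injective (K := K) (E := F) (by rw [h0, map_zero]))
    have hprod : (h : F) * a ≠ 0 := hca ▸ mul_ne_zero hc₀' hc0'
    have hh0 : (h : F) ≠ 0 := left_ne_zero_of_mul hprod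
    have ha0 : a ≠ 0 := right_ne_zero_of_mul hprod
    have hd0 : (d : F) ≠ 0 := lf_ne_zero hd
    refine ⟨hh0, ⟨_, hda⟩, fun h0 => mul_ne_zero hd0 ha0 (congrArg Subtype.val h0),
      fun j hj => ?_⟩
    have e1 := hw.map_mul j _ _ hc₀' hc0'
    rw [hca, hw.map_mul j _ _ hh0 ha0, hw.map_rE j hc₀, zero_add] at e1
    have e2 := hw.map_mul j _ _ hd0 ha0
    rw [hj.2 d hd, zero_add] at e2
    show w j (c : F) = w j (h : F) + w j ((d : F) * a)
    rw [e2, ← e1]
  -- `𝔭 ≠ 0`
  obtain ⟨u, hu0, hu1⟩ := hr.2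
  obtain ⟨b, hb0, hbu⟩ := exists_mul_mem_CInt (R := R) ht hfin u
  have hb0' := da2_coe_ne_zero hb0
  have hbu_mem : (⟨_, hbu⟩ : CInt R K t) ∈ 𝔭 := by
    right
    show 0 < w i ((b : F) * u)
    rw [hw.map_mul i _ _ hb0' hu0, hu1]
    have := hnn i hi b hb0
    omega
  have hbu0 : (⟨_, hbu⟩ : CInt R K t) ≠ 0 :=
    fun h0 => mul_ne_zero hb0' hu0 (congrArg Subtype.val h0)
  have hh0 : (h : F) ≠ 0 := (hstep _ hbu_mem hbu0).1
  have hh0C : h ≠ 0 := fun h0 => hh0 (by rw [h0]; rfl)
  have he : 0 < w i (h : F) := hh.resolve_left hh0C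
  -- divisibility by `e = w i h`
  have hdvdC : ∀ (k : ℕ) (c : CInt R K t), c ≠ 0 → w i (c : F) ≤ k →
      w i (h : F) ∣ w i (c : F) := by
    intro k
    induction k with
    | zero =>
      intro c hc hk
      have := hnn i hi c hc
      have h0 : w i (c : F) = 0 := by push_cast at hk; omega
      rw [h0]; exact dvd_zero _
    | succ k ih =>
      intro c hc hk
      by_cases hpos : 0 < w i (c : F)
      · obtain ⟨-, c', hc', hcc'⟩ := hstep c (Or.inr hpos) hc
        have e := hcc' i hi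
        have := ih c' hc' (by push_cast at hk; omega)
        rw [e]; exact dvd_add (dvd_refl _) this
      · have := hnn i hi c hc
        have h0 : w i (c : F) = 0 := by omega
        rw [h0]; exact dvd_zero _
  have hdvd : ∀ z : F, z ≠ 0 → w i (h : F) ∣ w i z := by
    intro z hz
    obtain ⟨b, hb0, hbz⟩ := exists_mul_mem_CInt (R := R) ht hfin z
    have hb0' := da2_coe_ne_zero hb0
    have e := hw.map_mul i _ _ hb0' hz
    have h1 := hdvdC _ b hb0 (Int.self_le_toNat _)
    have h2 := hdvdC _ ⟨_, hbz⟩ (fun h0 => mul_ne_zero hb0' hz (congrArg Subtype.val h0))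
      (Int.self_le_toNat _)
    have h3 : w i z = w i ((b : F) * z) - w i (b : F) := by omega
    rw [h3]; exact dvd_sub h2 h1
  have he1 : w i (h : F) = 1 := by
    have := hdvd u hu0
    rw [hu1] at this
    exact Int.eq_one_of_dvd_one he.le this
  refine ⟨h, hh0, he1, fun j hj => ?_⟩
  by_cases hj0 : w j (h : F) = 0
  · exact Or.inl hj0
  right
  have hjpos : 0 < w j (h : F) := lt_of_le_of_ne (hnn j hj h hh0C) (Ne.symm hj0)
  have hzero : ∀ c : CInt R K t, c ≠ 0 → w i (c : F) = 0 → w j (c : F) = 0 := by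
    intro c hc hc0
    obtain ⟨r, hr'⟩ := h𝔭.rat c
    have hr0 : r ≠ 0 := by
      rintro rfl
      have e : c - (⟨rE R K F 0, rE_mem_CInt t 0⟩ : CInt R K t) = c := by
        apply Subtype.ext
        simp
      rw [e] at hr'
      rcases hr' with h1 | h1
      · exact hc h1
      · rw [hc0] at h1; exact lt_irrefl _ h1
    by_cases hz : c - (⟨rE R K F r, rE_mem_CInt t r⟩ : CInt R K t) = 0
    · have e : (c : F) = rE R K F r := congrArg Subtype.val (sub_eq_zero.mp hz)
      rw [e, hw.map_rE j hr0]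
    · obtain ⟨-, c', hc', hcc'⟩ := hstep _ hr' hz
      have h1 := hcc' j hj
      have h2 := hnn j hj c' hc'
      have h3 := hnn j hj c hc
      have hrne : rE R K F r ≠ 0 :=
        fun h0 => hr0 (rE_injective (K := K) (E := F) (by rw [h0, map_zero]))
      have e : (c : F) - ((c - (⟨rE R K F r, rE_mem_CInt t r⟩ : CInt R K t) : CInt R K t) : F) =
          rE R K F r := by
        simp
      have h4 := hw.map_sub j (da2_coe_ne_zero hc) (da2_coe_ne_zero hz) (by rw [e]; exact hrne)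
      rw [e, hw.map_rE j hr0] at h4
      rcases min_le_iff.mp h4 with h5 | h5
      · omega
      · omega
  have hmulC : ∀ (k : ℕ) (c : CInt R K t), c ≠ 0 → w i (c : F) ≤ k →
      w j (c : F) = w j (h : F) * w i (c : F) := by
    intro k
    induction k with
    | zero =>
      intro c hc hk
      have := hnn i hi c hc
      have h0 : w i (c : F) = 0 := by push_cast at hk; omega
      rw [h0, hzero c hc h0, mul_zero]
    | succ k ih =>
      intro c hc hk
      by_cases hpos : 0 < w i (c : F)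
      · obtain ⟨-, c', hc', hcc'⟩ := hstep c (Or.inr hpos) hc
        have e := hcc' i hi
        have e' := hcc' j hj
        have := ih c' hc' (by push_cast at hk; omega)
        rw [e', e, this, he1]; ring
      · have := hnn i hi c hc
        have h0 : w i (c : F) = 0 := by omega
        rw [h0, hzero c hc h0, mul_zero]
  intro z hz hz0
  obtain ⟨b, hb0, hbz⟩ := exists_mul_mem_CInt (R := R) ht hfin z
  have hb0' := da2_coe_ne_zero hb0
  have e := hw.map_mul i _ _ hb0' hz
  have e' := hw.map_mul j _ _ hb0' hz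
  have h1 := hmulC _ b hb0 (Int.self_le_toNat _)
  have h2 := hmulC _ ⟨_, hbz⟩ (fun h0 => mul_ne_zero hb0' hz (congrArg Subtype.val h0))
    (Int.self_le_toNat _)
  have h2' : w j ((b : F) * z) = w j (h : F) * w i ((b : F) * z) := h2
  rw [e, e', hz0, add_zero, ← h1] at h2'
  omega

end Fermat.Agent.S34
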