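import Fermat.Agent.S34.BR.Defs
import Fermat.Agent.S34.Inst.Conc

set_option autoImplicit false

/-!
# S34 / Geo : the interface between the geometric chapters (V2 + INST, SS, MOD) and the final assembly `GoalA.lean`

`Geo N A ι` bundles, for a number field `K` with `ι : K →+* ℚ̄`, `R = A ∩ K`:
the uniformiser, the coordinate `x ∈ F_K = modularFunctionFieldFullC K N`, the two branches, the structure theorem of the special fibre in both charts,
and the action of the inertia group.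

`exists_geo` : such a package exists as soon as `K` is Galois over `ℚ` and contains a fixed finite set of
constants (`K₁`: roots of unity of order `M = N / q` and of an auxiliary prime order).
-/

noncomputable section

namespace Fermat.Agent.S34

open AlgebraicCurve ModularCurve
open Fermat.Agent.S24 (Kb FN iotaK)
open Fermat.Agent.S18 (toFN)
open Fermat.Agent.GES (GQ galF)

/-- the geometric package over `(K, ι)`. -/
structure Geo (N : ℕ) [NeZero N] (A : ValuationSubring Kb) {K : Type} [Field K] (ι : K →+* Kb) where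
  ϖ : ↥(A.comap ι)
  x : modularFunctionFieldFullC K N
  Vi : ValuationSubring (modularFunctionFieldFullC K N)
  V0 : ValuationSubring (modularFunctionFieldFullC K N)
  irr : Irreducible ϖ
  branches : Branches (K := K) ϖ x Vi V0
  ss_fin : SSAt (R := ↥(A.comap ι)) (K := K) ϖ x
  ss_inf : SSAt (R := ↥(A.comap ι)) (K := K) ϖ x⁻¹
  gal : ∀ τ : GQ, τ ∈ A.inertiaSubgroupIn ℚ →
    ∃ τF : modularFunctionFieldFullC K N ≃+* modularFunctionFieldFullC K N,
      InertiaLike (R := ↥(A.comap ι)) (K := K) x Vi V0 τF ∧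
        ∀ z, toFN ι N (τF z) = galF N τ (toFN ι N z)

/-- the package at level `M * q`, given the roots of unity. -/
theorem geo_of_roots (M q p : ℕ) [NeZero M] [NeZero q] (hq : q.Prime) (hqM : ¬ q ∣ M)
    (hr : (S18.lineOf q).r ∣ M) (A : ValuationSubring Kb) (hA : A.LiesOverPrime q) (hp : p.Prime)
    (hpq : p ≠ q) (K : Type) [Field K] [NumberField K] [IsGalois ℚ K] (ι : K →+* Kb) (ζ : K)
    (hζ : IsPrimitiveRoot ζ p) (ζM : K) (hζM : IsPrimitiveRoot ζM M) :
    Nonempty (Geo (M * q) A ι) := by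
  have : IsDiscreteValuationRing ↥(A.comap ι) := S18.isDVR_comap ι A hq hA
  obtain ⟨ϖ, hϖ⟩ := IsDiscreteValuationRing.exists_irreducible ↥(A.comap ι)
  obtain ⟨E, _, _, _, _, T, hT, hc1, hc2⟩ :=
    V2.exists_two' M q p hq hqM hr A hA hp hpq K ι ζ hζ ζM hζM hϖ
  obtain ⟨s, hsx, hsR, hsR', -, hsi, hs0⟩ := hT.exists_frobE ι A hA
  obtain ⟨jj, hj⟩ := hT.exists_j
  have hs : FrobTwist T s := ⟨hsx, hsR, hsR', hsi, hs0⟩
  obtain ⟨hB, h1, h2⟩ := geo_abs hϖ hc1.fin hc1.inO_iff hc1.normal hc2.normal hs hT.m8_fin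
    hT.m8_inf (hc2.C_le hϖ (S18.self_mem_CInt _)) (hT.jdHyp hqM hj hsx) (hT.rel_fin hj)
    (hT.rel_inf hj)
  exact ⟨{ ϖ := ϖ
           x := T.xF
           Vi := T.Vi
           V0 := T.V0
           irr := hϖ
           branches := hB
           ss_fin := h1
           ss_inf := h2
           gal := fun τ hτ => ⟨V2.galFK (V2.resK ι τ) (M * q), hT.gal ι A hτ,
             fun z => V2.toFN_galFK ι (M * q) τ z⟩ }⟩

/-- **GEO-Final**. -/
theorem exists_geo (N q r : ℕ) [NeZero N] (hq : q.Prime) (hqN : q ∣ N) (hq2 : ¬ q ^ 2 ∣ N)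
    (hr : (q ≠ 3 ∧ r = 3) ∨ (q = 3 ∧ r = 2)) (hrN : r ∣ N)
    (A : ValuationSubring Kb) (hA : A.LiesOverPrime q) :
    ∃ K₁ : IntermediateField ℚ Kb, FiniteDimensional ℚ K₁ ∧
      ∀ (K : Type) [Field K] [NumberField K] [IsGalois ℚ K] (ι : K →+* Kb),
        (∀ c ∈ K₁, ∃ c' : K, ι c' = c) → Nonempty (Geo N A ι) := by
  obtain ⟨M, hM⟩ := hqN
  have hN : N = M * q := by rw [hM, mul_comm]
  subst hN
  have : NeZero q := ⟨hq.ne_zero⟩
  have : NeZero M := ⟨by rintro rfl; exact NeZero.ne (0 * q) (zero_mul q)⟩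
  have hqM : ¬ q ∣ M := fun h => hq2 (by rw [pow_two]; exact Nat.mul_dvd_mul h dvd_rfl)
  have hrM : (S18.lineOf q).r ∣ M := by
    rcases hr with ⟨h3, rfl⟩ | ⟨rfl, rfl⟩
    · have e : S18.lineOf q = S18.line3 := if_neg h3
      rw [e]
      exact (Nat.Coprime.dvd_of_dvd_mul_right
        ((Nat.coprime_primes Nat.prime_three hq).2 (Ne.symm h3)) hrN)
    · have e : S18.lineOf 3 = S18.line2 := if_pos rfl
      rw [e]
      exact (Nat.Coprime.dvd_of_dvd_mul_right (by decide) hrN)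
  obtain ⟨p, hp, hpq⟩ : ∃ p : ℕ, p.Prime ∧ p ≠ q := by
    by_cases h : q = 2
    · exact ⟨3, Nat.prime_three, by rw [h]; decide⟩
    · exact ⟨2, Nat.prime_two, Ne.symm h⟩
  have : NeZero p := ⟨hp.ne_zero⟩
  obtain ⟨ζ₀, hζ₀⟩ := HasEnoughRootsOfUnity.exists_primitiveRoot Kb p
  obtain ⟨ζ₁, hζ₁⟩ := HasEnoughRootsOfUnity.exists_primitiveRoot Kb M
  refine ⟨IntermediateField.adjoin ℚ {ζ₀, ζ₁}, ?_, ?_⟩
  · apply IntermediateField.finiteDimensional_adjoin
    intro x _
    have h1 : Algebra.IsAlgebraic ℚ Kb := AlgebraicClosure.isAlgebraic ℚ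
    exact (Algebra.IsAlgebraic.isAlgebraic x).isIntegral
  · intro K _ _ _ ι hK
    obtain ⟨ζ, hζ⟩ := hK ζ₀ (IntermediateField.subset_adjoin ℚ _ (by simp))
    obtain ⟨ζM, hζM⟩ := hK ζ₁ (IntermediateField.subset_adjoin ℚ _ (by simp))
    exact geo_of_roots M q p hq hqM hrM A hA hp hpq K ι ζ
      (IsPrimitiveRoot.of_map_of_injective (f := ι) (hζ ▸ hζ₀) ι.injective) ζM
      (IsPrimitiveRoot.of_map_of_injective (f := ι) (hζM ▸ hζ₁) ι.injective)

end Fermat.Agent.S34
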