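import Fermat.Agent.S34.DA1
import Fermat.Agent.S34.DA2

set_option autoImplicit false

/-!
# S34 / DAbs : `m ∣ div f`, support rational  ⟹  `LocPow` at every closed point   (task T-DA3)

SKETCH.  Strong induction on `c = ncard {i | Thru w i n ∧ w i f ≠ 0}` (finite: `hw.fin`), for all `f` satisfying
 `f ≠ 0`, `∀ i, Thru w i n → m ∣ w i f`, `∀ i, Thru w i n → w i f ≠ 0 → RatAt K w i`.
 * empty set: `genUnit_of_eq_zero`, `h₀ = 1`, `ε = f`.
 * `i` in the set: `h` from `exists_local_eq`, `w i f = m * a'`, `f' := f * (h ^ (m * a'))⁻¹` (`zpow`).  `w i f' = 0`.  For `j` through `n`: either `w j h = 0`, `w j f' = w j f`,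
   or `w j f' = 0` (because `w i f' = 0`).  So the set of `f'` is contained in (the set of `f`) `\ {i}`, and the hypotheses persist.  `f' = ε h₀^m ⟹ f = ε (h₀ h^a')^m`.
-/

noncomputable section

namespace Fermat.Agent.S34

open Polynomial IntermediateField Fermat.Agent.S18

variable {R K F : Type} [CommRing R] [IsDomain R] [IsDiscreteValuationRing R] [Field K] [CharZero K]
  [Algebra R K] [IsFractionRing R K] [Field F] [Algebra K F] {ϖ : R} {ι : Type} {w : ι → F → ℤ}

theorem dabs_aux (hϖ : Irreducible ϖ) (hw : ValFam K w) {t : F} (ht : Transcendental K t)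
    (hfin : FiniteDimensional K⟮t⟯ F) (hint : IntAt K w t) (hSS : SSAt (R := R) (K := K) ϖ t)
    {m : ℕ} (n : Ideal (CInt R K t)) (hn : IsClosedPt ϖ n) :
    ∀ (c : ℕ) (f : F), f ≠ 0 → (∀ i, Thru w i n → (m : ℤ) ∣ w i f) →
      (∀ i, Thru w i n → w i f ≠ 0 → RatAt K w i) →
      Set.ncard {i | Thru w i n ∧ w i f ≠ 0} = c → LocPow ϖ n m f := by
  haveI : n.IsPrime := hn.max.isPrime
  intro c
  induction c using Nat.strong_induction_on with
  | _ c ih =>
    intro f hf hdiv hrat hc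
    have hfinite : {i | Thru w i n ∧ w i f ≠ 0}.Finite :=
      (hw.fin f hf).subset fun i hi => hi.2
    by_cases hemp : {i | Thru w i n ∧ w i f ≠ 0} = ∅
    · refine ⟨1, f, one_ne_zero, genUnit_of_eq_zero hϖ hw hint n hf ?_, by simp⟩
      intro i hi
      by_contra h0
      have : i ∈ ({i | Thru w i n ∧ w i f ≠ 0} : Set ι) := ⟨hi, h0⟩
      rw [hemp] at this
      exact this
    · obtain ⟨i, hi, hi0⟩ := Set.nonempty_iff_ne_empty.2 hemp
      obtain ⟨h, hh0, hih, hjh⟩ := exists_local_eq hϖ hw ht hfin hn (hSS n hn) hi (hrat i hi hi0)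
      obtain ⟨a', ha'⟩ := hdiv i hi
      set f' : F := f * (h ^ ((m : ℤ) * a'))⁻¹ with hf'
      have hz0 : h ^ ((m : ℤ) * a') ≠ 0 := zpow_ne_zero _ hh0
      have hf'0 : f' ≠ 0 := mul_ne_zero hf (inv_ne_zero hz0)
      have hwf' : ∀ j, w j f' = w j f - (m : ℤ) * a' * w j h := by
        intro j
        rw [hf', hw.map_mul j _ _ hf (inv_ne_zero hz0), hw.map_inv j hz0, hw.map_zpow j hh0]
        ring
      have hif' : w i f' = 0 := by rw [hwf', hih, ha']; ring
      have hcase : ∀ j, Thru w j n → (w j f' = w j f ∨ w j f' = 0) := by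
        intro j hj
        rcases hjh j hj with h0 | h0
        · left; rw [hwf', h0]; ring
        · right; exact h0 f' hf'0 hif'
      have hsub : {j | Thru w j n ∧ w j f' ≠ 0} ⊂ {j | Thru w j n ∧ w j f ≠ 0} := by
        refine ⟨fun j hj => ⟨hj.1, ?_⟩, fun hcon => ?_⟩
        · rcases hcase j hj.1 with h1 | h1
          · rw [← h1]; exact hj.2
          · exact absurd h1 hj.2
        · exact (hcon ⟨hi, hi0⟩).2 hif'
      have hlt : Set.ncard {j | Thru w j n ∧ w j f' ≠ 0} < c := by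
        rw [← hc]; exact Set.ncard_lt_ncard hsub hfinite
      obtain ⟨h₀, ε, hh₀, hε, hfe⟩ := ih _ hlt f' hf'0
        (fun j hj => by
          rcases hcase j hj with h1 | h1
          · rw [h1]; exact hdiv j hj
          · rw [h1]; exact dvd_zero _)
        (fun j hj hj0 => by
          rcases hcase j hj with h1 | h1
          · exact hrat j hj (by rw [← h1]; exact hj0)
          · exact absurd h1 hj0) rfl
      refine ⟨h₀ * h ^ a', ε, mul_ne_zero hh₀ (zpow_ne_zero _ hh0), hε, ?_⟩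
      have h1 : f = f' * h ^ ((m : ℤ) * a') := by
        rw [hf', mul_assoc, inv_mul_cancel₀ hz0, mul_one]
      have h2 : h ^ ((m : ℤ) * a') = (h ^ a') ^ m := by
        rw [mul_comm, zpow_mul, zpow_natCast]
      rw [h1, hfe, h2, mul_pow]; ring

/-- **D-abs**. -/
theorem locPow_of_valFam (hϖ : Irreducible ϖ) (hw : ValFam K w) {t : F} (ht : Transcendental K t)
    (hfin : FiniteDimensional K⟮t⟯ F) (hint : IntAt K w t) (hSS : SSAt (R := R) (K := K) ϖ t)
    {m : ℕ} {f : F} (hf : f ≠ 0) (hdiv : ∀ i, (m : ℤ) ∣ w i f)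
    (hrat : ∀ i, w i f ≠ 0 → RatAt K w i)
    (n : Ideal (CInt R K t)) (hn : IsClosedPt ϖ n) : LocPow ϖ n m f :=
  dabs_aux hϖ hw ht hfin hint hSS n hn _ f hf (fun i _ => hdiv i) (fun i _ h => hrat i h) rfl

end Fermat.Agent.S34
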