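import Fermat.Agent.S31.Core

/-!
# S34: the abstract core (no modular forms)

If `d • (τ - 1) ^ 2` kills all the Kummer modules `W n`, then `tr M τ = 2` and `det M τ = 1`.
-/

set_option autoImplicit false

namespace Fermat.Agent.S34

open IsLocalRing Fermat.Agent.S31

theorem hecke_congr_gen {H : Type*} [AddCommGroup H] [Module.Free ℤ H] [Module.Finite ℤ H] (p : ℕ)
    (TH : ℕ → Module.End ℤ H) {𝕋 : Type*} [CommRing 𝕋] (t : ℕ → 𝕋)
    (faithful : ∀ P : FreeAlgebra ℤ ℕ, FreeAlgebra.lift ℤ TH P = 0 → FreeAlgebra.lift ℤ t P = 0) :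
    ∃ k : ℕ, ∀ n ≥ k, ∀ P : FreeAlgebra ℤ ℕ,
      (∀ h : H, ∃ h' : H, FreeAlgebra.lift ℤ TH P h = (p ^ n) • h') →
      ∃ w : 𝕋, FreeAlgebra.lift ℤ t P = (p : 𝕋) ^ (n - k) * w := by
  obtain ⟨k, hk⟩ := artin_rees_end p (Subalgebra.toSubmodule (FreeAlgebra.lift ℤ TH).range)
  refine ⟨k, fun n hn P hdvd => ?_⟩
  have hx : FreeAlgebra.lift ℤ TH P ∈ Subalgebra.toSubmodule (FreeAlgebra.lift ℤ TH).range :=
    ⟨P, rfl⟩
  obtain ⟨z, ⟨Q, hQ⟩, hz⟩ := hk n hn _ hx hdvd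
  have h0 : FreeAlgebra.lift ℤ TH (P - ((p ^ (n - k) : ℕ) : ℤ) • Q) = 0 := by
    rw [map_sub, map_smul, hz, sub_eq_zero]
    congr 1
    exact hQ.symm
  have h1 := faithful _ h0
  rw [map_sub, map_smul, sub_eq_zero] at h1
  refine ⟨FreeAlgebra.lift ℤ t Q, ?_⟩
  rw [h1, zsmul_eq_mul]
  push_cast
  rfl

theorem det_sub_one_mem {T : Type*} [CommRing T] (I : Ideal T) (X : Matrix (Fin 2) (Fin 2) T)
    (h : ∀ i j, (X - 1) i j ∈ I) : X.det - 1 ∈ I := by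
  have h00 : X 0 0 - 1 ∈ I := by simpa using h 0 0
  have h11 : X 1 1 - 1 ∈ I := by simpa using h 1 1
  have h01 : X 0 1 ∈ I := by simpa using h 0 1
  have e : X.det - 1 = (X 0 0 - 1) * X 1 1 + (X 1 1 - 1) - X 0 1 * X 1 0 := by
    rw [Matrix.det_fin_two]; ring
  rw [e]
  exact I.sub_mem (I.add_mem (I.mul_mem_right _ h00) h11) (I.mul_mem_right _ h01)

theorem det_congr {T : Type*} [CommRing T] (I : Ideal T) (M : GQ →* Matrix (Fin 2) (Fin 2) T)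
    (L : IntermediateField ℚ Qb)
    (hL : ∀ σ : GQ, (∀ x ∈ L, σ x = x) → ∀ i j, (M σ - 1) i j ∈ I)
    (σ g : GQ) (b ℓ : ℕ) (hdet : (M σ).det = (ℓ : T)) (hσ : ∀ x ∈ L, (σ ^ b) x = g x) :
    (M g).det - (ℓ : T) ^ b ∈ I := by
  set h : GQ := (σ ^ b)⁻¹ * g with hh
  have hfix : ∀ x ∈ L, h x = x := by
    intro x hx
    rw [hh, AlgEquiv.mul_apply, ← hσ x hx]
    exact (σ ^ b).symm_apply_apply x
  have hg : g = σ ^ b * h := by rw [hh, mul_inv_cancel_left]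
  have hE := det_sub_one_mem I _ (hL h hfix)
  have e : (M g).det - (ℓ : T) ^ b = (ℓ : T) ^ b * ((M h).det - 1) := by
    rw [hg, map_mul, Matrix.det_mul, map_pow, Matrix.det_pow, hdet]
    ring
  rw [e]
  exact I.mul_mem_left _ hE

section

variable {T : Type} [CommRing T] [IsLocalRing T]
  (p : ℕ) (hp : p.Prime) (hpT : (p : T) ∈ maximalIdeal T) (S : Finset ℕ) (hpS : p ∈ S)
  (M : GQ →* Matrix (Fin 2) (Fin 2) T)
  (hcont : ∀ n : ℕ, ∃ L : IntermediateField ℚ Qb, FiniteDimensional ℚ L ∧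
    ∀ σ : GQ, (∀ x ∈ L, σ x = x) → ∀ i j, (M σ - 1) i j ∈ maximalIdeal T ^ n)
  {𝕋 : Type} [CommRing 𝕋] (π : 𝕋 →+* T) (t : ℕ → 𝕋)
  (hfrob : ∀ ℓ : ℕ, ℓ.Prime → ℓ ∉ S → ∀ A : ValuationSubring Qb, A.LiesOverPrime ℓ →
    ∀ σ : GQ, A.IsFrobeniusAt σ ℓ → (M σ).trace = π (t ℓ) ∧ (M σ).det = (ℓ : T))
  {H : Type} [AddCommGroup H] [Module.Free ℤ H] [Module.Finite ℤ H] (TH : ℕ → Module.End ℤ H)
  (faithful : ∀ P : FreeAlgebra ℤ ℕ, FreeAlgebra.lift ℤ TH P = 0 → FreeAlgebra.lift ℤ t P = 0)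
  {W : ℕ → Type} [∀ n, AddCommGroup (W n)]
  (tors : ∀ (n : ℕ) (w : W n), (p ^ n) • w = 0)
  (act : ∀ n, GQ →* AddMonoid.End (W n))
  (smooth : ∀ (n : ℕ) (w : W n), ∃ L : IntermediateField ℚ Qb, FiniteDimensional ℚ L ∧
    ∀ σ : GQ, (∀ x ∈ L, σ x = x) → act n σ w = w)
  (TW : ∀ n, ℕ → AddMonoid.End (W n))
  (comm : ∀ (n ℓ : ℕ), ℓ.Prime → ℓ ∉ S → ∀ (σ : GQ) (w : W n),
    TW n ℓ (act n σ w) = act n σ (TW n ℓ w))
  (es : ∀ (n ℓ : ℕ), ℓ.Prime → ℓ ∉ S →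
    ∀ A : ValuationSubring Qb, A.LiesOverPrime ℓ → ∀ σ : GQ, A.IsFrobeniusAt σ ℓ →
      ∀ w : W n, act n σ (act n σ w) + ℓ • w = TW n ℓ (act n σ w))
  (κ : ∀ n, H →+ W n)
  (κ_ker : ∀ (n : ℕ) (h : H), κ n h = 0 → ∃ h' : H, h = (p ^ n) • h')
  (κ_T : ∀ (n ℓ : ℕ), ℓ.Prime → ℓ ∉ S → ∀ h : H, κ n (TH ℓ h) = TW n ℓ (κ n h))

include hp hpT hpS hcont hfrob faithful tors smooth comm es κ_ker κ_T in
theorem trace_det_congr (d q : ℕ) (hq : q.Prime) (hqp : q ≠ p) (P : ValuationSubring Qb)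
    (hP : P.LiesOverPrime q) (τ : GQ) (hτ : τ ∈ P.inertiaSubgroupIn ℚ)
    (unip : ∀ (n : ℕ) (w : W n), d • (act n τ (act n τ w) - 2 • act n τ w + w) = 0) (m : ℕ) :
    (d : T) * ((M τ).trace - 2) ∈ maximalIdeal T ^ m ∧ (M τ).det - 1 ∈ maximalIdeal T ^ m := by
  obtain ⟨k, hk⟩ := hecke_congr_gen p TH t faithful
  set n : ℕ := m + k with hn
  let e := Module.Free.chooseBasis ℤ H
  choose La hLafd hLa using fun i => smooth n (κ n (e i))
  choose Lb hLbfd hLb using fun i => smooth n (act n τ⁻¹ (κ n (e i)))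
  obtain ⟨L3, hL3fd, hL3⟩ := hcont m
  obtain ⟨ζ, hζ⟩ : ∃ ζ : Qb, IsPrimitiveRoot ζ (p ^ n) := by
    have : NeZero (p ^ n) := ⟨(pow_pos hp.pos n).ne'⟩
    have : NeZero ((p ^ n : ℕ) : Qb) := ⟨Nat.cast_ne_zero.mpr (NeZero.ne (p ^ n))⟩
    exact HasEnoughRootsOfUnity.exists_primitiveRoot Qb (p ^ n)
  have hζint : IsIntegral ℚ ζ := (AlgebraicClosure.isAlgebraic ℚ).isIntegral.isIntegral ζ
  let L2 : IntermediateField ℚ Qb := IntermediateField.adjoin ℚ {ζ}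
  have hL2fd : FiniteDimensional ℚ L2 := IntermediateField.adjoin.finiteDimensional hζint
  let L : IntermediateField ℚ Qb := ((⨆ i, La i) ⊔ (⨆ i, Lb i)) ⊔ L2 ⊔ L3
  have hLfd : FiniteDimensional ℚ L := inferInstance
  have hLaL : ∀ i, ∀ x ∈ La i, x ∈ L := fun i x hx =>
    ((le_iSup La i).trans (le_sup_left.trans (le_sup_left.trans le_sup_left)) : La i ≤ L) hx
  have hLbL : ∀ i, ∀ x ∈ Lb i, x ∈ L := fun i x hx =>
    ((le_iSup Lb i).trans (le_sup_right.trans (le_sup_left.trans le_sup_left)) : Lb i ≤ L) hx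
  have hL3L : ∀ x ∈ L3, x ∈ L := fun x hx => (le_sup_right : L3 ≤ L) hx
  have hζL : ζ ∈ L := (le_sup_right.trans le_sup_left : L2 ≤ L)
    (IntermediateField.mem_adjoin_simple_self ℚ ζ)
  obtain ⟨ℓ, hℓ, hℓS, A, hA, σ, hσ, b, hb⟩ := S29.frobenius_density_lite L S τ
  have hne : ∀ {s : ℕ}, s ∉ S → s ≠ p := fun hs h => hs (h ▸ hpS)
  have hcyc : ((ℓ ^ b : ℕ) : ZMod (p ^ n)) = ((ℓ ^ 0 : ℕ) : ZMod (p ^ n)) :=
    frob_pow_cast_eq p n hp hℓ (hne hℓS) hℓ (hne hℓS) hq hqp A A P hA hA hP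
      σ σ τ⁻¹ τ hσ hσ (inv_mem hτ) b 0 ζ hζ (hb ζ hζL) (by rw [inv_mul_cancel, pow_zero])
  -- the Hecke element is `2` on the basis vectors, up to `d`
  have hbasis : ∀ i, d • (dseq (TW n ℓ) ℓ b (κ n (e i)) - dseq (TW n ℓ) ℓ 0 (κ n (e i))) = 0 := by
    intro i
    set v : W n := κ n (e i) with hv
    set w : W n := act n τ⁻¹ v with hw
    have hgw : act n τ w = v := by
      rw [hw, ← end_mul_apply, ← map_mul, mul_inv_cancel, map_one]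
      rfl
    have a1 : act n (σ ^ b) w = v := by
      rw [act_eq_of_level (act n) w (Lb i) (hLb i) (σ ^ b) τ fun x hx => hb x (hLbL i x hx), hgw]
    have a2 : act n (σ ^ b) v = act n τ v :=
      act_eq_of_level (act n) v (La i) (hLa i) (σ ^ b) τ fun x hx => hb x (hLaL i x hx)
    have r1 := quad_relation (act n) (TW n ℓ) ℓ b σ (comm n ℓ hℓ hℓS σ)
      (es n ℓ hℓ hℓS A hA σ hσ) w v _ a1 a2
    rw [nsmul_eq_of_cast_eq (p ^ n) w (tors n w) _ _ hcyc, pow_zero, one_nsmul] at r1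
    have r2 := unip n w
    rw [hgw] at r2
    have h2 : dseq (TW n ℓ) ℓ 0 v = 2 • v := by
      rw [dseq_zero, ← one_add_one_eq_two, two_nsmul]
      rfl
    have h3 : dseq (TW n ℓ) ℓ b v - dseq (TW n ℓ) ℓ 0 v = act n τ v - 2 • v + w := by
      rw [h2]
      have : act n τ v + w = dseq (TW n ℓ) ℓ b v := by
        rw [← sub_eq_zero, ← r1]
        abel
      rw [← this]
      abel
    rw [h3]
    exact r2
  let Q : FreeAlgebra ℤ ℕ :=
    d • (dseq (FreeAlgebra.ι ℤ ℓ) ℓ b - dseq (FreeAlgebra.ι ℤ ℓ) ℓ 0)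
  have hQH : FreeAlgebra.lift ℤ TH Q = d • (dseq (TH ℓ) ℓ b - dseq (TH ℓ) ℓ 0) := by
    rw [map_nsmul, lift_dseq_sub]
  have hQt : FreeAlgebra.lift ℤ t Q = d • (dseq (t ℓ) ℓ b - dseq (t ℓ) ℓ 0) := by
    rw [map_nsmul, lift_dseq_sub]
  have hall : ∀ h : H, ∃ h' : H, FreeAlgebra.lift ℤ TH Q h = (p ^ n) • h' := by
    have hzero : (κ n).toIntLinearMap ∘ₗ (FreeAlgebra.lift ℤ TH Q) = 0 := by
      refine e.ext fun i => ?_
      rw [hQH]
      change κ n (d • (dseq (TH ℓ) ℓ b (e i) - dseq (TH ℓ) ℓ 0 (e i))) = 0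
      rw [map_nsmul, map_sub, kappa_dseq (κ n) (TH ℓ) (TW n ℓ) (κ_T n ℓ hℓ hℓS),
        kappa_dseq (κ n) (TH ℓ) (TW n ℓ) (κ_T n ℓ hℓ hℓS), hbasis i]
    intro h
    exact κ_ker n _ (LinearMap.congr_fun hzero h)
  obtain ⟨w, hw⟩ := hk n (by omega) Q hall
  have hnk : n - k = m := by omega
  rw [hnk, hQt] at hw
  have hw' : (d : T) * (dseq (π (t ℓ)) ℓ b - 2) ∈ maximalIdeal T ^ m := by
    have h1 : (d : T) * (dseq (π (t ℓ)) ℓ b - 2) = π (d • (dseq (t ℓ) ℓ b - dseq (t ℓ) ℓ 0)) := by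
      rw [map_nsmul, map_sub, map_dseq, map_dseq, dseq_zero, nsmul_eq_mul]
    rw [h1, hw, map_mul, map_pow, map_natCast]
    exact Ideal.mul_mem_right _ _ (Ideal.pow_mem_pow hpT m)
  obtain ⟨htr, hdet⟩ := hfrob ℓ hℓ hℓS A hA σ hσ
  have c1 := trace_congr (maximalIdeal T ^ m) M L3 hL3 σ τ b ℓ hdet fun x hx => hb x (hL3L x hx)
  have c2 := det_congr (maximalIdeal T ^ m) M L3 hL3 σ τ b ℓ hdet fun x hx => hb x (hL3L x hx)
  rw [htr] at c1
  constructor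
  · have : (d : T) * ((M τ).trace - 2) =
        (d : T) * ((M τ).trace - dseq (π (t ℓ)) ℓ b) + (d : T) * (dseq (π (t ℓ)) ℓ b - 2) := by
      ring
    rw [this]
    exact Ideal.add_mem _ (Ideal.mul_mem_left _ _ c1) hw'
  · have h1 : ((ℓ : T) ^ b - 1) ∈ maximalIdeal T ^ m := by
      rw [pow_zero] at hcyc
      have h2 : (p ^ n : ℤ) ∣ ((ℓ ^ b : ℕ) : ℤ) - ((1 : ℕ) : ℤ) := by
        have := (ZMod.natCast_eq_natCast_iff _ _ _).mp hcyc
        have h3 := Nat.modEq_iff_dvd.mp this.symm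
        exact_mod_cast h3
      obtain ⟨c, hc⟩ := h2
      have h4 : ((ℓ : T) ^ b - 1) = (p : T) ^ n * (c : T) := by
        have := congrArg (Int.cast : ℤ → T) hc
        push_cast at this
        exact this
      rw [h4]
      exact Ideal.mul_mem_right _ _
        (Ideal.pow_le_pow_right (by omega : m ≤ n) (Ideal.pow_mem_pow hpT n))
    have : (M τ).det - 1 = ((M τ).det - (ℓ : T) ^ b) + ((ℓ : T) ^ b - 1) := by ring
    rw [this]
    exact Ideal.add_mem _ c2 h1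

include hp hpT hpS hcont hfrob faithful tors smooth comm es κ_ker κ_T in
theorem core [IsHausdorff (maximalIdeal T) T] (d : ℕ) (hd : ∀ x : T, (d : T) * x = 0 → x = 0)
    (q : ℕ) (hq : q.Prime) (hqp : q ≠ p) (P : ValuationSubring Qb)
    (hP : P.LiesOverPrime q) (τ : GQ) (hτ : τ ∈ P.inertiaSubgroupIn ℚ)
    (unip : ∀ (n : ℕ) (w : W n), d • (act n τ (act n τ w) - 2 • act n τ w + w) = 0) :
    (M τ).trace = 2 ∧ (M τ).det = 1 := by
  have key := trace_det_congr p hp hpT S hpS M hcont π t hfrob TH faithful tors act smooth TW comm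
    es κ κ_ker κ_T d q hq hqp P hP τ hτ unip
  constructor
  · rw [← sub_eq_zero]
    apply hd
    apply IsHausdorff.haus (inferInstance : IsHausdorff (maximalIdeal T) T)
    intro m
    rw [SModEq.zero, smul_eq_mul, Ideal.mul_top]
    exact (key m).1
  · rw [← sub_eq_zero]
    apply IsHausdorff.haus (inferInstance : IsHausdorff (maximalIdeal T) T)
    intro m
    rw [SModEq.zero, smul_eq_mul, Ideal.mul_top]
    exact (key m).2

end

end Fermat.Agent.S34
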