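import Fermat.Agent.S34.GlueE
import Fermat.Agent.S18.AT.Val

set_option autoImplicit false

/-!
# S34 / RootB : the prime step of T1, normalisation of the root   (task T-RootB; sketch in the header of RootA.lean)
-/

noncomputable section

namespace Fermat.Agent.S34

open Polynomial IntermediateField Fermat.Agent.S18

variable {R K F : Type} [CommRing R] [IsDomain R] [IsDiscreteValuationRing R] [Field K] [CharZero K]
  [Algebra R K] [IsFractionRing R K] [Field F] [Algebra K F]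
  {ϖ : R} {x : F} {Vi V0 : ValuationSubring F}

namespace RootB

theorem exists_factor (V : ValuationSubring F) {ι : Type} (s : Finset ι) (f : ι → F)
    (h : ∏ i ∈ s, f i ∈ V.nonunits) : ∃ i ∈ s, f i ∈ V.nonunits := by
  classical
  induction s using Finset.induction_on with
  | empty => simp at h; exact absurd h (one_notMem_nonunits V)
  | insert a s ha ih =>
    rw [Finset.prod_insert ha] at h
    by_cases h1 : f a ∈ V.nonunits
    · exact ⟨a, Finset.mem_insert_self _ _, h1⟩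
    · by_cases h2 : ∏ i ∈ s, f i ∈ V.nonunits
      · obtain ⟨i, hi, hfi⟩ := ih h2
        exact ⟨i, Finset.mem_insert_of_mem hi, hfi⟩
      · exfalso
        rw [ValuationSubring.mem_nonunits_iff, not_lt] at h1 h2
        rw [ValuationSubring.mem_nonunits_iff, map_mul] at h
        exact absurd h (not_lt.2 (Right.one_le_mul h1 h2))

/-- `w ^ p ≡ 1` implies `w ≡ μ` for a `p`-th root of unity `μ`. -/
theorem exists_root_of_unity (V : ValuationSubring F) {p : ℕ} (hp : 0 < p) {ξ : F}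
    (hξ : IsPrimitiveRoot ξ p) {w : F} (h : w ^ p - 1 ∈ V.nonunits) :
    ∃ μ : F, μ ^ p = 1 ∧ w - μ ∈ V.nonunits := by
  have h1 := hξ.pow_sub_pow_eq_prod_sub_mul w 1 hp
  rw [one_pow] at h1
  rw [h1] at h
  obtain ⟨μ, hμ, hμ'⟩ := exists_factor V _ _ h
  refine ⟨μ, ?_, by simpa using hμ'⟩
  exact (mem_nthRootsFinset hp 1).1 hμ

theorem pow_sub_pow_mem (V : ValuationSubring F) {w μ : F} (hμ : μ ∈ V) (h : w - μ ∈ V.nonunits)
    (i : ℕ) : w ^ i - μ ^ i ∈ V.nonunits := by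
  have hw : w ∈ V := by
    have : w = (w - μ) + μ := by ring
    rw [this]
    exact V.add_mem _ _ (mem_of_mem_nonunits V h) hμ
  induction i with
  | zero => simp [zero_mem_nonunits V]
  | succ i ih =>
    have : w ^ (i + 1) - μ ^ (i + 1) = w ^ i * (w - μ) + μ * (w ^ i - μ ^ i) := by ring
    rw [this]
    exact add_mem_nonunits V (mul_mem_nonunits V (V.pow_mem hw i) h) (mul_mem_nonunits V hμ ih)

/-- `idem p w ≡ idem p μ`. -/
theorem idem_sub_mem (V : ValuationSubring F) {p : ℕ} (hpV : (p : F)⁻¹ ∈ V) {w μ : F} (hμ : μ ∈ V)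
    (h : w - μ ∈ V.nonunits) : idem p w - idem p μ ∈ V.nonunits := by
  have : idem p w - idem p μ = (p : F)⁻¹ * ∑ i ∈ Finset.range p, (w ^ i - μ ^ i) := by
    rw [idem, idem, Finset.sum_sub_distrib]
    ring
  rw [this]
  exact mul_mem_nonunits V hpV (sum_mem_nonunits V _ _ fun i _ => pow_sub_pow_mem V hμ h i)

end RootB

open RootB in
theorem exists_root_one (hϖ : Irreducible ϖ) (hB : Branches (K := K) ϖ x Vi V0)
    {p : ℕ} (hp : p.Prime) (hpR : IsUnit (p : R)) {ζ : K} (hζ : IsPrimitiveRoot ζ p)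
    {u : F} (hui : u - 1 ∈ Vi.nonunits) (hu0 : u - 1 ∈ V0.nonunits)
    {w : F} (hw : w ^ p = u)
    (hfin : ∀ n : Ideal (CInt R K x), IsClosedPt ϖ n → LocData Vi V0 n p u)
    (hinf : ∀ n : Ideal (CInt R K x⁻¹), IsClosedPt ϖ n → LocData Vi V0 n p u) :
    ∃ w' : F, w' ^ p = u ∧ w' - 1 ∈ Vi.nonunits ∧ w' - 1 ∈ V0.nonunits := by
  have : CharZero F := charZero_of_injective_algebraMap (algebraMap K F).injective
  have hp0 : (p : F) ≠ 0 := Nat.cast_ne_zero.2 hp.ne_zero
  have hξ : IsPrimitiveRoot (algebraMap K F ζ) p := hζ.map_of_injective (algebraMap K F).injective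
  have hR : ∀ s : R, rE R K F s ∈ Vi ∧ rE R K F s ∈ V0 := fun s =>
    (hB.inO_iff _).1 (InO.of_mem_CInt hϖ (rE_mem_CInt x s))
  have hpinv : (p : F)⁻¹ ∈ Vi ∧ (p : F)⁻¹ ∈ V0 := by
    obtain ⟨c, hc⟩ := hpR
    have : (p : F)⁻¹ = rE R K F ↑c⁻¹ := by
      have h1 : rE R K F (↑c) * rE R K F ↑c⁻¹ = 1 := by rw [← map_mul]; simp
      rw [hc, map_natCast] at h1
      exact inv_eq_of_mul_eq_one_right h1
    rw [this]
    exact hR _
  obtain ⟨μi, hμi, hwi⟩ := exists_root_of_unity Vi hp.pos hξ (w := w) (by rw [hw]; exact hui)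
  obtain ⟨μ0, hμ0, hw0⟩ := exists_root_of_unity V0 hp.pos hξ (w := w) (by rw [hw]; exact hu0)
  have hμi0 : μi ≠ 0 := by
    rintro rfl
    simp [hp.ne_zero] at hμi
  have hroot : ∀ (V : ValuationSubring F) (μ : F), μ ^ p = 1 → μ ∈ V := fun V μ h =>
    mem_of_pow_mem V hp.ne_zero (by rw [h]; exact V.one_mem)
  have hμi' : μi⁻¹ ^ p = 1 := by rw [inv_pow, hμi, inv_one]
  have hw' : (w * μi⁻¹) ^ p = u := by rw [mul_pow, hμi', mul_one, hw]
  have hwi' : w * μi⁻¹ - 1 ∈ Vi.nonunits := by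
    have : w * μi⁻¹ - 1 = μi⁻¹ * (w - μi) := by field_simp
    rw [this]
    exact mul_mem_nonunits Vi (hroot Vi _ hμi') hwi
  have hμ : (μ0 * μi⁻¹) ^ p = 1 := by rw [mul_pow, hμ0, hμi', one_mul]
  have hw0' : w * μi⁻¹ - μ0 * μi⁻¹ ∈ V0.nonunits := by
    have : w * μi⁻¹ - μ0 * μi⁻¹ = μi⁻¹ * (w - μ0) := by ring
    rw [this]
    exact mul_mem_nonunits V0 (hroot V0 _ hμi') hw0
  by_cases h1 : μ0 * μi⁻¹ = 1
  · exact ⟨w * μi⁻¹, hw', hwi', by rwa [h1] at hw0'⟩
  · exfalso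
    obtain ⟨r, η, hη, hr⟩ := glue_prime (E := F) hϖ hB hB.const hp hpR hui hu0 (y := w * μi⁻¹)
      (by simpa using hw') hfin hinf
    have hη' := (hB.inO_iff η).1 hη
    have e1 : idem p (1 : F) = 1 := by simp [idem, hp0]
    have e0 : idem p (μ0 * μi⁻¹) = 0 := by
      have := geom_sum_mul (μ0 * μi⁻¹) p
      rw [hμ, sub_self] at this
      rw [idem, (mul_eq_zero.1 this).resolve_right (sub_ne_zero.2 h1), zero_div]
    have a1 := idem_sub_mem Vi hpinv.1 Vi.one_mem hwi'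
    have a0 := idem_sub_mem V0 hpinv.2 (hroot V0 _ hμ) hw0'
    rw [e1] at a1
    rw [e0, sub_zero] at a0
    have b0 : rE R K F r ∈ V0.nonunits := by
      have : rE R K F r = rE R K F ϖ * η + idem p (w * μi⁻¹) := by rw [← hr]; ring
      rw [this]
      exact add_mem_nonunits V0 (mul_mem_nonunits' V0 hB.mem_0 hη'.2) a0
    have b1 : rE R K F r - 1 ∈ Vi.nonunits := by
      have : rE R K F r - 1 = rE R K F ϖ * η + (idem p (w * μi⁻¹) - 1) := by rw [← hr]; ring
      rw [this]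
      exact add_mem_nonunits Vi (mul_mem_nonunits' Vi hB.mem_i hη'.1) a1
    have hdvd : ϖ ∣ r := by
      by_contra hnd
      have hu : IsUnit r := by
        rw [← IsLocalRing.notMem_maximalIdeal, hϖ.maximalIdeal_eq, Ideal.mem_span_singleton]
        exact hnd
      obtain ⟨c, rfl⟩ := hu
      have h2 : rE R K F (↑c) * rE R K F ↑c⁻¹ = 1 := by rw [← map_mul]; simp
      exact one_notMem_nonunits V0 (h2 ▸ mul_mem_nonunits' V0 b0 (hR _).2)
    obtain ⟨s, rfl⟩ := hdvd
    have h3 : rE R K F (ϖ * s) ∈ Vi.nonunits := by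
      rw [map_mul]
      exact mul_mem_nonunits' Vi hB.mem_i (hR s).1
    have h4 := sub_mem_nonunits Vi h3 b1
    rw [sub_sub_cancel] at h4
    exact one_notMem_nonunits Vi h4

end Fermat.Agent.S34
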