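import Fermat.Agent.S34.Loc

set_option autoImplicit false

/-!
# S34 / T0 : `(τ' - 1)(τ - 1) f` has local data   (task T-T0)

`dd τ' τ f = τ'(g)/g`, `g = τ f / f`.

SKETCH.
* `InertiaLike.mem_CInt` : `z` integral over `R[t]` ⟹ `τ z` integral over `R[t]` (apply `τ` to the monic equation; `τ` maps `evR t P` to
  `evR t P'` where `P'` has coefficients `r'` given by `map_R`; `τ t = t`).  Same for `τ.symm`.
* `InertiaLike.sub_mem` : for `c ∈ C`, `τ c - c ∈ C` is a nonunit of both branches, so `= ϖ c'` (`Branches.exists_eq_mul`), so lies in `n`.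
  Hence `d ∉ n → τ d ∉ n`, and `InLoc n z → InLoc n (τ z)`.
* `InertiaLike.unit_i` : for `z ≠ 0`, `τ z / z` is a unit of `Vi` (write `z = ϖ^(-k) * v`, `v` a unit of `Vi` (`unif_i`); `τ ϖ = rE r'` with `r'` again
  a nonunit non-zero … simplest: `τ v / v ∈ 1 + m`, and `τ (rE ϖ) / rE ϖ` is a unit of `Vi` because `τ (rE ϖ) - rE ϖ ∈ m_Vi`… NOT enough;
  use instead: `τ (rE ϖ) = rE r'`, `τ.symm` gives `rE ϖ = τ (rE r'')`…; `r' ∈ R` is a nonunit (else `rE ϖ = τ.symm (unit)` is a unit of `R`), so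
  `r' = ϖ a`; symmetric argument for `τ.symm` shows `a` is a unit of `R`; units of `R` are units of `Vi` (`R ⊆ C ⊆ Vi`).)
* `t0` : `f = ε h₀^m`.  `dd τ' τ f = dd τ' τ ε * (dd τ' τ h₀)^m`.  Take `h := dd τ' τ h₀`.  `k := τ h₀ / h₀` is a unit of `Vi`, `V0`, so
  `h - 1 = (τ' k - k)/k` is a nonunit of both.   `e₁ := τ ε / ε` is a `GenUnit` (τ preserves `InLoc n`, and `τ (rE ϖ) = rE ϖ * unit of R`), and a unit of both
  branches, hence `LocUnit n e₁` (`Branches.locUnit_of_genUnit`); then `dd τ' τ ε = τ' e₁ / e₁` is `InLoc`.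
-/

noncomputable section

namespace Fermat.Agent.S34

open Polynomial IntermediateField Fermat.Agent.S18

variable {R K F : Type} [CommRing R] [IsDomain R] [IsDiscreteValuationRing R] [Field K] [CharZero K]
  [Algebra R K] [IsFractionRing R K] [Field F] [Algebra K F]
  {ϖ : R} {x : F} {Vi V0 : ValuationSubring F}

/-- `(τ' - 1)(τ - 1) f`, multiplicatively. -/
def dd (τ' τ : F ≃+* F) (f : F) : F := τ' (τ f / f) / (τ f / f)

theorem dd_mul (τ' τ : F ≃+* F) (f g : F) : dd τ' τ (f * g) = dd τ' τ f * dd τ' τ g := by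
  unfold dd
  rw [map_mul, mul_div_mul_comm, map_mul, mul_div_mul_comm]

theorem dd_pow (τ' τ : F ≃+* F) (f : F) (m : ℕ) : dd τ' τ (f ^ m) = dd τ' τ f ^ m := by
  unfold dd
  rw [map_pow, ← div_pow, map_pow, ← div_pow]

theorem dd_ne_zero (τ' τ : F ≃+* F) {f : F} (hf : f ≠ 0) : dd τ' τ f ≠ 0 := by
  unfold dd
  have h1 : τ f ≠ 0 := (map_ne_zero_iff τ τ.injective).2 hf
  have h2 : τ f / f ≠ 0 := div_ne_zero h1 hf
  exact div_ne_zero ((map_ne_zero_iff τ' τ'.injective).2 h2) h2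

/-! ### auxiliary lemmas -/

theorem t0_map_t {τ : F ≃+* F} (hτ : InertiaLike (R := R) (K := K) x Vi V0 τ) {t : F}
    (ht : t = x ∨ t = x⁻¹) : τ t = t := by
  rcases ht with rfl | rfl
  · exact hτ.map_x
  · rw [map_inv₀, hτ.map_x]

/-- the endomorphism of `R` induced by `τ`. -/
def t0_theta {τ : F ≃+* F} (hτ : InertiaLike (R := R) (K := K) x Vi V0 τ) : R →+* R where
  toFun r := Classical.choose (hτ.map_R r)
  map_one' := by
    apply rE_injective (K := K) (E := F)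
    rw [← Classical.choose_spec (hτ.map_R 1), map_one, map_one]
  map_mul' a b := by
    apply rE_injective (K := K) (E := F)
    rw [← Classical.choose_spec (hτ.map_R (a * b)), map_mul, map_mul, map_mul,
      ← Classical.choose_spec (hτ.map_R a), ← Classical.choose_spec (hτ.map_R b)]
  map_zero' := by
    apply rE_injective (K := K) (E := F)
    rw [← Classical.choose_spec (hτ.map_R 0), map_zero, map_zero]
  map_add' a b := by
    apply rE_injective (K := K) (E := F)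
    rw [← Classical.choose_spec (hτ.map_R (a + b)), map_add, map_add, map_add,
      ← Classical.choose_spec (hτ.map_R a), ← Classical.choose_spec (hτ.map_R b)]

theorem t0_theta_spec {τ : F ≃+* F} (hτ : InertiaLike (R := R) (K := K) x Vi V0 τ) (r : R) :
    rE R K F (t0_theta hτ r) = τ (rE R K F r) :=
  (Classical.choose_spec (hτ.map_R r)).symm

theorem t0_comp {τ : F ≃+* F} (hτ : InertiaLike (R := R) (K := K) x Vi V0 τ) {t : F}
    (ht : t = x ∨ t = x⁻¹) :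
    (evR R K t).comp (Polynomial.mapRingHom (t0_theta hτ)) = (τ : F →+* F).comp (evR R K t) := by
  apply Polynomial.ringHom_ext
  · intro a
    simp only [RingHom.comp_apply, Polynomial.coe_mapRingHom, Polynomial.map_C, evR,
      Polynomial.coe_eval₂RingHom, Polynomial.eval₂_C]
    exact t0_theta_spec hτ a
  · simp only [RingHom.comp_apply, Polynomial.coe_mapRingHom, Polynomial.map_X, evR,
      Polynomial.coe_eval₂RingHom, Polynomial.eval₂_X]
    exact (t0_map_t hτ ht).symm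

theorem InertiaLike.mem_CInt {τ : F ≃+* F} (hτ : InertiaLike (R := R) (K := K) x Vi V0 τ) {t : F}
    (ht : t = x ∨ t = x⁻¹) {z : F} (hz : z ∈ CInt R K t) : τ z ∈ CInt R K t := by
  obtain ⟨p, hp, hpz⟩ := hz
  refine ⟨p.map (Polynomial.mapRingHom (t0_theta hτ)), hp.map _, ?_⟩
  rw [Polynomial.eval₂_map, t0_comp hτ ht]
  have := Polynomial.hom_eval₂ p (evR R K t) (τ : F →+* F) z
  rw [hpz, map_zero] at this
  exact this.symm

theorem t0_sub_mem (hϖ : Irreducible ϖ) (hB : Branches (K := K) ϖ x Vi V0) {τ : F ≃+* F}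
    (hτ : InertiaLike (R := R) (K := K) x Vi V0 τ) {t : F} (ht : t = x ∨ t = x⁻¹)
    {n : Ideal (CInt R K t)} (hn : IsClosedPt ϖ n) (d : CInt R K t) :
    (⟨τ d, hτ.mem_CInt ht d.2⟩ : CInt R K t) - d ∈ n := by
  have hd := hB.mem_of_mem_CInt hϖ ht d.2
  obtain ⟨y', hy', hy⟩ := hB.exists_eq_mul hϖ ht
    ((CInt R K t).sub_mem (hτ.mem_CInt ht d.2) d.2) (hτ.triv_i _ hd.1) (hτ.triv_0 _ hd.2)
  have : (⟨τ d, hτ.mem_CInt ht d.2⟩ : CInt R K t) - d = unifC t ϖ * ⟨y', hy'⟩ := by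
    apply Subtype.ext
    exact hy
  rw [this]
  exact n.mul_mem_right _ hn.mem

theorem InertiaLike.inLoc (hϖ : Irreducible ϖ) (hB : Branches (K := K) ϖ x Vi V0) {τ : F ≃+* F}
    (hτ : InertiaLike (R := R) (K := K) x Vi V0 τ) {t : F} (ht : t = x ∨ t = x⁻¹)
    {n : Ideal (CInt R K t)} (hn : IsClosedPt ϖ n) {z : F} (hz : InLoc n z) : InLoc n (τ z) := by
  obtain ⟨d, hd, hdz⟩ := hz
  refine ⟨⟨τ d, hτ.mem_CInt ht d.2⟩, ?_, ?_⟩
  · intro h
    apply hd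
    have h1 := t0_sub_mem hϖ hB hτ ht hn d
    have h2 := n.sub_mem h h1
    simpa using h2
  · show τ d * τ z ∈ CInt R K t
    rw [← map_mul]
    exact hτ.mem_CInt ht hdz

theorem t0_isUnit_of_map (σ : F ≃+* F) (h2 : ∀ r : R, ∃ r' : R, σ.symm (rE R K F r) = rE R K F r')
    {r r' : R} (h : σ (rE R K F r) = rE R K F r') (hu : IsUnit r') : IsUnit r := by
  obtain ⟨s, hs⟩ := hu.exists_right_inv
  obtain ⟨s', hs'⟩ := h2 s
  apply IsUnit.of_mul_eq_one s'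
  apply rE_injective (K := K) (E := F)
  rw [map_mul, ← hs', map_one]
  have h3 : rE R K F r = σ.symm (rE R K F r') := by rw [← h, RingEquiv.symm_apply_apply]
  rw [h3, ← map_mul, ← map_mul, hs, map_one, map_one]

theorem t0_dvd_of_map (hϖ : Irreducible ϖ) (σ : F ≃+* F)
    (h2 : ∀ r : R, ∃ r' : R, σ.symm (rE R K F r) = rE R K F r')
    {r' : R} (h : σ (rE R K F ϖ) = rE R K F r') : ϖ ∣ r' := by
  have h1 : ¬ IsUnit r' := fun hu => hϖ.not_isUnit (t0_isUnit_of_map σ h2 h hu)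
  have h3 : r' ∈ IsLocalRing.maximalIdeal R := (IsLocalRing.mem_maximalIdeal _).2 h1
  rw [(IsDiscreteValuationRing.irreducible_iff_uniformizer ϖ).1 hϖ,
    Ideal.mem_span_singleton] at h3
  exact h3

/-- `τ ϖ = ϖ * unit`. -/
theorem t0_map_unif (hϖ : Irreducible ϖ) {τ : F ≃+* F}
    (hτ : InertiaLike (R := R) (K := K) x Vi V0 τ) :
    ∃ a b : R, a * b = 1 ∧ τ (rE R K F ϖ) = rE R K F ϖ * rE R K F a := by
  obtain ⟨r', hr'⟩ := hτ.map_R ϖ
  obtain ⟨a, rfl⟩ := t0_dvd_of_map hϖ τ hτ.map_R_symm hr'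
  obtain ⟨r'', hr''⟩ := hτ.map_R_symm ϖ
  obtain ⟨b, rfl⟩ := t0_dvd_of_map hϖ τ.symm (by simpa using hτ.map_R) hr''
  obtain ⟨b', hb'⟩ := hτ.map_R b
  refine ⟨a, b', ?_, by rw [hr', map_mul]⟩
  have hπ : rE R K F ϖ ≠ 0 := fun h0 => hϖ.ne_zero (rE_injective (h0.trans (map_zero _).symm))
  apply rE_injective (K := K) (E := F)
  have h1 : rE R K F ϖ = τ (rE R K F (ϖ * b)) := by rw [← hr'', RingEquiv.apply_symm_apply]
  rw [map_mul, map_mul, hr', hb', map_mul] at h1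
  rw [map_mul, map_one]
  apply mul_left_cancel₀ hπ
  rw [mul_one, ← mul_assoc]
  exact h1.symm

theorem t0_zpow_mem {V : ValuationSubring F} {y : F} (h : y ∈ V) (h' : y⁻¹ ∈ V) (k : ℤ) :
    y ^ k ∈ V := by
  rcases k with n | n
  · simpa using pow_mem h n
  · rw [zpow_negSucc, ← inv_pow]
    exact pow_mem h' _

theorem t0_nonunits_mul {V : ValuationSubring F} {a b : F} (ha : a ∈ V.nonunits) (hb : b ∈ V) :
    a * b ∈ V.nonunits := by
  rw [ValuationSubring.mem_nonunits_iff, map_mul] at *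
  rw [← ValuationSubring.valuation_le_one_iff] at hb
  exact mul_lt_one_of_lt_of_le ha hb

theorem t0_nonunits_le {V : ValuationSubring F} {a : F} (ha : a ∈ V.nonunits) : a ∈ V := by
  rw [ValuationSubring.mem_nonunits_iff] at ha
  rw [← ValuationSubring.valuation_le_one_iff]
  exact ha.le

theorem t0_map_mem {V : ValuationSubring F} {τ : F ≃+* F}
    (triv : ∀ z ∈ V, τ z - z ∈ V.nonunits) {z : F} (hz : z ∈ V) : τ z ∈ V := by
  have := add_mem (t0_nonunits_le (triv z hz)) hz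
  simpa using this

/-- general form of `unit_i`, `unit_0`. -/
theorem t0_unit (hϖ : Irreducible ϖ) {τ : F ≃+* F}
    (hτ : InertiaLike (R := R) (K := K) x Vi V0 τ) {V : ValuationSubring F}
    (hR : ∀ r : R, rE R K F r ∈ V)
    (unif : ∀ z : F, z ≠ 0 → ∃ k : ℤ, rE R K F ϖ ^ k * z ∈ V ∧ (rE R K F ϖ ^ k * z)⁻¹ ∈ V)
    (triv : ∀ z ∈ V, τ z - z ∈ V.nonunits) {z : F} (hz : z ≠ 0) :
    τ z / z ∈ V ∧ (τ z / z)⁻¹ ∈ V := by
  obtain ⟨a, b, hab, ha⟩ := t0_map_unif hϖ hτ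
  have hπ : rE R K F ϖ ≠ 0 := fun h0 => hϖ.ne_zero (rE_injective (h0.trans (map_zero _).symm))
  have hab' : rE R K F a * rE R K F b = 1 := by rw [← map_mul, hab, map_one]
  have ha0 : rE R K F a ≠ 0 := left_ne_zero_of_mul_eq_one hab'
  have hainv : (rE R K F a)⁻¹ = rE R K F b := (eq_inv_of_mul_eq_one_right hab').symm
  obtain ⟨k, hv, hv'⟩ := unif z hz
  set v := rE R K F ϖ ^ k * z with hvdef
  have hv0 : v ≠ 0 := mul_ne_zero (zpow_ne_zero _ hπ) hz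
  have hτv0 : τ v ≠ 0 := (map_ne_zero_iff τ τ.injective).2 hv0
  have hτz0 : τ z ≠ 0 := (map_ne_zero_iff τ τ.injective).2 hz
  have hτv : τ v = rE R K F ϖ ^ k * rE R K F a ^ k * τ z := by
    rw [hvdef, map_mul, map_zpow₀, ha, mul_zpow]
  have key : τ z / z = (τ v * v⁻¹) * (rE R K F a)⁻¹ ^ k := by
    rw [hτv, hvdef, inv_zpow]
    have h1 : rE R K F ϖ ^ k ≠ 0 := zpow_ne_zero _ hπ
    have h2 : rE R K F a ^ k ≠ 0 := zpow_ne_zero _ ha0
    field_simp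
  have hA : (rE R K F a)⁻¹ ^ k ∈ V := t0_zpow_mem (by rw [hainv]; exact hR b) (by rw [inv_inv]; exact hR a) k
  have hA' : (rE R K F a) ^ k ∈ V := t0_zpow_mem (hR a) (by rw [hainv]; exact hR b) k
  constructor
  · rw [key]
    exact mul_mem (mul_mem (t0_map_mem triv hv) hv') hA
  · rw [key, mul_inv, mul_inv, inv_inv, ← inv_zpow, inv_inv, ← map_inv₀]
    exact mul_mem (mul_mem (t0_map_mem triv hv') hv) hA'

theorem InertiaLike.unit_i (hϖ : Irreducible ϖ) (hB : Branches (K := K) ϖ x Vi V0) {τ : F ≃+* F}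
    (hτ : InertiaLike (R := R) (K := K) x Vi V0 τ) {z : F} (hz : z ≠ 0) :
    τ z / z ∈ Vi ∧ (τ z / z)⁻¹ ∈ Vi :=
  t0_unit hϖ hτ (fun r => (hB.mem_of_mem_CInt hϖ (Or.inl rfl) (rE_mem_CInt x r)).1) hB.unif_i
    hτ.triv_i hz

theorem InertiaLike.unit_0 (hϖ : Irreducible ϖ) (hB : Branches (K := K) ϖ x Vi V0) {τ : F ≃+* F}
    (hτ : InertiaLike (R := R) (K := K) x Vi V0 τ) {z : F} (hz : z ≠ 0) :
    τ z / z ∈ V0 ∧ (τ z / z)⁻¹ ∈ V0 :=
  t0_unit hϖ hτ (fun r => (hB.mem_of_mem_CInt hϖ (Or.inl rfl) (rE_mem_CInt x r)).2) hB.unif_0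
    hτ.triv_0 hz

theorem t0_dd_sub_one {V : ValuationSubring F} {τ' τ : F ≃+* F}
    (triv : ∀ z ∈ V, τ' z - z ∈ V.nonunits) {f : F} (hf : f ≠ 0)
    (hu : τ f / f ∈ V ∧ (τ f / f)⁻¹ ∈ V) : dd τ' τ f - 1 ∈ V.nonunits := by
  have h1 : τ f ≠ 0 := (map_ne_zero_iff τ τ.injective).2 hf
  have h2 : τ f / f ≠ 0 := div_ne_zero h1 hf
  have : dd τ' τ f - 1 = (τ' (τ f / f) - τ f / f) * (τ f / f)⁻¹ := by
    unfold dd
    field_simp
  rw [this]
  exact t0_nonunits_mul (triv _ hu.1) hu.2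

/-- `(τ'-1)(τ-1) f ≡ 1` on both branches. -/
theorem dd_sub_one_mem (hϖ : Irreducible ϖ) (hB : Branches (K := K) ϖ x Vi V0) {τ τ' : F ≃+* F}
    (hτ : InertiaLike (R := R) (K := K) x Vi V0 τ) (hτ' : InertiaLike (R := R) (K := K) x Vi V0 τ')
    {f : F} (hf : f ≠ 0) : dd τ' τ f - 1 ∈ Vi.nonunits ∧ dd τ' τ f - 1 ∈ V0.nonunits :=
  ⟨t0_dd_sub_one hτ'.triv_i hf (hτ.unit_i hϖ hB hf), t0_dd_sub_one hτ'.triv_0 hf (hτ.unit_0 hϖ hB hf)⟩

/-- `ϖ ^ k * τ z` is in the local ring if `ϖ ^ k * z` is. -/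
theorem t0_inLoc_pow_mul (hϖ : Irreducible ϖ) (hB : Branches (K := K) ϖ x Vi V0) {τ : F ≃+* F}
    (hτ : InertiaLike (R := R) (K := K) x Vi V0 τ) {t : F} (ht : t = x ∨ t = x⁻¹)
    {n : Ideal (CInt R K t)} (hn : IsClosedPt ϖ n) {z : F} {k : ℕ}
    (hz : InLoc n (rE R K F ϖ ^ k * z)) : InLoc n (rE R K F ϖ ^ k * τ z) := by
  haveI : n.IsPrime := hn.max.isPrime
  obtain ⟨a, b, hab, ha⟩ := t0_map_unif hϖ hτ
  have hab' : rE R K F a * rE R K F b = 1 := by rw [← map_mul, hab, map_one]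
  have h1 := hτ.inLoc hϖ hB ht hn hz
  rw [map_mul, map_pow, ha, mul_pow] at h1
  have h2 : InLoc n (rE R K F b ^ k) := InLoc.of_mem n ((CInt R K t).pow_mem (rE_mem_CInt t b) k)
  have h3 := h2.mul h1
  have h4 : rE R K F b ^ k * (rE R K F ϖ ^ k * rE R K F a ^ k * τ z) = rE R K F ϖ ^ k * τ z := by
    have : rE R K F b ^ k * rE R K F a ^ k = 1 := by rw [← mul_pow, mul_comm, hab', one_pow]
    calc _ = (rE R K F b ^ k * rE R K F a ^ k) * (rE R K F ϖ ^ k * τ z) := by ring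
      _ = _ := by rw [this, one_mul]
  rwa [h4] at h3

/-- **T0**. -/
theorem t0 (hϖ : Irreducible ϖ) (hB : Branches (K := K) ϖ x Vi V0) {τ τ' : F ≃+* F}
    (hτ : InertiaLike (R := R) (K := K) x Vi V0 τ) (hτ' : InertiaLike (R := R) (K := K) x Vi V0 τ')
    {t : F} (ht : t = x ∨ t = x⁻¹) {n : Ideal (CInt R K t)} (hn : IsClosedPt ϖ n) {m : ℕ} {f : F}
    (hf : LocPow ϖ n m f) : LocData Vi V0 n m (dd τ' τ f) := by
  haveI : n.IsPrime := hn.max.isPrime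
  obtain ⟨h₀, ε, hh₀, ⟨hε0, k, hk1, hk2⟩, rfl⟩ := hf
  have hh := dd_ne_zero τ' τ hh₀
  have hsub := dd_sub_one_mem hϖ hB hτ hτ' hh₀
  refine ⟨dd τ' τ h₀, hh, ?_, fun _ => hsub.1, fun _ => hsub.2⟩
  rw [dd_mul, dd_pow, mul_div_assoc, div_self (pow_ne_zero _ hh), mul_one]
  have hτε : τ ε ≠ 0 := (map_ne_zero_iff τ τ.injective).2 hε0
  have he0 : τ ε / ε ≠ 0 := div_ne_zero hτε hε0
  have hgen : GenUnit ϖ n (τ ε / ε) := by
    refine ⟨he0, k + k, ?_, ?_⟩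
    · have := (t0_inLoc_pow_mul hϖ hB hτ ht hn hk1).mul hk2
      have e : rE R K F ϖ ^ (k + k) * (τ ε / ε)
          = rE R K F ϖ ^ k * τ ε * (rE R K F ϖ ^ k * ε⁻¹) := by
        rw [pow_add, div_eq_mul_inv]; ring
      rwa [e]
    · have := (t0_inLoc_pow_mul hϖ hB hτ ht hn hk2).mul hk1
      have e : rE R K F ϖ ^ (k + k) * (τ ε / ε)⁻¹
          = rE R K F ϖ ^ k * τ ε⁻¹ * (rE R K F ϖ ^ k * ε) := by
        rw [pow_add, inv_div, div_eq_mul_inv, map_inv₀]; ring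
      rwa [e]
  have hui := hτ.unit_i hϖ hB hε0
  have hu0 := hτ.unit_0 hϖ hB hε0
  obtain ⟨-, hl1, hl2⟩ := hB.locUnit_of_genUnit hϖ ht hgen hui.1 hui.2 hu0.1 hu0.2
  unfold dd
  rw [div_eq_mul_inv]
  exact (hτ'.inLoc hϖ hB ht hn hl1).mul hl2

end Fermat.Agent.S34
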