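import Fermat.Agent.S34.RootA
import Fermat.Agent.S34.RootB
import Fermat.Agent.S34.T0

set_option autoImplicit false

/-!
# S34 / T1 : the gluing theorem for `m = p^k`, and the abstract GOAL A   (task T-T1)

SKETCH of `t1` (induction on `k`, `u` general).  `k = 0`: `w = u`.  `k + 1`: `LocData n (p^(k+1)) u` gives `LocData n p u` (replace `h` by `h^(p^k)`; `h ≡ 1 ⟹ h^(p^k) ≡ 1`).
 `y₁ := y^(p^k)` is a `p`-th root of `u` in `𝕃`.  `exists_root` + `exists_root_one` (with the primitive `p`-th root `ζ^(p^k)`): `u = w₁^p`, `w₁ ≡ 1` on both branches.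
 `LocData n (p^k) w₁` with the SAME `h`: `(w₁ / h^(p^k))^p = u / h^(p^(k+1))` is `InLoc`, so `w₁ / h^(p^k)` is `InLoc` (`InLoc.of_pow`).
 Root of `w₁` in `𝕃`: `(y^(p^k) / w₁)^p = 1`, so `y^(p^k) = ξ w₁` with `ξ^p = 1`, `ξ = (ζ^(p^k))^a` (`IsPrimitiveRoot.eq_pow_of_pow_eq_one`, transported to `𝕃`),
 so `w₁ = (y * ζ^(-a))^(p^k)`.  Induction hypothesis with the primitive `p^k`-th root `ζ^p`.
-/

noncomputable section

namespace Fermat.Agent.S34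

open Polynomial IntermediateField Fermat.Agent.S18

variable {R K F : Type} [CommRing R] [IsDomain R] [IsDiscreteValuationRing R] [Field K] [CharZero K]
  [Algebra R K] [IsFractionRing R K] [Field F] [Algebra K F]
  {ϖ : R} {x : F} {Vi V0 : ValuationSubring F}

/-- **T1**. -/
theorem t1 (hϖ : Irreducible ϖ) (hB : Branches (K := K) ϖ x Vi V0)
    {p : ℕ} (hp : p.Prime) (hpR : IsUnit (p : R))
    {𝕃 : Type} [Field 𝕃] [Algebra K 𝕃] [Algebra F 𝕃] [IsScalarTower K F 𝕃]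
    (h𝕃 : ∀ z : 𝕃, IsAlgebraic K z → z ∈ (algebraMap K 𝕃).range) (k : ℕ) :
    ∀ (ζ : K) (_ : IsPrimitiveRoot ζ (p ^ k)) (u : F) (_ : u - 1 ∈ Vi.nonunits)
      (_ : u - 1 ∈ V0.nonunits) (y : 𝕃) (_ : y ^ (p ^ k) = algebraMap F 𝕃 u)
      (_ : ∀ n : Ideal (CInt R K x), IsClosedPt ϖ n → LocData Vi V0 n (p ^ k) u)
      (_ : ∀ n : Ideal (CInt R K x⁻¹), IsClosedPt ϖ n → LocData Vi V0 n (p ^ k) u),
      ∃ w : F, w ^ (p ^ k) = u ∧ w - 1 ∈ Vi.nonunits ∧ w - 1 ∈ V0.nonunits := by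
  induction k with
  | zero =>
    intro ζ _ u hui hu0 y _ _ _
    exact ⟨u, by rw [pow_zero, pow_one], hui, hu0⟩
  | succ k ih =>
    intro ζ hζ u hui hu0 y hy hfin hinf
    have hred : ∀ {t : F} (n : Ideal (CInt R K t)),
        LocData Vi V0 n (p ^ (k + 1)) u → LocData Vi V0 n p u := by
      rintro t n ⟨h, h0, hl, h1, h2⟩
      refine ⟨h ^ (p ^ k), pow_ne_zero _ h0, ?_, fun hc => glueLoc_pow_sub_one (h1 hc) _,
        fun hc => glueLoc_pow_sub_one (h2 hc) _⟩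
      rwa [← pow_mul, ← pow_succ]
    have hζp : IsPrimitiveRoot (ζ ^ (p ^ k)) p :=
      hζ.pow (pow_pos hp.pos _) (by rw [pow_succ])
    have hy1 : (y ^ (p ^ k)) ^ p = algebraMap F 𝕃 u := by rw [← pow_mul, ← pow_succ, hy]
    obtain ⟨w0, hw0⟩ := exists_root hϖ hB hp hpR hζp h𝕃 hui hu0 hy1
      (fun n hn => hred n (hfin n hn)) (fun n hn => hred n (hinf n hn))
    obtain ⟨w1, hw1, hw1i, hw10⟩ := exists_root_one hϖ hB hp hpR hζp hui hu0 hw0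
      (fun n hn => hred n (hfin n hn)) (fun n hn => hred n (hinf n hn))
    have hloc : ∀ {t : F} (n : Ideal (CInt R K t)), IsClosedPt ϖ n →
        LocData Vi V0 n (p ^ (k + 1)) u → LocData Vi V0 n (p ^ k) w1 := by
      rintro t n hn ⟨h, h0, hl, h1, h2⟩
      have := hn.max.isPrime
      refine ⟨h, h0, InLoc.of_pow (k := p) hp.ne_zero ?_, h1, h2⟩
      rw [div_pow, hw1, ← pow_mul, ← pow_succ]
      exact hl
    have hw1ne : algebraMap F 𝕃 w1 ≠ 0 := (_root_.map_ne_zero _).mpr (glueLoc_unit hw1i).1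
    have hξ : (y ^ (p ^ k) / algebraMap F 𝕃 w1) ^ p = 1 := by
      rw [div_pow, hy1, ← map_pow, hw1, div_self]
      exact (_root_.map_ne_zero _).mpr (glueLoc_unit hui).1
    have hζ𝕃 : IsPrimitiveRoot (algebraMap K 𝕃 (ζ ^ (p ^ k))) p :=
      hζp.map_of_injective (algebraMap K 𝕃).injective
    have : NeZero p := ⟨hp.ne_zero⟩
    obtain ⟨a, -, hξa⟩ := hζ𝕃.eq_pow_of_pow_eq_one hξ
    have hz0 : algebraMap K 𝕃 ζ ≠ 0 :=
      (_root_.map_ne_zero _).mpr (hζ.ne_zero (pow_pos hp.pos _).ne')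
    have hy' : (y * (algebraMap K 𝕃 ζ)⁻¹ ^ a) ^ (p ^ k) = algebraMap F 𝕃 w1 := by
      have h1 : y ^ (p ^ k) = algebraMap K 𝕃 (ζ ^ (p ^ k)) ^ a * algebraMap F 𝕃 w1 := by
        rw [hξa, div_mul_cancel₀ _ hw1ne]
      rw [mul_pow, h1, map_pow, ← pow_mul, ← pow_mul, inv_pow, mul_comm a (p ^ k)]
      field_simp
    have hζ' : IsPrimitiveRoot (ζ ^ p) (p ^ k) :=
      hζ.pow (pow_pos hp.pos _) (by rw [pow_succ, mul_comm])
    obtain ⟨w, hw, hwi, hw0'⟩ := ih (ζ ^ p) hζ' w1 hw1i hw10 _ hy'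
      (fun n hn => hloc n hn (hfin n hn)) (fun n hn => hloc n hn (hinf n hn))
    exact ⟨w, by rw [pow_succ, pow_mul, hw, hw1], hwi, hw0'⟩

/-- **abstract GOAL A**: if `f` is locally (up to units of `Oloc[1/ϖ]`) a `p^k`-th power at every closed point of both charts, then
`(τ'-1)(τ-1) f` is a `p^k`-th power. -/
theorem goalA_abs (hϖ : Irreducible ϖ) (hB : Branches (K := K) ϖ x Vi V0)
    {p : ℕ} (hp : p.Prime) (hpR : IsUnit (p : R))
    {𝕃 : Type} [Field 𝕃] [Algebra K 𝕃] [Algebra F 𝕃] [IsScalarTower K F 𝕃]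
    (h𝕃 : ∀ z : 𝕃, IsAlgebraic K z → z ∈ (algebraMap K 𝕃).range) (k : ℕ)
    {ζ : K} (hζ : IsPrimitiveRoot ζ (p ^ k)) {τ τ' : F ≃+* F}
    (hτ : InertiaLike (R := R) (K := K) x Vi V0 τ) (hτ' : InertiaLike (R := R) (K := K) x Vi V0 τ')
    {f : F} (hf : f ≠ 0)
    (hfin : ∀ n : Ideal (CInt R K x), IsClosedPt ϖ n → LocPow ϖ n (p ^ k) f)
    (hinf : ∀ n : Ideal (CInt R K x⁻¹), IsClosedPt ϖ n → LocPow ϖ n (p ^ k) f)
    {y : 𝕃} (hy : y ^ (p ^ k) = algebraMap F 𝕃 (dd τ' τ f)) :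
    ∃ w : F, w ^ (p ^ k) = dd τ' τ f := by
  obtain ⟨h1, h2⟩ := dd_sub_one_mem hϖ hB hτ hτ' hf
  obtain ⟨w, hw, -, -⟩ := t1 hϖ hB hp hpR h𝕃 k ζ hζ (dd τ' τ f) h1 h2 y hy
    (fun n hn => t0 hϖ hB hτ hτ' (Or.inl rfl) hn (hfin n hn))
    (fun n hn => t0 hϖ hB hτ hτ' (Or.inr rfl) hn (hinf n hn))
  exact ⟨w, hw⟩

end Fermat.Agent.S34
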