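import Fermat.Agent.GES.Ops
import Fermat.Agent.S31.Defs
import Fermat.Agent.S34.Geo
import Fermat.Agent.S34.T1
import Fermat.Agent.S34.DAbs
import Fermat.Agent.S34.BR.Pack
import Fermat.Agent.S34.BR.IntB
import Fermat.Agent.S18.B.DVR
import Fermat.Agent.S18.B.Trans
import Fermat.Agent.S24.Principal

set_option autoImplicit false

/-!
# S34: GOAL A of the blueprint (final assembly of the geometric chapters; owner: helper5)

`N = q M`, `q ∤ M`, `p ≠ q`, `m = p ^ n`, `τ, τ'` in the inertia group of a place `A` over `q`,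
`f ∈ F_N` with `m ∣ div f`.  Then `(τ' - 1)(τ - 1) f` is an `m`-th power in `F_N`.
The auxiliary level structure `r ∣ N` (`r = 3` for `q ≠ 3`, `r = 2` for `q = 3`) is available:
the wiring (`S34/Exists.lean`) applies GOAL A at level `N r`.

Assembly: `exists_geo` (V2 + INST + SS + MOD), `exists_pack`, `valFam_wP`, `intAt_wP` (BR), `locPow_of_valFam` (D-abs), `goalA_abs` (AT2).
-/

namespace Fermat.Agent.S34

open AlgebraicCurve ModularCurve IntermediateField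
open Fermat.Agent.S24 (Kb FN iotaK)
open Fermat.Agent.GES
open Fermat.Agent.S18 (toFN)

/-- nonzero, of order `a`, with leading coefficient `1`. -/
def goalA_Mon {k : Type} [Field k] (z : LaurentSeries k) (a : ℤ) : Prop :=
  z ≠ 0 ∧ z.order = a ∧ z.leadingCoeff = 1

theorem goalA_Mon.div {k : Type} [Field k] {y z : LaurentSeries k} {a b : ℤ} (hy : goalA_Mon y a)
    (hz : goalA_Mon z b) : goalA_Mon (y / z) (a - b) := by
  obtain ⟨hy0, hya, hy1⟩ := hy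
  obtain ⟨hz0, hzb, hz1⟩ := hz
  have h0 : y / z ≠ 0 := div_ne_zero hy0 hz0
  have h1 : y / z * z = y := div_mul_cancel₀ y hz0
  refine ⟨h0, ?_, ?_⟩
  · have := HahnSeries.order_mul h0 hz0
    rw [h1, hya, hzb] at this
    omega
  · have := HahnSeries.leadingCoeff_mul (y / z) z
    rw [h1, hy1, hz1, mul_one] at this
    exact this.symm

theorem goalA_Mon.coeffMap {k k' : Type} [Field k] [Field k'] (σ : k →+* k') {z : LaurentSeries k}
    {a : ℤ} (hz : goalA_Mon z a) : goalA_Mon (coeffMap σ z) a := by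
  obtain ⟨hz0, hza, hz1⟩ := hz
  refine ⟨by rw [Ne, map_eq_zero]; exact hz0, by rw [S18.KPack.order_coeffMap, hza], ?_⟩
  rw [S18.KPack.leadingCoeff_coeffMap, hz1, map_one]

theorem goalA_Mon.of_coeffMap {k k' : Type} [Field k] [Field k'] (σ : k →+* k')
    {z : LaurentSeries k} {a : ℤ} (hz : goalA_Mon (ModularCurve.coeffMap σ z) a) : goalA_Mon z a := by
  obtain ⟨hz0, hza, hz1⟩ := hz
  refine ⟨fun h => hz0 (by rw [h, map_zero]), by rw [← hza, S18.KPack.order_coeffMap], ?_⟩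
  rw [S18.KPack.leadingCoeff_coeffMap] at hz1
  exact σ.injective (by rw [hz1, map_one])

theorem goalA_isUnit_natCast {K : Type} [Field K] (ι : K →+* Kb) (A : ValuationSubring Kb)
    {p q : ℕ} (hA : A.LiesOverPrime q) (hpq : Nat.Coprime p q) : IsUnit (p : ↥(A.comap ι)) := by
  have hq : (q : ↥(A.comap ι)) ∈ IsLocalRing.maximalIdeal ↥(A.comap ι) := by
    rw [← ValuationSubring.coe_mem_nonunits_iff]
    have : (((q : ↥(A.comap ι)) : ↥(A.comap ι)) : K) = (q : K) := by push_cast; rfl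
    rw [this, S18.DVR.mem_nonunits_comap, map_natCast]
    exact hA
  obtain ⟨s, t, hst⟩ := Nat.isCoprime_iff_coprime.2 hpq
  have h1 : (s : ↥(A.comap ι)) * (p : ↥(A.comap ι)) = 1 - (t : ↥(A.comap ι)) * (q : ↥(A.comap ι)) := by
    have := congrArg (Int.cast : ℤ → ↥(A.comap ι)) hst
    push_cast at this
    rw [← this]; ring
  have h2 : IsUnit ((s : ↥(A.comap ι)) * (p : ↥(A.comap ι))) := by
    rw [h1]
    by_contra hnu
    have h3 : (1 : ↥(A.comap ι)) - (t : ↥(A.comap ι)) * (q : ↥(A.comap ι)) ∈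
        IsLocalRing.maximalIdeal ↥(A.comap ι) := (IsLocalRing.mem_maximalIdeal _).2 hnu
    have h4 : (1 : ↥(A.comap ι)) ∈ IsLocalRing.maximalIdeal ↥(A.comap ι) := by
      have := Ideal.add_mem _ h3 (Ideal.mul_mem_left _ (t : ↥(A.comap ι)) hq)
      simpa using this
    exact (Ideal.ne_top_iff_one _).1 (IsLocalRing.maximalIdeal.isMaximal _).ne_top h4
  exact isUnit_of_mul_isUnit_right h2

/-- GOAL A for `f` with leading coefficient `1`. -/
theorem goalA_monic (N p q r : ℕ) [NeZero N] (hp : p.Prime) (hq : q.Prime) (hqp : q ≠ p)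
    (hqN : q ∣ N) (hq2 : ¬ q ^ 2 ∣ N) (hr : (q ≠ 3 ∧ r = 3) ∨ (q = 3 ∧ r = 2)) (hrN : r ∣ N)
    (n : ℕ) (A : ValuationSubring (AlgebraicClosure ℚ)) (hA : A.LiesOverPrime q)
    (τ τ' : GQ) (hτ : τ ∈ A.inertiaSubgroupIn ℚ) (hτ' : τ' ∈ A.inertiaSubgroupIn ℚ)
    (f : FN N) (hf : f ≠ 0) (hlc : f.1.leadingCoeff = 1)
    (hdiv : ∀ v : Place Kb (FN N), ((p ^ n : ℕ) : ℤ) ∣ v.ord f) :
    ∃ w : FN N, w ^ (p ^ n) * (galF N τ' f * galF N τ f) = galF N τ' (galF N τ f) * f := by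
  obtain ⟨K₁, hK₁, hgeo⟩ := exists_geo N q r hq hqN hq2 hr hrN A hA
  have : NeZero (p ^ n) := ⟨pow_ne_zero _ hp.ne_zero⟩
  obtain ⟨ζb, hζb⟩ := HasEnoughRootsOfUnity.exists_primitiveRoot Kb (p ^ n)
  have hζf : FiniteDimensional ℚ ℚ⟮ζb⟯ :=
    IntermediateField.adjoin.finiteDimensional
      ((AlgebraicClosure.isAlgebraic ℚ).isIntegral.isIntegral ζb)
  have hK₂ : FiniteDimensional ℚ ↥(K₁ ⊔ ℚ⟮ζb⟯) := IntermediateField.finiteDimensional_sup _ _
  obtain ⟨K, fK, nfK, galK, ι, hι, f₀, hf₀, hrat⟩ := exists_pack N (K₁ ⊔ ℚ⟮ζb⟯) hK₂ f hf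
  obtain ⟨G⟩ := hgeo K ι (fun c hc => hι c ((le_sup_left : K₁ ≤ K₁ ⊔ ℚ⟮ζb⟯) hc))
  obtain ⟨ζ, hζι⟩ := hι ζb ((le_sup_right : ℚ⟮ζb⟯ ≤ K₁ ⊔ ℚ⟮ζb⟯)
    (IntermediateField.mem_adjoin_simple_self ℚ ζb))
  have hζ : IsPrimitiveRoot ζ (p ^ n) := by
    rw [← hζι] at hζb
    exact hζb.of_map_of_injective ι.injective
  have hDVR : IsDiscreteValuationRing ↥(A.comap ι) := S18.isDVR_comap ι A hq hA
  obtain ⟨τF, hτF, hτc⟩ := G.gal τ hτ
  obtain ⟨τF', hτF', hτc'⟩ := G.gal τ' hτ'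
  have hf₀0 : f₀ ≠ 0 := by
    rintro rfl
    exact hf (by rw [← hf₀, map_zero])
  have hdiv₀ : ∀ v, ((p ^ n : ℕ) : ℤ) ∣ wP ι N v f₀ := by
    intro v; rw [wP_apply, hf₀]; exact hdiv v
  have hrat₀ : ∀ v, wP ι N v f₀ ≠ 0 → RatAt K (wP ι N) v := by
    intro v hv; exact hrat v (by rwa [wP_apply, hf₀] at hv)
  have htr' : Transcendental K G.x⁻¹ := G.branches.trans' (Or.inr rfl)
  have hfin' : FiniteDimensional K⟮G.x⁻¹⟯ (modularFunctionFieldFullC K N) := by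
    rw [S24.principal_adjoin_inv_eq]; exact G.branches.fin
  have hpR : IsUnit (p : ↥(A.comap ι)) :=
    goalA_isUnit_natCast ι A hA ((Nat.coprime_primes hp hq).2 hqp.symm)
  -- the image of `dd` in `FN N`
  have hdd : toFN ι N (dd τF' τF f₀) = galF N τ' (galF N τ f / f) / (galF N τ f / f) := by
    unfold dd
    rw [map_div₀, hτc', map_div₀, hτc, hf₀]
  -- the root in `K((q))`
  have hM : goalA_Mon f.1 f.1.order := ⟨fun h => hf (Subtype.ext h), rfl, hlc⟩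
  have hM1 : goalA_Mon (galF N τ f).1 f.1.order := by
    rw [coe_galF]; exact hM.coeffMap _
  have hM2 : goalA_Mon (galF N τ f / f).1 0 := by
    have := hM1.div hM
    rwa [sub_self] at this
  have hM3 : goalA_Mon (galF N τ' (galF N τ f / f)).1 0 := by
    rw [coe_galF]; exact hM2.coeffMap _
  have hM4 : goalA_Mon (galF N τ' (galF N τ f / f) / (galF N τ f / f)).1 0 := by
    have := hM3.div hM2
    rwa [sub_self] at this
  have hM5 : goalA_Mon (dd τF' τF f₀).1 0 := by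
    apply goalA_Mon.of_coeffMap ι
    rw [← S18.toFN_coe, hdd]
    exact hM4
  obtain ⟨y, hy⟩ := S18.KPack.exists_pow_eq_of_leadingCoeff (p ^ n) (pow_pos hp.pos n)
    (dd τF' τF f₀).1 hM5.1 (by rw [hM5.2.1]; exact dvd_zero _) 1 (by rw [one_pow, hM5.2.2])
  obtain ⟨w₀, hw₀⟩ := goalA_abs (R := ↥(A.comap ι)) (K := K) (𝕃 := LaurentSeries K) G.irr G.branches
    hp hpR (fun z hz => by
      obtain ⟨c, hc⟩ := S18.trans_const z hz
      exact ⟨c, hc⟩) n hζ hτF hτF' hf₀0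
    (fun m hm => locPow_of_valFam G.irr (valFam_wP ι N) G.branches.trans G.branches.fin
      (intAt_wP ι N G.x G.branches.trans) G.ss_fin hf₀0 hdiv₀ hrat₀ m hm)
    (fun m hm => locPow_of_valFam G.irr (valFam_wP ι N) htr' hfin'
      (intAt_wP ι N G.x⁻¹ htr') G.ss_inf hf₀0 hdiv₀ hrat₀ m hm)
    (y := y) hy
  refine ⟨toFN ι N w₀, ?_⟩
  rw [← map_pow, hw₀, hdd, map_div₀]
  have h1 : galF N τ f ≠ 0 := (map_ne_zero _).2 hf
  have h2 : galF N τ' f ≠ 0 := (map_ne_zero _).2 hf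
  field_simp

theorem goalA (N p q r : ℕ) [NeZero N] (hp : p.Prime) (hq : q.Prime) (hqp : q ≠ p)
    (hqN : q ∣ N) (hq2 : ¬ q ^ 2 ∣ N) (hr : (q ≠ 3 ∧ r = 3) ∨ (q = 3 ∧ r = 2)) (hrN : r ∣ N)
    (n : ℕ) (A : ValuationSubring (AlgebraicClosure ℚ)) (hA : A.LiesOverPrime q)
    (τ τ' : GQ) (hτ : τ ∈ A.inertiaSubgroupIn ℚ) (hτ' : τ' ∈ A.inertiaSubgroupIn ℚ)
    (f : FN N) (hf : f ≠ 0) (hdiv : ∀ v : Place Kb (FN N), ((p ^ n : ℕ) : ℤ) ∣ v.ord f) :
    ∃ w : FN N, w ^ (p ^ n) * (galF N τ' f * galF N τ f) = galF N τ' (galF N τ f) * f := by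
  set c : Kb := f.1.leadingCoeff with hc
  have hc0 : c ≠ 0 := HahnSeries.leadingCoeff_ne_zero.2 (fun h => hf (Subtype.ext h))
  set f₁ : FN N := algebraMap Kb (FN N) c⁻¹ * f with hf₁
  have hC0 : algebraMap Kb (FN N) c⁻¹ ≠ 0 := (map_ne_zero _).2 (inv_ne_zero hc0)
  have hf₁0 : f₁ ≠ 0 := mul_ne_zero hC0 hf
  have hlc : f₁.1.leadingCoeff = 1 := by
    have h1 : f₁.1 = (algebraMap Kb (LaurentSeries Kb) c⁻¹) * f.1 := rfl
    rw [h1, HahnSeries.leadingCoeff_mul, algebraMap_laurentSeries_eq_single,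
      HahnSeries.leadingCoeff_of_single, ← hc, inv_mul_cancel₀ hc0]
  have hdiv₁ : ∀ v : Place Kb (FN N), ((p ^ n : ℕ) : ℤ) ∣ v.ord f₁ := by
    intro v
    rw [hf₁, v.ord_mul hC0 hf, S24.ord_algebraMap, zero_add]
    exact hdiv v
  obtain ⟨w₁, hw₁⟩ := goalA_monic N p q r hp hq hqp hqN hq2 hr hrN n A hA τ τ' hτ hτ' f₁ hf₁0 hlc hdiv₁
  obtain ⟨γ, hγ⟩ := IsAlgClosed.exists_pow_nat_eq (τ' (τ c) * c / (τ' c * τ c)) (pow_pos hp.pos n)
  have hff : f = algebraMap Kb (FN N) c * f₁ := by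
    rw [hf₁, ← mul_assoc, ← map_mul, mul_inv_cancel₀ hc0, map_one, one_mul]
  have hτc0 : τ c ≠ 0 := (map_ne_zero _).2 hc0
  have hτ'c0 : τ' c ≠ 0 := (map_ne_zero _).2 hc0
  have hγ' : γ ^ (p ^ n) * (τ' c * τ c) = τ' (τ c) * c := by
    rw [hγ]; field_simp
  have hγ'' : algebraMap Kb (FN N) γ ^ (p ^ n) * (algebraMap Kb (FN N) (τ' c) * algebraMap Kb (FN N) (τ c))
      = algebraMap Kb (FN N) (τ' (τ c)) * algebraMap Kb (FN N) c := by
    rw [← map_pow, ← map_mul, ← map_mul, hγ', map_mul]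
  refine ⟨algebraMap Kb (FN N) γ * w₁, ?_⟩
  rw [hff]
  simp only [map_mul, galF_algebraMap, mul_pow]
  calc algebraMap Kb (FN N) γ ^ (p ^ n) * w₁ ^ (p ^ n) *
        (algebraMap Kb (FN N) (τ' c) * galF N τ' f₁ * (algebraMap Kb (FN N) (τ c) * galF N τ f₁))
      = (algebraMap Kb (FN N) γ ^ (p ^ n) *
          (algebraMap Kb (FN N) (τ' c) * algebraMap Kb (FN N) (τ c))) *
          (w₁ ^ (p ^ n) * (galF N τ' f₁ * galF N τ f₁)) := by ring
    _ = algebraMap Kb (FN N) (τ' (τ c)) * galF N τ' (galF N τ f₁) *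
          (algebraMap Kb (FN N) c * f₁) := by rw [hγ'', hw₁]; ring

end Fermat.Agent.S34
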