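import Fermat.Agent.S34.Level
import Fermat.Agent.S34.GoalA
import Fermat.Agent.GES.System
import Fermat.Agent.NV.KappaLat

/-!
# S34: the geometric input, from GOAL A

For `q ∥ N`, `q ≠ p`, inertia at `q` acts unipotently on the Kummer classes of `X₀(N)` modulo
`p ^ n`, up to an exponent `d` which does not depend on `n` (the degree of `X₀(N r) → X₀(N)`).
-/

set_option autoImplicit false

namespace Fermat.Agent.S34

open Fermat.Agent.S31
open Fermat.Agent.S24 (Kb FN iotaK)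

/-- inertia at `q` acts unipotently on all `W n`, up to the bounded exponent `d`. -/
def IsUnip {N p : ℕ} [NeZero N] (K : KummerSystem N p) (q d : ℕ) : Prop :=
  ∀ A : ValuationSubring Qb, A.LiesOverPrime q → ∀ τ ∈ A.inertiaSubgroupIn ℚ,
    ∀ (n : ℕ) (w : K.W n), d • (K.act n τ (K.act n τ w) - 2 • K.act n τ w + w) = 0

/-- the analytic uniformisation of the Kummer classes (chapter NV). -/
noncomputable def kappaData (N p : ℕ) [NeZero N] [NeZero p] : GES.KappaData N p where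
  H := Lat N
  instFree := lat_free N
  instFinite := lat_finite N
  T := latT N
  link := lat_link N
  κ := fun n => NV.kappa N (p ^ n)
  κ_ker := fun n h hh => NV.kappa_ker N (p ^ n) h hh
  κ_T := fun n ℓ hℓ hℓNp h =>
    NV.kappa_latT N (p ^ n) ℓ hℓ (fun hd => hℓNp (Dvd.dvd.mul_right hd p)) h

/-- GOAL A on Kummer classes. -/
theorem goalA_VN (N p q r : ℕ) [NeZero N] (hp : p.Prime) (hq : q.Prime) (hqp : q ≠ p)
    (hqN : q ∣ N) (hq2 : ¬ q ^ 2 ∣ N) (hr : (q ≠ 3 ∧ r = 3) ∨ (q = 3 ∧ r = 2)) (hrN : r ∣ N)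
    (n : ℕ) (A : ValuationSubring Qb) (hA : A.LiesOverPrime q)
    (τ : GQ) (hτ : τ ∈ A.inertiaSubgroupIn ℚ) (y : GES.VN N (p ^ n)) :
    GES.rhoV N (p ^ n) τ (GES.rhoV N (p ^ n) τ y) - 2 • GES.rhoV N (p ^ n) τ y + y = 0 := by
  obtain ⟨f, rfl⟩ := GES.Vm.mk_surjective y
  obtain ⟨w, hw⟩ := goalA N p q r hp hq hqp hqN hq2 hr hrN n A hA τ τ hτ hτ
    ((f : (FN N)ˣ) : FN N) (f : (FN N)ˣ).ne_zero f.2
  rw [GES.rhoV_mk, GES.rhoV_mk, ← GES.Vm.mk_pow, ← GES.Vm.mk_div, ← GES.Vm.mk_mul]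
  refine GES.Vm.mk_eq_zero_of_pow_eq (pow_pos hp.pos n).ne' _ w ?_
  have h0 : GES.galF N τ ((f : (FN N)ˣ) : FN N) ≠ 0 :=
    (map_ne_zero (GES.galF N τ)).mpr (f : (FN N)ˣ).ne_zero
  have h1 : w ^ (p ^ n) = GES.galF N τ (GES.galF N τ ((f : (FN N)ˣ) : FN N)) /
      (GES.galF N τ ((f : (FN N)ˣ) : FN N)) ^ 2 * ((f : (FN N)ˣ) : FN N) := by
    field_simp
    rw [← hw]
    ring
  rw [h1]
  simp

theorem exists_unip (N p : ℕ) [NeZero N] (hp : p.Prime) (q : ℕ) (hq : q.Prime) (hqp : q ≠ p)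
    (hqN : q ∣ N) (hq2 : ¬ q ^ 2 ∣ N) :
    ∃ (K : KummerSystem N p) (d : ℕ), 0 < d ∧ IsUnip K q d := by
  have : NeZero p := ⟨hp.ne_zero⟩
  obtain ⟨r, hr, hrp, hrq⟩ : ∃ r : ℕ, ((q ≠ 3 ∧ r = 3) ∨ (q = 3 ∧ r = 2)) ∧ r.Prime ∧ r ≠ q := by
    by_cases h : q = 3
    · exact ⟨2, Or.inr ⟨h, rfl⟩, Nat.prime_two, by omega⟩
    · exact ⟨3, Or.inl ⟨h, rfl⟩, Nat.prime_three, fun h' => h h'.symm⟩
  have : NeZero r := ⟨hrp.ne_zero⟩
  refine ⟨(kappaData N p).toKummerSystem, deg N r, deg_pos N r, ?_⟩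
  intro A hA τ hτ n w
  have hq2' : ¬ q ^ 2 ∣ N * r := by
    intro h
    apply hq2
    have hc : Nat.Coprime (q ^ 2) r :=
      Nat.Coprime.pow_left 2 ((Nat.coprime_primes hq hrp).mpr (Ne.symm hrq))
    exact hc.dvd_of_dvd_mul_right h
  exact unip_descend N r (p ^ n) τ
    (goalA_VN (N * r) p q r hp hq hqp (Dvd.dvd.mul_right hqN r) hq2' hr (Dvd.intro_left N rfl)
      n A hA τ hτ) w

end Fermat.Agent.S34
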