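import Fermat.Agent.S18.AT.Glue
import Fermat.Agent.S18.AT.Inv

set_option autoImplicit false

/-!
# S34 : abstract language for the two-branch model

`R` a DVR with uniformiser `ϖ`, `K = Frac R` (char. 0), `F / K` a function field, `x : F`.
`CInt R K t` (`t = x` or `x⁻¹`) are the two affine charts of the normal model.
`Vi`, `V0` : the two extensions of the Gauss valuation ("branches" / components of the special fibre).

A closed point is a maximal ideal `n` of `CInt R K t` containing `ϖ`; its local ring is `Oloc n ⊆ F`.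
-/

noncomputable section

namespace Fermat.Agent.S34

open Polynomial IntermediateField Fermat.Agent.S18

section
variable {R K F : Type} [CommRing R] [Field K] [Algebra R K] [Field F] [Algebra K F]

/-- `z` lies in the local ring of the chart `CInt R K t` at `n`. -/
def InLoc {t : F} (n : Ideal (CInt R K t)) (z : F) : Prop :=
  ∃ d : CInt R K t, d ∉ n ∧ (d : F) * z ∈ CInt R K t

/-- `z` lies in the maximal ideal of the local ring at `n`. -/
def InMax {t : F} (n : Ideal (CInt R K t)) (z : F) : Prop :=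
  ∃ d : CInt R K t, d ∉ n ∧ ∃ w : CInt R K t, w ∈ n ∧ (d : F) * z = w

/-- `z` is a unit of the local ring at `n`. -/
def LocUnit {t : F} (n : Ideal (CInt R K t)) (z : F) : Prop :=
  z ≠ 0 ∧ InLoc n z ∧ InLoc n z⁻¹

/-- `z` is a unit of `Oloc n [1/ϖ]`. -/
def GenUnit (ϖ : R) {t : F} (n : Ideal (CInt R K t)) (z : F) : Prop :=
  z ≠ 0 ∧ ∃ k : ℕ, InLoc n (rE R K F ϖ ^ k * z) ∧ InLoc n (rE R K F ϖ ^ k * z⁻¹)

/-- the valuation ring `V` is centred at `n`. -/
def Centered (V : ValuationSubring F) {t : F} (n : Ideal (CInt R K t)) : Prop :=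
  ∀ c : CInt R K t, (c : F) ∈ V.nonunits → c ∈ n

/-- the residue field of `n` is the residue field of `R`. -/
def IsRat {t : F} (n : Ideal (CInt R K t)) : Prop :=
  ∀ c : CInt R K t, ∃ r : R, c - ⟨rE R K F r, rE_mem_CInt t r⟩ ∈ n

/-- `ϖ` as an element of the chart. -/
def unifC (t : F) (ϖ : R) : CInt R K t := ⟨rE R K F ϖ, rE_mem_CInt t ϖ⟩

/-- a closed point of the special fibre of the chart `t`. -/
structure IsClosedPt (ϖ : R) {t : F} (n : Ideal (CInt R K t)) : Prop where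
  max : n.IsMaximal
  mem : unifC t ϖ ∈ n

/-- smooth-like point: `n = (ϖ, S)` locally. -/
def SmAt (ϖ : R) {t : F} (n : Ideal (CInt R K t)) : Prop :=
  ∃ S : F, InMax n S ∧ ∀ z : F, InMax n z →
    ∃ a b : F, InLoc n a ∧ InLoc n b ∧ z = rE R K F ϖ * a + S * b

/-- node-like point: `n = (ϖ, S, T)` locally, `S * T = ϖ₀ ∈ R \ 0`. -/
def NdAt (ϖ : R) {t : F} (n : Ideal (CInt R K t)) : Prop :=
  ∃ (S T : F) (ϖ₀ : R), ϖ₀ ≠ 0 ∧ InMax n S ∧ InMax n T ∧ S * T = rE R K F ϖ₀ ∧
    ∀ z : F, InMax n z →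
      ∃ a b c : F, InLoc n a ∧ InLoc n b ∧ InLoc n c ∧ z = rE R K F ϖ * a + S * b + T * c

/-- `f` is, locally at `n` and up to a unit of `Oloc n [1/ϖ]`, an `m`-th power. -/
def LocPow (ϖ : R) {t : F} (n : Ideal (CInt R K t)) (m : ℕ) (f : F) : Prop :=
  ∃ h₀ ε : F, h₀ ≠ 0 ∧ GenUnit ϖ n ε ∧ f = ε * h₀ ^ m

/-- the local hypothesis of the gluing theorem `T1`: `u = (element of Oloc n) * h ^ m` with
`h ≡ 1` at the branches centred at `n`. -/
def LocData (Vi V0 : ValuationSubring F) {t : F} (n : Ideal (CInt R K t)) (m : ℕ) (u : F) : Prop :=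
  ∃ h : F, h ≠ 0 ∧ InLoc n (u / h ^ m) ∧ (Centered Vi n → h - 1 ∈ Vi.nonunits) ∧
    (Centered V0 n → h - 1 ∈ V0.nonunits)

/-- The two branches: `Vi`, `V0` are exactly the extensions of the Gauss valuation of `K(x)`, and `ϖ` is a
uniformiser of both. -/
structure Branches (ϖ : R) (x : F) (Vi V0 : ValuationSubring F) : Prop where
  trans : Transcendental K x
  fin : FiniteDimensional K⟮x⟯ F
  const : ∀ y : F, IsAlgebraic K y → y ∈ (algebraMap K F).range
  inO_iff : ∀ y : F, InO K ϖ x y ↔ y ∈ Vi ∧ y ∈ V0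
  unif_i : ∀ z : F, z ≠ 0 → ∃ k : ℤ, rE R K F ϖ ^ k * z ∈ Vi ∧ (rE R K F ϖ ^ k * z)⁻¹ ∈ Vi
  unif_0 : ∀ z : F, z ≠ 0 → ∃ k : ℤ, rE R K F ϖ ^ k * z ∈ V0 ∧ (rE R K F ϖ ^ k * z)⁻¹ ∈ V0
  mem_i : rE R K F ϖ ∈ Vi.nonunits
  mem_0 : rE R K F ϖ ∈ V0.nonunits

/-- an automorphism of `F` which behaves like an element of the inertia group: it fixes `x`, preserves `R`,
and acts trivially on the residue fields of both branches. -/
structure InertiaLike (x : F) (Vi V0 : ValuationSubring F) (τ : F ≃+* F) : Prop where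
  map_x : τ x = x
  map_R : ∀ r : R, ∃ r' : R, τ (rE R K F r) = rE R K F r'
  map_R_symm : ∀ r : R, ∃ r' : R, τ.symm (rE R K F r) = rE R K F r'
  triv_i : ∀ z ∈ Vi, τ z - z ∈ Vi.nonunits
  triv_0 : ∀ z ∈ V0, τ z - z ∈ V0.nonunits

/-- the structure theorem of the special fibre (output of chapter SS). -/
def SSAt (ϖ : R) (t : F) : Prop :=
  ∀ n : Ideal (CInt R K t), IsClosedPt ϖ n → IsRat n → SmAt ϖ n ∨ NdAt ϖ n

end

end Fermat.Agent.S34
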