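import Fermat.Agent.S34.GlueLoc

set_option autoImplicit false
set_option linter.unusedSectionVars false

/-!
# S34 / GlueE : the gluing lemma   (task T-GlueE; sketches in the header of GlueLoc.lean)
-/

noncomputable section

namespace Fermat.Agent.S34

open Polynomial IntermediateField Fermat.Agent.S18

variable {R K F E : Type} [CommRing R] [IsDomain R] [IsDiscreteValuationRing R] [Field K] [CharZero K]
  [Algebra R K] [IsFractionRing R K] [Field F] [Algebra K F] [Field E] [Algebra K E] [Algebra F E]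
  [IsScalarTower K F E]
  {ϖ : R} {x : F} {Vi V0 : ValuationSubring F}

theorem glueE_idem_eq {p : ℕ} {rp : R} (hrp : rp * (p : R) = 1) (y : E) :
    idem p y = rE R K E rp * ∑ i ∈ Finset.range p, y ^ i := by
  have h1 : rE R K E rp * (p : E) = 1 := by
    have := congrArg (rE R K E) hrp
    rwa [map_mul, map_natCast, map_one] at this
  have hpE : (p : E) ≠ 0 := right_ne_zero_of_mul_eq_one h1
  rw [idem, div_eq_iff hpE, mul_right_comm, h1, one_mul]

theorem glueE_root_inO (hϖ : Irreducible ϖ) (hB : Branches (K := K) ϖ x Vi V0) {p : ℕ} (hp : p.Prime)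
    {u : F} (hui : u - 1 ∈ Vi.nonunits) (hu0 : u - 1 ∈ V0.nonunits)
    {y : E} (hy : y ^ p = algebraMap F E u) {t : F} (ht : t = x ∨ t = x⁻¹) :
    InO K ϖ (algebraMap F E t) y := by
  refine InO_of_pow hϖ hp.ne_zero ?_
  rw [hy]
  exact map_InO ((hB.inO_iff' hϖ ht u).2 ⟨(glueLoc_unit hui).2.1, (glueLoc_unit hu0).2.1⟩)

theorem glueE_sum_inO (hϖ : Irreducible ϖ) {t y : E} (hy : InO K ϖ t y) (k : ℕ) :
    InO K ϖ t (∑ i ∈ Finset.range k, y ^ i) := by
  rw [← mem_ORing hϖ]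
  exact sum_mem fun i _ => (mem_ORing hϖ).2 (hy.pow hϖ i)

theorem glueE_idem_inO (hϖ : Irreducible ϖ) (hB : Branches (K := K) ϖ x Vi V0) {p : ℕ} (hp : p.Prime)
    (hpR : IsUnit (p : R)) {u : F} (hui : u - 1 ∈ Vi.nonunits) (hu0 : u - 1 ∈ V0.nonunits)
    {y : E} (hy : y ^ p = algebraMap F E u) {t : F} (ht : t = x ∨ t = x⁻¹) :
    InO K ϖ (algebraMap F E t) (idem p y) := by
  obtain ⟨rp, hrp⟩ := hpR.exists_left_inv
  rw [glueE_idem_eq (K := K) hrp]
  exact (InO.of_mem_CInt hϖ (rE_mem_CInt _ rp)).mul hϖ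
    (glueE_sum_inO hϖ (glueE_root_inO hϖ hB hp hui hu0 hy ht) p)

theorem exists_cong_chart (hϖ : Irreducible ϖ) (hB : Branches (K := K) ϖ x Vi V0) {p : ℕ} (hp : p.Prime)
    (hpR : IsUnit (p : R)) {u : F} (hui : u - 1 ∈ Vi.nonunits) (hu0 : u - 1 ∈ V0.nonunits)
    {y : E} (hy : y ^ p = algebraMap F E u) {t : F} (ht : t = x ∨ t = x⁻¹)
    (hloc : ∀ n : Ideal (CInt R K t), IsClosedPt ϖ n → LocData Vi V0 n p u) :
    ∃ y₁ ∈ CInt R K (algebraMap F E t), CongA K ϖ (algebraMap F E t) y₁ (idem p y) := by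
  have heO := glueE_idem_inO hϖ hB hp hpR hui hu0 hy ht
  let I : Ideal (CInt R K t) :=
    { carrier := {d | ∃ y₁ ∈ CInt R K (algebraMap F E t),
        CongA K ϖ (algebraMap F E t) y₁ (algebraMap F E d * idem p y)}
      add_mem' := by
        rintro d d' ⟨y₁, h1, c1⟩ ⟨y₂, h2, c2⟩
        refine ⟨y₁ + y₂, add_mem h1 h2, ?_⟩
        have := c1.add hϖ c2
        rwa [← add_mul, ← map_add] at this
      zero_mem' := ⟨0, zero_mem _, by
        have : algebraMap F E ((0 : CInt R K t) : F) * idem p y = 0 := by simp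
        rw [this]
        exact CongA.refl hϖ _ _⟩
      smul_mem' := by
        rintro c d ⟨y₁, h1, c1⟩
        refine ⟨algebraMap F E c * y₁, mul_mem (map_mem_CInt c.2) h1, ?_⟩
        have := c1.mul_left hϖ (InO.of_mem_CInt (K := K) hϖ (map_mem_CInt (E := E) c.2))
        rwa [← mul_assoc, ← map_mul] at this }
  have hI : I = ⊤ := by
    by_contra hne
    obtain ⟨n, hn, hIn⟩ := Ideal.exists_le_maximal I hne
    have hπ : unifC t ϖ ∈ I := by
      refine ⟨0, zero_mem _, -idem p y, heO.neg, ?_⟩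
      rw [unifC, map_rE]
      ring
    obtain ⟨d, hdn, hd⟩ := exists_mem_local (E := E) hϖ hB hp hpR hui hu0 hy ht ⟨hn, hIn hπ⟩
      (hloc n ⟨hn, hIn hπ⟩)
    exact hdn (hIn hd)
  obtain ⟨y₁, h1, c1⟩ : (1 : CInt R K t) ∈ I := hI ▸ Submodule.mem_top
  refine ⟨y₁, h1, ?_⟩
  have e : algebraMap F E ((1 : CInt R K t) : F) * idem p y = idem p y := by simp
  rwa [e] at c1

theorem idem_sq_cong (hϖ : Irreducible ϖ) (hB : Branches (K := K) ϖ x Vi V0) {p : ℕ} (hp : p.Prime)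
    (hpR : IsUnit (p : R)) {u : F} (hui : u - 1 ∈ Vi.nonunits) (hu0 : u - 1 ∈ V0.nonunits)
    {y : E} (hy : y ^ p = algebraMap F E u) :
    CongA K ϖ (algebraMap F E x) (idem p y ^ 2) (idem p y) := by
  obtain ⟨rp, hrp⟩ := hpR.exists_left_inv
  have hyO := glueE_root_inO (E := E) hϖ hB hp hui hu0 hy (Or.inl rfl)
  have hc : rE R K E rp * (p : E) = 1 := by
    have := congrArg (rE R K E) hrp
    rwa [map_mul, map_natCast, map_one] at this
  have hπ : rE R K F ϖ ≠ 0 := fun h0 => hϖ.ne_zero (rE_injective (h0.trans (map_zero _).symm))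
  -- `u - 1 = ϖ μ`
  have hμ : InO K ϖ x ((rE R K F ϖ)⁻¹ * (u - 1)) :=
    (hB.inO_iff _).2 ⟨hB.div_mem_i hui, hB.div_mem_0 hu0⟩
  have hu1 : algebraMap F E (u - 1) = rE R K E ϖ * algebraMap F E ((rE R K F ϖ)⁻¹ * (u - 1)) := by
    rw [← map_rE (F := F) (E := E) ϖ, ← map_mul, ← mul_assoc, mul_inv_cancel₀ hπ, one_mul]
  set S : E := ∑ i ∈ Finset.range p, y ^ i with hS
  have hS1 : S * (y - 1) = algebraMap F E (u - 1) := by
    rw [hS, geom_sum_mul, hy, map_sub, map_one]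
  have hi : ∀ i : ℕ, y ^ i * S = S + (∑ j ∈ Finset.range i, y ^ j) * algebraMap F E (u - 1) := by
    intro i
    have h1 := geom_sum_mul y i
    rw [← hS1]
    linear_combination (-S) * h1
  have hSS : S * S = (p : E) * S +
      (∑ i ∈ Finset.range p, ∑ j ∈ Finset.range i, y ^ j) * algebraMap F E (u - 1) := by
    conv_lhs => rw [hS, Finset.sum_mul]
    rw [Finset.sum_congr rfl fun i _ => hi i, Finset.sum_add_distrib, Finset.sum_const,
      Finset.card_range, nsmul_eq_mul, Finset.sum_mul]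
  refine ⟨rE R K E rp ^ 2 * (∑ i ∈ Finset.range p, ∑ j ∈ Finset.range i, y ^ j) *
    algebraMap F E ((rE R K F ϖ)⁻¹ * (u - 1)), ?_, ?_⟩
  · refine (((InO.of_mem_CInt hϖ (rE_mem_CInt _ rp)).pow hϖ 2).mul hϖ ?_).mul hϖ (map_InO hμ)
    rw [← mem_ORing hϖ]
    exact sum_mem fun i _ => (mem_ORing hϖ).2 (glueE_sum_inO hϖ hyO i)
  · rw [glueE_idem_eq (K := K) hrp, ← hS]
    linear_combination (rE R K E rp) ^ 2 * hSS + (rE R K E rp * S) * hc +
      (rE R K E rp ^ 2 * ∑ i ∈ Finset.range p, ∑ j ∈ Finset.range i, y ^ j) * hu1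

/-- **the gluing lemma**. -/
theorem glue_prime [FiniteDimensional F E] (hϖ : Irreducible ϖ) (hB : Branches (K := K) ϖ x Vi V0)
    (hE : ∀ z : E, IsAlgebraic K z → z ∈ (algebraMap K E).range)
    {p : ℕ} (hp : p.Prime) (hpR : IsUnit (p : R)) {u : F} (hui : u - 1 ∈ Vi.nonunits)
    (hu0 : u - 1 ∈ V0.nonunits) {y : E} (hy : y ^ p = algebraMap F E u)
    (hfin : ∀ n : Ideal (CInt R K x), IsClosedPt ϖ n → LocData Vi V0 n p u)
    (hinf : ∀ n : Ideal (CInt R K x⁻¹), IsClosedPt ϖ n → LocData Vi V0 n p u) :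
    ∃ r : R, CongA K ϖ (algebraMap F E x) (rE R K E r) (idem p y) := by
  obtain ⟨y₁, hy₁, c₁⟩ := exists_cong_chart (E := E) hϖ hB hp hpR hui hu0 hy (Or.inl rfl) hfin
  obtain ⟨y₂, hy₂, c₂⟩ := exists_cong_chart (E := E) hϖ hB hp hpR hui hu0 hy (Or.inr rfl) hinf
  have hx0 : algebraMap F E x ≠ 0 := by
    intro h
    exact transcendental_map (E := E) hB.trans (h ▸ isAlgebraic_zero)
  rw [map_inv₀] at hy₂ c₂
  exact glue hϖ (transcendental_map hB.trans) (finiteDimensional_tower hB.fin) hE _ y₁ y₂ hy₁ hy₂ c₁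
    ((CongA_inv_iff hϖ hx0).1 c₂) (idem_sq_cong hϖ hB hp hpR hui hu0 hy)

end Fermat.Agent.S34
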