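import Fermat.Agent.S34.Tower
import Fermat.Agent.S18.AT.Val

set_option autoImplicit false
set_option linter.unusedSectionVars false

/-!
# S34 / GlueLoc : the gluing lemma, local part   (task T-GlueLoc; the sketches of T-GlueE are here too)

`E / F` finite (possibly `E = F`), `y : E`, `y ^ p = u ∈ F`, `u ≡ 1` on both branches, `e := (∑_{i<p} y^i)/p`.
If `u` has `LocData` (exponent `p`) at every closed point of both charts then `e ≡ r` for a constant `r : R`.

SKETCH of `exists_cong_chart` (one chart `t`, `tE := algebraMap F E t`, `C := CInt R K t`).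
 `I := {d : C | ∃ y₁ ∈ CInt R K tE, CongA K ϖ tE y₁ (d * e)}` is an ideal of `C` (`CongA.add`, `CongA.mul_left`, `map_mem_CInt`).
 Claim `I = ⊤` (then take `d = 1`).  Otherwise `I ≤ n` maximal (`Ideal.exists_le_maximal`).
 (a) `unifC t ϖ ∈ I` (`y₁ = 0`, `e` is `InO`: `y` is `InO` by `InO_of_pow`, `u` is `InO` by `inO_iff'`, `1/p ∈ R`).  So `n` is a closed point.
 (b) `exists_mem_local` gives `d ∈ I`, `d ∉ n`.  Contradiction.
SKETCH of `exists_mem_local`.  `LocData` gives `h`, and `b ∉ n` with `b * (u / h^p) ∈ C`.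
 `b / h ∈ V` for BOTH `V = Vi, V0`: `(b/h)^p = b^(p-1) * (b u / h^p) * u⁻¹ ∈ V` (`u` is a unit of `V`), valuation rings are integrally closed
 (`S18.mem_of_pow_mem`).
 `d₂ := 1` if both branches are centred at `n`; if `V0` is not centred: `d₂ ∈ C`, `d₂ ∈ V0.nonunits`, `d₂ ∉ n`; same for `Vi`; at least one is centred
 (`Branches.centered_or`).   `d := d₂ * b^p ∉ n`.
 `y₁ := d₂ * (1/p) * ∑_{i<p} b^(p-i) * (b y / h)^i ∈ CInt R K tE`  (`(b y / h)^p = b^(p-1) * (b u / h^p)`, `mem_CInt_of_pow`).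
 `d * e - y₁ = ∑_i c_i y^i`, `c_i := (1/p) d₂ (b^p - b^(p-i) (b/h)^i) = (1/p) d₂ b^p (1 - h^(-i)) ∈ F`.
 `c_i / ϖ ∈ Vi ∩ V0`: at a centred `V`: `h ≡ 1` so `1 - h^(-i) ∈ m_V = ϖ V` (`Branches.div_mem_*`), `d₂, b ∈ C ⊆ V`; at a non-centred `V`: `d₂ ∈ ϖ V` and
 `b^p - b^(p-i) (b/h)^i ∈ V`.   So `c_i/ϖ` is `InO` (`inO_iff'`), `η := ∑ (c_i/ϖ) y^i` is `InO` in `E` (`map_InO`).
SKETCH of `glue_prime`: `S18.glue` for `E`, `xE := algebraMap F E x`, with `exists_cong_chart` for `t = x` and `t = x⁻¹` (`map_inv₀`, `CongA_inv_iff`).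
 `e^2 ≡ e`: `(y - 1) * (p e) = u - 1 = ϖ μ`, `μ` `InO`; so `y^i * (p e) = p e + ϖ μ (1 + ⋯ + y^(i-1))`, sum over `i`.
-/

noncomputable section

namespace Fermat.Agent.S34

open Polynomial IntermediateField Fermat.Agent.S18

variable {R K F E : Type} [CommRing R] [IsDomain R] [IsDiscreteValuationRing R] [Field K] [CharZero K]
  [Algebra R K] [IsFractionRing R K] [Field F] [Algebra K F] [Field E] [Algebra K E] [Algebra F E]
  [IsScalarTower K F E]
  {ϖ : R} {x : F} {Vi V0 : ValuationSubring F}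

/-- the "idempotent" attached to a `p`-th root `y`. -/
def idem (p : ℕ) (y : E) : E := (∑ i ∈ Finset.range p, y ^ i) / (p : E)

theorem glueLoc_unit {V : ValuationSubring F} {u : F} (hu : u - 1 ∈ V.nonunits) :
    u ≠ 0 ∧ u ∈ V ∧ u⁻¹ ∈ V ∧ u⁻¹ - 1 ∈ V.nonunits := by
  have h1 : u ∈ V := by
    have := add_mem (mem_of_mem_nonunits V hu) (one_mem V)
    rwa [sub_add_cancel] at this
  have h2 : u ∉ V.nonunits := by
    intro h
    have := sub_mem_nonunits V h hu
    rw [sub_sub_cancel] at this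
    exact one_notMem_nonunits V this
  have h0 : u ≠ 0 := fun h => h2 (h ▸ zero_mem_nonunits V)
  have h3 := inv_mem_of_notMem_nonunits V h1 h2
  refine ⟨h0, h1, h3, ?_⟩
  have e : u⁻¹ - 1 = u⁻¹ * (-(u - 1)) := by field_simp; ring
  rw [e]
  exact mul_mem_nonunits V h3 (neg_mem_nonunits V hu)

theorem glueLoc_pow_sub_one {V : ValuationSubring F} {a : F} (ha : a - 1 ∈ V.nonunits) (i : ℕ) :
    a ^ i - 1 ∈ V.nonunits := by
  have haV := (glueLoc_unit ha).2.1
  induction i with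
  | zero => rw [pow_zero, sub_self]; exact zero_mem_nonunits V
  | succ i ih =>
    have e : a ^ (i + 1) - 1 = a ^ i * (a - 1) + (a ^ i - 1) := by ring
    rw [e]
    exact add_mem_nonunits V (mul_mem_nonunits V (pow_mem haV i) ha) ih

theorem glueLoc_coeff_mem {V : ValuationSubring F} {b h d₂ c : F} {p i : ℕ} (hi : i ≤ p)
    (hb : b ∈ V) (hbh : b / h ∈ V) (hd₂ : d₂ ∈ V) (hc : c ∈ V)
    (hcase : h - 1 ∈ V.nonunits ∨ d₂ ∈ V.nonunits) :
    c * d₂ * (b ^ p - b ^ (p - i) * (b / h) ^ i) ∈ V.nonunits := by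
  rcases hcase with h1 | h1
  · obtain ⟨h0, -, -, h2⟩ := glueLoc_unit h1
    have e : b ^ p - b ^ (p - i) * (b / h) ^ i = b ^ p * (-((h⁻¹) ^ i - 1)) := by
      obtain ⟨j, rfl⟩ := Nat.exists_eq_add_of_le hi
      rw [Nat.add_sub_cancel_left, div_eq_mul_inv, mul_pow, pow_add]
      ring
    rw [e]
    exact mul_mem_nonunits V (mul_mem hc hd₂)
      (mul_mem_nonunits V (pow_mem hb p) (neg_mem_nonunits V (glueLoc_pow_sub_one h2 i)))
  · exact mul_mem_nonunits' V (mul_mem_nonunits V hc h1)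
      (sub_mem (pow_mem hb p) (mul_mem (pow_mem hb _) (pow_mem hbh i)))

/-- a function not vanishing at `n` and vanishing on the branch `V` if `V` does not pass through `n`. -/
theorem glueLoc_exists_sep (V : ValuationSubring F) {t : F} (n : Ideal (CInt R K t))
    (hn : n ≠ ⊤) : ∃ d : CInt R K t, d ∉ n ∧ (Centered V n ∨ (d : F) ∈ V.nonunits) := by
  by_cases hc : Centered V n
  · exact ⟨1, fun h => hn ((Ideal.eq_top_iff_one n).2 h), Or.inl hc⟩
  · unfold Centered at hc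
    push Not at hc
    obtain ⟨c, hc1, hc2⟩ := hc
    exact ⟨c, hc2, Or.inr hc1⟩

theorem exists_mem_local (hϖ : Irreducible ϖ) (hB : Branches (K := K) ϖ x Vi V0) {p : ℕ} (hp : p.Prime)
    (hpR : IsUnit (p : R)) {u : F} (hui : u - 1 ∈ Vi.nonunits) (hu0 : u - 1 ∈ V0.nonunits)
    {y : E} (hy : y ^ p = algebraMap F E u) {t : F} (ht : t = x ∨ t = x⁻¹)
    {n : Ideal (CInt R K t)} (hn : IsClosedPt ϖ n) (hloc : LocData Vi V0 n p u) :
    ∃ d : CInt R K t, d ∉ n ∧ ∃ y₁ ∈ CInt R K (algebraMap F E t),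
      CongA K ϖ (algebraMap F E t) y₁ (algebraMap F E d * idem p y) := by
  have hnp : n.IsPrime := hn.max.isPrime
  obtain ⟨h, hh0, ⟨b, hbn, hbu⟩, hhi, hh0'⟩ := hloc
  obtain ⟨di, hdin, hdi⟩ := glueLoc_exists_sep Vi n hn.max.ne_top
  obtain ⟨d0, hd0n, hd0⟩ := glueLoc_exists_sep V0 n hn.max.ne_top
  obtain ⟨rp, hrp⟩ := hpR.exists_left_inv
  have hCV : ∀ z ∈ CInt R K t, z ∈ Vi ∧ z ∈ V0 := fun z hz => hB.mem_of_mem_CInt hϖ ht hz
  -- the constants
  set c : F := rE R K F rp with hc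
  have hcC : c ∈ CInt R K t := rE_mem_CInt t rp
  have hcp : c * (p : F) = 1 := by
    have := congrArg (rE R K F) hrp
    rwa [map_mul, map_natCast, map_one] at this
  set d₂ : F := (di : F) * (d0 : F) with hd₂
  have hd₂C : d₂ ∈ CInt R K t := mul_mem di.2 d0.2
  -- `b / h` lies in both valuation rings
  have hbh : ∀ V : ValuationSubring F, (∀ z ∈ CInt R K t, z ∈ V) → u - 1 ∈ V.nonunits →
      (b : F) / h ∈ V := by
    intro V hV huV
    obtain ⟨hu0', -, hu2, -⟩ := glueLoc_unit huV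
    refine mem_of_pow_mem V hp.ne_zero ?_
    have e : ((b : F) / h) ^ p = (b : F) ^ (p - 1) * ((b : F) * (u / h ^ p)) * u⁻¹ := by
      obtain ⟨p', rfl⟩ : ∃ p', p = p' + 1 := ⟨p - 1, (Nat.succ_pred_eq_of_pos hp.pos).symm⟩
      rw [Nat.add_sub_cancel, div_pow]
      field_simp
      ring
    rw [e]
    exact mul_mem (mul_mem (pow_mem (hV _ b.2) _) (hV _ hbu)) hu2
  have hcase_i : h - 1 ∈ Vi.nonunits ∨ d₂ ∈ Vi.nonunits :=
    hdi.imp hhi fun h' => mul_mem_nonunits' Vi h' (hCV _ d0.2).1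
  have hcase_0 : h - 1 ∈ V0.nonunits ∨ d₂ ∈ V0.nonunits :=
    hd0.imp hh0' fun h' => mul_mem_nonunits V0 (hCV _ di.2).2 h'
  -- the coefficients
  set cf : ℕ → F := fun i => c * d₂ * ((b : F) ^ p - (b : F) ^ (p - i) * ((b : F) / h) ^ i) with hcf
  have hcfO : ∀ i ∈ Finset.range p, InO K ϖ t ((rE R K F ϖ)⁻¹ * cf i) := by
    intro i hi
    have hi' : i ≤ p := (Finset.mem_range.1 hi).le
    rw [hB.inO_iff' hϖ ht]
    exact ⟨hB.div_mem_i (glueLoc_coeff_mem hi' (hCV _ b.2).1 (hbh Vi (fun z hz => (hCV z hz).1) hui)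
        (hCV _ hd₂C).1 (hCV _ hcC).1 hcase_i),
      hB.div_mem_0 (glueLoc_coeff_mem hi' (hCV _ b.2).2 (hbh V0 (fun z hz => (hCV z hz).2) hu0)
        (hCV _ hd₂C).2 (hCV _ hcC).2 hcase_0)⟩
  -- `y` is integral at the Gauss valuations
  have hyO : InO K ϖ (algebraMap F E t) y := by
    refine InO_of_pow hϖ hp.ne_zero ?_
    rw [hy]
    exact map_InO ((hB.inO_iff' hϖ ht u).2 ⟨(glueLoc_unit hui).2.1, (glueLoc_unit hu0).2.1⟩)
  -- `w = b y / h` is integral
  set a : F →+* E := algebraMap F E with ha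
  set w : E := a b * y / a h with hw
  have hah : a h ≠ 0 := by rw [Ne, map_eq_zero]; exact hh0
  have hwC : w ∈ CInt R K (a t) := by
    refine mem_CInt_of_pow hp.ne_zero ?_
    have e : w ^ p = a ((b : F) ^ (p - 1) * ((b : F) * (u / h ^ p))) := by
      obtain ⟨p', rfl⟩ : ∃ p', p = p' + 1 := ⟨p - 1, (Nat.succ_pred_eq_of_pos hp.pos).symm⟩
      rw [Nat.add_sub_cancel, hw, div_pow, mul_pow, hy, map_mul, map_mul, map_div₀, map_pow, map_pow]
      field_simp
      ring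
    rw [e]
    exact map_mem_CInt (mul_mem (pow_mem b.2 _) hbu)
  refine ⟨di * d0 * b ^ p, fun hmem => ?_, a c * a d₂ * ∑ i ∈ Finset.range p, a b ^ (p - i) * w ^ i,
    ?_, -∑ i ∈ Finset.range p, a ((rE R K F ϖ)⁻¹ * cf i) * y ^ i, ?_, ?_⟩
  · rcases hnp.mem_or_mem hmem with h1 | h1
    · exact (hnp.mem_or_mem h1).elim hdin hd0n
    · exact hbn (hnp.mem_of_pow_mem _ h1)
  · exact mul_mem (mul_mem (map_mem_CInt hcC) (map_mem_CInt hd₂C))
      (sum_mem fun i _ => mul_mem (pow_mem (map_mem_CInt b.2) _) (pow_mem hwC i))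
  · refine InO.neg ?_
    rw [← mem_ORing hϖ]
    exact sum_mem fun i hi => mul_mem ((mem_ORing hϖ).2 (map_InO (hcfO i hi)))
      ((mem_ORing hϖ).2 (hyO.pow hϖ i))
  · have hπ : rE R K F ϖ ≠ 0 := fun h0 => hϖ.ne_zero (rE_injective (h0.trans (map_zero _).symm))
    have hpE : (p : E) ≠ 0 := by
      have : a (c * (p : F)) = 1 := by rw [hcp, map_one]
      rw [map_mul, map_natCast] at this
      exact right_ne_zero_of_mul_eq_one this
    have hcE : a c = 1 / (p : E) := by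
      have : a (c * (p : F)) = 1 := by rw [hcp, map_one]
      rw [map_mul, map_natCast] at this
      field_simp
      exact this
    rw [mul_neg, Finset.mul_sum, idem, Finset.sum_div, Finset.mul_sum, Finset.mul_sum,
      ← Finset.sum_sub_distrib, ← Finset.sum_neg_distrib]
    refine Finset.sum_congr rfl fun i _ => ?_
    have key : rE R K E ϖ * (a ((rE R K F ϖ)⁻¹ * cf i) * y ^ i) = a (cf i) * y ^ i := by
      rw [← map_rE (F := F) (E := E) ϖ, ← mul_assoc, ← ha, ← map_mul, ← mul_assoc,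
        mul_inv_cancel₀ hπ, one_mul]
    rw [key, hcf]
    simp only [map_mul, map_sub, map_pow, map_div₀, Subring.coe_mul, Subring.coe_pow]
    rw [hcE, hw, hd₂]
    simp only [map_mul]
    field_simp
    ring

end Fermat.Agent.S34
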