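import Fermat.Agent.GES.Ops

set_option autoImplicit false

/-!
# S34 wiring: change of level on Kummer classes

`up : V_m(N) → V_m(N r)` (inclusion of function fields), `down : V_m(N r) → V_m(N)` (norm),
`down ∘ up = [F_{N r} : F_N]`, and `up` commutes with Galois.  Consequently a relation between
Galois operators which holds on `V_m(N r)` holds on `V_m(N)` up to the exponent `[F_{N r} : F_N]`.
-/

noncomputable section

namespace Fermat.Agent.S34

open AlgebraicCurve ModularCurve
open Fermat.Agent.S24 (Kb FN iotaK)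
open Fermat.Agent.GES

variable (N r : ℕ) [NeZero N] [NeZero r]

/-- the inclusion `F_N^× → F_{N r}^×`. -/
def upU : (FN N)ˣ →* (FN (N * r))ˣ :=
  Units.map ((heckeAlphaBar Kb N r : FN N →+* FN (N * r)) : FN N →* FN (N * r))

@[simp] theorem coe_upU (f : (FN N)ˣ) :
    ((upU N r f : (FN (N * r))ˣ) : FN (N * r)) = heckeAlphaBar Kb N r f := rfl

/-- the norm `F_{N r}^× → F_N^×`. -/
def downU : (FN (N * r))ˣ →* (FN N)ˣ := Units.map (normA N r)

@[simp] theorem coe_downU (f : (FN (N * r))ˣ) :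
    ((downU N r f : (FN N)ˣ) : FN N) = normA N r f := rfl

theorem upU_mem (m : ℕ) : ∀ f ∈ DN N m, upU N r f ∈ DN (N * r) m := by
  intro f hf w
  rw [coe_upU, Place.ord_restrictAlong (heckeAlphaBar Kb N r) (isIntegral_alpha N r) w (f : FN N)]
  exact Dvd.dvd.mul_left (hf _) _

theorem downU_mem (m : ℕ) [NeZero m] : ∀ f ∈ DN (N * r) m, downU N r f ∈ DN N m := by
  intro f hf v
  let _ := algA N r
  have := isScalarTower_along (heckeAlphaBar Kb N r)
  have := finiteDimensional_algA N r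
  exact dvd_ord_norm (K := Kb) (F := FN N) (E := FN (N * r)) m (NeZero.ne m)
    (f : FN (N * r)) f.ne_zero hf v

/-- `[f] ↦ [f]`, `V_m(N) → V_m(N r)`. -/
def up (m : ℕ) : VN N m →+ VN (N * r) m := Vm.map (upU N r) (upU_mem N r m) dvd_rfl

/-- `[f] ↦ [Norm f]`, `V_m(N r) → V_m(N)`. -/
def down (m : ℕ) [NeZero m] : VN (N * r) m →+ VN N m :=
  Vm.map (downU N r) (downU_mem N r m) dvd_rfl

/-- the degree `[F_{N r} : F_N]`. -/
def deg : ℕ := letI := algA N r; Module.finrank (FN N) (FN (N * r))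

theorem deg_pos : 0 < deg N r := by
  let _ := algA N r
  have := finiteDimensional_algA N r
  exact Module.finrank_pos

theorem down_up (m : ℕ) [NeZero m] (x : VN N m) : down N r m (up N r m x) = deg N r • x := by
  obtain ⟨f, rfl⟩ := Vm.mk_surjective x
  rw [up, down, Vm.map_mk, Vm.map_mk, ← Vm.mk_pow]
  refine congrArg Vm.mk (Subtype.ext (Units.ext ?_))
  let _ := algA N r
  exact Algebra.norm_algebraMap ((f : (FN N)ˣ) : FN N)

theorem alpha_galF (σ : GQ) (f : FN N) :
    heckeAlphaBar Kb N r (galF N σ f) = galF (N * r) σ (heckeAlphaBar Kb N r f) := by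
  apply Subtype.ext
  rw [coe_heckeAlphaBar, coe_galF, coe_galF, coe_heckeAlphaBar]

theorem up_rhoV (m : ℕ) (σ : GQ) (x : VN N m) :
    up N r m (rhoV N m σ x) = rhoV (N * r) m σ (up N r m x) := by
  obtain ⟨f, rfl⟩ := Vm.mk_surjective x
  rw [rhoV_mk, up, Vm.map_mk, Vm.map_mk, rhoV_mk]
  exact congrArg Vm.mk (Subtype.ext (Units.ext (alpha_galF N r σ _)))

/-- descent of the unipotency relation. -/
theorem unip_descend (m : ℕ) [NeZero m] (τ : GQ)
    (h : ∀ y : VN (N * r) m,
      rhoV (N * r) m τ (rhoV (N * r) m τ y) - 2 • rhoV (N * r) m τ y + y = 0) (x : VN N m) :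
    deg N r • (rhoV N m τ (rhoV N m τ x) - 2 • rhoV N m τ x + x) = 0 := by
  rw [← down_up N r m, map_add, map_sub, map_nsmul, up_rhoV, up_rhoV, h, map_zero]

end Fermat.Agent.S34
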