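import Fermat.Agent.S34.Defs
import Fermat.Agent.S18.AT.Val

set_option autoImplicit false

/-!
# S34 / Loc : basic API for `InLoc`, `InMax`, saturation, centres   (task T-Loc)

All proofs are short manipulations.  `C := CInt R K t`, `t = x` or `t = x⁻¹`.
Useful: `S18.InO.of_mem_CInt`, `S18.mem_CInt_of_mul_of_InO`, `S18.InO_inv_iff`, `S18.glue_transcendental_inv`.
-/

noncomputable section

namespace Fermat.Agent.S34

open Polynomial IntermediateField Fermat.Agent.S18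

variable {R K F : Type} [CommRing R] [IsDomain R] [IsDiscreteValuationRing R] [Field K] [CharZero K]
  [Algebra R K] [IsFractionRing R K] [Field F] [Algebra K F]
  {ϖ : R} {x : F} {Vi V0 : ValuationSubring F}

/-! ### the local ring -/

theorem loc_one_notMem {t : F} (n : Ideal (CInt R K t)) [hn : n.IsPrime] :
    (1 : CInt R K t) ∉ n := (Ideal.ne_top_iff_one n).mp hn.ne_top

theorem loc_mul_notMem {t : F} {n : Ideal (CInt R K t)} [hn : n.IsPrime] {d e : CInt R K t}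
    (hd : d ∉ n) (he : e ∉ n) : d * e ∉ n := fun h => (hn.mem_or_mem h).elim hd he

theorem InLoc.of_mem {t : F} (n : Ideal (CInt R K t)) [n.IsPrime] {z : F} (hz : z ∈ CInt R K t) :
    InLoc n z :=
  ⟨1, loc_one_notMem n, by simpa using hz⟩

theorem InLoc.add {t : F} {n : Ideal (CInt R K t)} [n.IsPrime] {y z : F} (hy : InLoc n y)
    (hz : InLoc n z) : InLoc n (y + z) := by
  obtain ⟨d, hd, h1⟩ := hy
  obtain ⟨e, he, h2⟩ := hz
  refine ⟨d * e, loc_mul_notMem hd he, ?_⟩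
  have : ((d * e : CInt R K t) : F) * (y + z) = (e : F) * ((d : F) * y) + (d : F) * ((e : F) * z) := by
    rw [Subring.coe_mul]; ring
  rw [this]
  exact add_mem (mul_mem e.2 h1) (mul_mem d.2 h2)

theorem InLoc.mul {t : F} {n : Ideal (CInt R K t)} [n.IsPrime] {y z : F} (hy : InLoc n y)
    (hz : InLoc n z) : InLoc n (y * z) := by
  obtain ⟨d, hd, h1⟩ := hy
  obtain ⟨e, he, h2⟩ := hz
  refine ⟨d * e, loc_mul_notMem hd he, ?_⟩
  have : ((d * e : CInt R K t) : F) * (y * z) = ((d : F) * y) * ((e : F) * z) := by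
    rw [Subring.coe_mul]; ring
  rw [this]
  exact mul_mem h1 h2

theorem InLoc.neg {t : F} {n : Ideal (CInt R K t)} {z : F} (hz : InLoc n z) : InLoc n (-z) := by
  obtain ⟨d, hd, h1⟩ := hz
  refine ⟨d, hd, ?_⟩
  rw [mul_neg]
  exact neg_mem h1

theorem InLoc.sub {t : F} {n : Ideal (CInt R K t)} [n.IsPrime] {y z : F} (hy : InLoc n y)
    (hz : InLoc n z) : InLoc n (y - z) := by
  rw [sub_eq_add_neg]
  exact hy.add hz.neg

theorem InLoc.pow {t : F} {n : Ideal (CInt R K t)} [n.IsPrime] {z : F} (hz : InLoc n z) (k : ℕ) :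
    InLoc n (z ^ k) := by
  induction k with
  | zero => rw [pow_zero]; exact InLoc.of_mem n (CInt R K t).one_mem
  | succ k ih => rw [pow_succ]; exact ih.mul hz

/-- the local ring at `n` as a subring of `F`. -/
def Oloc {t : F} (n : Ideal (CInt R K t)) [n.IsPrime] : Subring F where
  carrier := {z | InLoc n z}
  mul_mem' := fun ha hb => InLoc.mul ha hb
  one_mem' := InLoc.of_mem n (CInt R K t).one_mem
  add_mem' := fun ha hb => InLoc.add ha hb
  zero_mem' := InLoc.of_mem n (CInt R K t).zero_mem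
  neg_mem' := fun ha => InLoc.neg ha

theorem mem_Oloc {t : F} {n : Ideal (CInt R K t)} [n.IsPrime] {z : F} : z ∈ Oloc n ↔ InLoc n z :=
  Iff.rfl

theorem InMax.inLoc {t : F} {n : Ideal (CInt R K t)} {z : F} (hz : InMax n z) : InLoc n z := by
  obtain ⟨d, hd, w, -, h⟩ := hz
  exact ⟨d, hd, h ▸ w.2⟩

theorem InMax.add {t : F} {n : Ideal (CInt R K t)} [n.IsPrime] {y z : F} (hy : InMax n y)
    (hz : InMax n z) : InMax n (y + z) := by
  obtain ⟨d, hd, w, hw, h1⟩ := hy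
  obtain ⟨e, he, w', hw', h2⟩ := hz
  refine ⟨d * e, loc_mul_notMem hd he, e * w + d * w',
    n.add_mem (n.mul_mem_left _ hw) (n.mul_mem_left _ hw'), ?_⟩
  rw [Subring.coe_mul, Subring.coe_add, Subring.coe_mul, Subring.coe_mul, ← h1, ← h2]
  ring

theorem InMax.mul_left {t : F} {n : Ideal (CInt R K t)} [n.IsPrime] {y z : F} (hy : InLoc n y)
    (hz : InMax n z) : InMax n (y * z) := by
  obtain ⟨d, hd, h1⟩ := hy
  obtain ⟨e, he, w', hw', h2⟩ := hz
  refine ⟨d * e, loc_mul_notMem hd he, ⟨_, h1⟩ * w', n.mul_mem_left _ hw', ?_⟩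
  rw [Subring.coe_mul, Subring.coe_mul, ← h2]
  ring

/-- an element of the local ring which is not in the maximal ideal is a unit. -/
theorem LocUnit.of_not_inMax {t : F} {n : Ideal (CInt R K t)} [n.IsPrime] {z : F} (hz : InLoc n z)
    (hz' : ¬ InMax n z) : LocUnit n z := by
  have hz0 : z ≠ 0 := by
    rintro rfl
    exact hz' ⟨1, loc_one_notMem n, 0, n.zero_mem, by simp⟩
  obtain ⟨d, hd, h1⟩ := hz
  refine ⟨hz0, ⟨d, hd, h1⟩, ⟨_, h1⟩, fun h => hz' ⟨d, hd, ⟨_, h1⟩, h, rfl⟩, ?_⟩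
  show (d : F) * z * z⁻¹ ∈ CInt R K t
  rw [mul_assoc, mul_inv_cancel₀ hz0, mul_one]
  exact d.2

theorem not_inMax_one {t : F} {n : Ideal (CInt R K t)} [n.IsPrime] : ¬ InMax n (1 : F) := by
  rintro ⟨d, hd, w, hw, h⟩
  apply hd
  have : d = w := Subtype.ext (by rw [← h, mul_one])
  rw [this]
  exact hw

/-- `1 + (element of the maximal ideal)` is a unit. -/
theorem LocUnit.one_add {t : F} {n : Ideal (CInt R K t)} [n.IsPrime] {z : F} (hz : InMax n z) :
    LocUnit n (1 + z) := by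
  refine LocUnit.of_not_inMax ((InLoc.of_mem n (CInt R K t).one_mem).add hz.inLoc) fun h => ?_
  have h1 : InMax n (-1 * z) :=
    InMax.mul_left (InLoc.of_mem n (CInt R K t).one_mem).neg hz
  have h2 := h.add h1
  have e : 1 + z + -1 * z = 1 := by ring
  rw [e] at h2
  exact not_inMax_one h2

theorem loc_mem_CInt_of_pow {t z : F} {k : ℕ} (hk : k ≠ 0) (hz : z ^ k ∈ CInt R K t) :
    z ∈ CInt R K t := by
  let _ := (evR R K t).toAlgebra
  have h : IsIntegral R[X] (z ^ k) := hz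
  exact IsIntegral.of_pow (Nat.pos_of_ne_zero hk) h

/-- the local ring is integrally closed (only roots are needed). -/
theorem InLoc.of_pow {t : F} {n : Ideal (CInt R K t)} [n.IsPrime] {z : F} {k : ℕ} (hk : k ≠ 0)
    (hz : InLoc n (z ^ k)) : InLoc n z := by
  obtain ⟨d, hd, h1⟩ := hz
  refine ⟨d, hd, loc_mem_CInt_of_pow hk ?_⟩
  obtain ⟨j, rfl⟩ := Nat.exists_eq_succ_of_ne_zero hk
  have e : ((d : F) * z) ^ (j + 1) = (d : F) ^ j * ((d : F) * z ^ (j + 1)) := by ring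
  rw [Nat.succ_eq_add_one, e]
  exact mul_mem (pow_mem d.2 j) h1

/-! ### branches -/

theorem loc_x_ne_zero (hB : Branches (K := K) ϖ x Vi V0) : x ≠ 0 := by
  rintro rfl
  exact hB.trans (isAlgebraic_zero)

theorem Branches.inO_iff' (hϖ : Irreducible ϖ) (hB : Branches (K := K) ϖ x Vi V0) {t : F}
    (ht : t = x ∨ t = x⁻¹) (y : F) : InO K ϖ t y ↔ y ∈ Vi ∧ y ∈ V0 := by
  rcases ht with rfl | rfl
  · exact hB.inO_iff y
  · rw [InO_inv_iff hϖ (loc_x_ne_zero hB)]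
    exact hB.inO_iff y

theorem Branches.trans' (hB : Branches (K := K) ϖ x Vi V0) {t : F} (ht : t = x ∨ t = x⁻¹) :
    Transcendental K t := by
  rcases ht with rfl | rfl
  · exact hB.trans
  · exact glue_transcendental_inv hB.trans

theorem Branches.mem_of_mem_CInt (hϖ : Irreducible ϖ) (hB : Branches (K := K) ϖ x Vi V0) {t : F}
    (ht : t = x ∨ t = x⁻¹) {y : F} (hy : y ∈ CInt R K t) : y ∈ Vi ∧ y ∈ V0 :=
  (hB.inO_iff' hϖ ht y).1 (InO.of_mem_CInt hϖ hy)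

theorem loc_div_mem (V : ValuationSubring F) {a : F} (ha : a ∈ V.nonunits)
    (hunif : ∀ z : F, z ≠ 0 → ∃ k : ℤ, a ^ k * z ∈ V ∧ (a ^ k * z)⁻¹ ∈ V) {z : F}
    (hz : z ∈ V.nonunits) : a⁻¹ * z ∈ V := by
  by_cases hz0 : z = 0
  · rw [hz0, mul_zero]; exact V.zero_mem
  have haV : a ∈ V := mem_of_mem_nonunits V ha
  by_cases ha0 : a = 0
  · rw [ha0, inv_zero, zero_mul]; exact V.zero_mem
  obtain ⟨k, h1, h2⟩ := hunif z hz0
  rcases lt_or_ge k 0 with hk | hk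
  · obtain ⟨j, hj⟩ : ∃ j : ℕ, k = -((j : ℤ) + 1) := ⟨(-k - 1).toNat, by omega⟩
    have e : a⁻¹ * z = a ^ j * (a ^ k * z) := by
      rw [hj, zpow_neg, zpow_add₀ ha0, zpow_natCast, zpow_one]
      field_simp
    rw [e]
    exact mul_mem (pow_mem haV j) h1
  · exfalso
    obtain ⟨j, rfl⟩ := Int.eq_ofNat_of_zero_le hk
    rw [zpow_natCast] at h1 h2
    have h3 : a ^ j * z ∈ V.nonunits := mul_mem_nonunits V (pow_mem haV j) hz
    have h4 := mul_mem_nonunits' V h3 h2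
    rw [mul_inv_cancel₀ (mul_ne_zero (pow_ne_zero _ ha0) hz0)] at h4
    exact one_notMem_nonunits V h4

/-- nonunits are multiples of `ϖ`. -/
theorem Branches.div_mem_i (hB : Branches (K := K) ϖ x Vi V0) {z : F} (hz : z ∈ Vi.nonunits) :
    (rE R K F ϖ)⁻¹ * z ∈ Vi :=
  loc_div_mem Vi hB.mem_i hB.unif_i hz

theorem Branches.div_mem_0 (hB : Branches (K := K) ϖ x Vi V0) {z : F} (hz : z ∈ V0.nonunits) :
    (rE R K F ϖ)⁻¹ * z ∈ V0 :=
  loc_div_mem V0 hB.mem_0 hB.unif_0 hz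

/-- **saturation**: `ϖ * y ∈ C`, `y ∈ Vi ∩ V0` ⟹ `y ∈ C`. -/
theorem Branches.sat (hϖ : Irreducible ϖ) (hB : Branches (K := K) ϖ x Vi V0) {t : F}
    (ht : t = x ∨ t = x⁻¹) {y : F} (h : rE R K F ϖ * y ∈ CInt R K t) (hi : y ∈ Vi) (h0 : y ∈ V0) :
    y ∈ CInt R K t :=
  mem_CInt_of_mul_of_InO (hB.trans' ht) hϖ h ((hB.inO_iff' hϖ ht y).2 ⟨hi, h0⟩)

/-- `p_i ∩ p_0 = ϖ C`. -/
theorem Branches.exists_eq_mul (hϖ : Irreducible ϖ) (hB : Branches (K := K) ϖ x Vi V0) {t : F}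
    (ht : t = x ∨ t = x⁻¹) {y : F} (h : y ∈ CInt R K t) (hi : y ∈ Vi.nonunits)
    (h0 : y ∈ V0.nonunits) : ∃ y' ∈ CInt R K t, y = rE R K F ϖ * y' := by
  have hϖ0 : rE R K F ϖ ≠ 0 := fun h =>
    hϖ.ne_zero (rE_injective (K := K) (E := F) (by rw [h, map_zero]))
  have e : y = rE R K F ϖ * ((rE R K F ϖ)⁻¹ * y) := by
    rw [← mul_assoc, mul_inv_cancel₀ hϖ0, one_mul]
  refine ⟨(rE R K F ϖ)⁻¹ * y, hB.sat hϖ ht ?_ (hB.div_mem_i hi) (hB.div_mem_0 h0), e⟩
  rw [← e]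
  exact h

/-- saturation in the local ring. -/
theorem Branches.sat_loc (hϖ : Irreducible ϖ) (hB : Branches (K := K) ϖ x Vi V0) {t : F}
    (ht : t = x ∨ t = x⁻¹) {n : Ideal (CInt R K t)} [n.IsPrime] {y : F} (k : ℕ)
    (h : InLoc n (rE R K F ϖ ^ k * y)) (hi : y ∈ Vi) (h0 : y ∈ V0) : InLoc n y := by
  induction k with
  | zero => simpa using h
  | succ k ih =>
    apply ih
    obtain ⟨d, hd, h1⟩ := h
    refine ⟨d, hd, ?_⟩
    obtain ⟨hdi, hd0⟩ := hB.mem_of_mem_CInt hϖ ht d.2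
    have hϖi : rE R K F ϖ ∈ Vi := mem_of_mem_nonunits Vi hB.mem_i
    have hϖ0 : rE R K F ϖ ∈ V0 := mem_of_mem_nonunits V0 hB.mem_0
    refine hB.sat hϖ ht ?_ (mul_mem hdi (mul_mem (pow_mem hϖi k) hi))
      (mul_mem hd0 (mul_mem (pow_mem hϖ0 k) h0))
    have e : rE R K F ϖ * ((d : F) * (rE R K F ϖ ^ k * y)) =
        (d : F) * (rE R K F ϖ ^ (k + 1) * y) := by ring
    rw [e]
    exact h1

/-- a unit of `Oloc[1/ϖ]` which is a unit of both branches is a unit of `Oloc`. -/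
theorem Branches.locUnit_of_genUnit (hϖ : Irreducible ϖ) (hB : Branches (K := K) ϖ x Vi V0) {t : F}
    (ht : t = x ∨ t = x⁻¹) {n : Ideal (CInt R K t)} [n.IsPrime] {y : F} (h : GenUnit ϖ n y)
    (hi : y ∈ Vi) (hi' : y⁻¹ ∈ Vi) (h0 : y ∈ V0) (h0' : y⁻¹ ∈ V0) : LocUnit n y := by
  obtain ⟨hy0, k, h1, h2⟩ := h
  exact ⟨hy0, hB.sat_loc hϖ ht k h1 hi h0, hB.sat_loc hϖ ht k h2 hi' h0'⟩

/-- every closed point lies on one of the two branches. -/
theorem Branches.centered_or (hϖ : Irreducible ϖ) (hB : Branches (K := K) ϖ x Vi V0) {t : F}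
    (ht : t = x ∨ t = x⁻¹) {n : Ideal (CInt R K t)} (hn : IsClosedPt ϖ n) :
    Centered Vi n ∨ Centered V0 n := by
  by_contra hcon
  rw [not_or] at hcon
  obtain ⟨h1, h2⟩ := hcon
  unfold Centered at h1 h2
  push Not at h1 h2
  obtain ⟨c, hc, hcn⟩ := h1
  obtain ⟨c', hc', hcn'⟩ := h2
  have hp := hn.max.isPrime
  obtain ⟨y', hy', e⟩ := hB.exists_eq_mul hϖ ht (c * c').2
    (by rw [Subring.coe_mul]
        exact mul_mem_nonunits' Vi hc (hB.mem_of_mem_CInt hϖ ht c'.2).1)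
    (by rw [Subring.coe_mul]
        exact mul_mem_nonunits V0 (hB.mem_of_mem_CInt hϖ ht c.2).2 hc')
  have h3 : c * c' = unifC t ϖ * ⟨y', hy'⟩ := Subtype.ext e
  have h4 : c * c' ∈ n := by
    rw [h3]
    exact n.mul_mem_right _ hn.mem
  exact (hp.mem_or_mem h4).elim hcn hcn'

/-- the local ring is contained in the valuation rings centred at `n`. -/
theorem Centered.mem_of_inLoc {V : ValuationSubring F} {t : F} {n : Ideal (CInt R K t)}
    (hV : ∀ y ∈ CInt R K t, y ∈ V) (hc : Centered V n) {z : F} (hz : InLoc n z) : z ∈ V := by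
  obtain ⟨d, hd, h1⟩ := hz
  have hd' : (d : F) ∉ V.nonunits := fun h => hd (hc d h)
  have hd0 : (d : F) ≠ 0 := fun h => hd' (h ▸ zero_mem_nonunits V)
  have h2 := inv_mem_of_notMem_nonunits V (hV _ d.2) hd'
  have e : z = (d : F)⁻¹ * ((d : F) * z) := by
    rw [← mul_assoc, inv_mul_cancel₀ hd0, one_mul]
  rw [e]
  exact mul_mem h2 (hV _ h1)

end Fermat.Agent.S34
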