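import Fermat.Agent.S34.GlueE
import Mathlib.FieldTheory.KummerPolynomial

set_option autoImplicit false

/-!
# S34 / RootA : the prime step of T1   (task T-RootA; sketch of T-RootB here too)

`u ∈ F`, `u ≡ 1` on both branches, `LocData` with exponent `p` at all closed points, `u` has a `p`-th root in an extension `𝕃 ⊇ F` in which `K` is
algebraically closed.  Then `u = w^p` with `w ∈ F`, `w ≡ 1` on both branches.

SKETCH of `exists_root` (RootA).  Suppose `∀ b : F, b^p ≠ u`.  Then `X^p - C u` is irreducible (`X_pow_sub_C_irreducible_of_prime`).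
 `E := AdjoinRoot (X^p - C u)` (a field; `Algebra K E`, `IsScalarTower K F E` are instances), `yE := AdjoinRoot.root _`, `yE^p = u`.
 `AdjoinRoot.lift (algebraMap F 𝕃) y _ : E →+* 𝕃` is injective and `K`-linear, so `K` is algebraically closed in `E` (from `h𝕃`).
 `glue_prime`: `rE r - idem p yE = ϖ η`, `η` `InO`.   `σ : E →+* E` := `AdjoinRoot.lift (algebraMap F E) (ζ yE) _`  (`(ζ yE)^p = u`), fixes `F`.
 `∑_{k<p} ζ^(-k) σ^k (rE r - idem p yE) = - yE`  (`∑_k ζ^(-k) = 0`, `∑_k ζ^(k(i-1)) = p` if `i = 1`, `0` otherwise for `0 ≤ i < p`;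
 `IsPrimitiveRoot.geom_sum_eq_zero` / `IsPrimitiveRoot.pow_sub_one_eq`), so `yE = ϖ η'`, `η' := -∑ ζ^(-k) σ^k η` `InO` (`InO_map_end`, `ζ ∈ R`-integral: `ζ^p = 1`,
 `InO_of_pow`).  Hence `u = yE^p = ϖ^p η'^p`, so `u/ϖ` is `InO` in `E`, hence in `F` (`InO_of_map`), so `u/ϖ ∈ Vi`; but `u` is a unit of `Vi` and `ϖ` a nonunit.
SKETCH of `exists_root_one` (RootB).  `w^p = u`.  `∏_k (w - ζ^k) = w^p - 1 ∈ m_V` (`X_pow_sub_one_eq_prod`), so `w ≡ ζ^a` on `Vi`, `w ≡ ζ^b` on `V0`.  Replace `w` by `w ζ^(-a)`.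
 `glue_prime` with `E = F`: `idem p w ≡ r`.  On `Vi`: `idem p w ≡ 1`.  If `ζ^b ≠ 1`: on `V0`, `idem p w ≡ (1/p) ∑ ζ^(b i) = 0`.  So `r ≡ 1` and `r ≡ 0` mod `ϖ`
 (`rE r ∈ Vi.nonunits ↔ ϖ ∣ r ↔ rE r ∈ V0.nonunits`).  Contradiction.  (`ζ^b - 1` unit when `≠ 0` is not needed.)
-/

noncomputable section

namespace Fermat.Agent.S34

open Polynomial IntermediateField Fermat.Agent.S18

variable {R K F : Type} [CommRing R] [IsDomain R] [IsDiscreteValuationRing R] [Field K] [CharZero K]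
  [Algebra R K] [IsFractionRing R K] [Field F] [Algebra K F]
  {ϖ : R} {x : F} {Vi V0 : ValuationSubring F}

namespace RootA

/-- orthogonality of characters. -/
theorem sum_char {E : Type} [Field E] {ξ : E} {p : ℕ} (hp : p.Prime) (hξ : IsPrimitiveRoot ξ p)
    {i : ℕ} (hi : i < p) :
    ∑ k ∈ Finset.range p, (ξ⁻¹ ^ k * (ξ ^ k) ^ i) = if i = 1 then (p : E) else 0 := by
  have hξ0 : ξ ≠ 0 := hξ.ne_zero hp.ne_zero
  have h1 : ∀ k : ℕ, ξ⁻¹ ^ k * (ξ ^ k) ^ i = (ξ⁻¹ * ξ ^ i) ^ k := by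
    intro k
    rw [mul_pow, ← pow_mul, ← pow_mul, mul_comm k i]
  simp_rw [h1]
  split_ifs with h
  · subst h
    simp [inv_mul_cancel₀ hξ0]
  · have hμp : (ξ⁻¹ * ξ ^ i) ^ p = 1 := by
      rw [mul_pow, inv_pow, hξ.pow_eq_one, ← pow_mul, mul_comm i p, pow_mul, hξ.pow_eq_one]
      simp
    have hμ1 : (ξ⁻¹ * ξ ^ i) ≠ 1 := by
      intro h1
      apply h
      have : ξ ^ i = ξ ^ 1 := by
        rw [pow_one]
        calc ξ ^ i = ξ * (ξ⁻¹ * ξ ^ i) := by rw [← mul_assoc, mul_inv_cancel₀ hξ0, one_mul]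
          _ = ξ := by rw [h1, mul_one]
      exact hξ.pow_inj hi hp.one_lt this
    have := geom_sum_mul (ξ⁻¹ * ξ ^ i) p
    rw [hμp, sub_self] at this
    exact (mul_eq_zero.1 this).resolve_right (sub_ne_zero.2 hμ1)

theorem false_of_eq_mul {V : ValuationSubring F} {a c u : F} (ha : a ∈ V.nonunits)
    (hu : u - 1 ∈ V.nonunits) (hc : c ∈ V) (h : u = a * c) : False := by
  rw [ValuationSubring.mem_nonunits_iff] at ha hu
  rw [← ValuationSubring.valuation_le_one_iff] at hc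
  have h1 : V.valuation u < 1 := by
    rw [h, map_mul]
    exact mul_lt_one_of_lt_of_le ha hc
  have h2 : V.valuation 1 < 1 := by
    have : (1 : F) = u - (u - 1) := by ring
    rw [this]
    exact lt_of_le_of_lt (Valuation.map_sub _ _ _) (max_lt h1 hu)
  simp at h2

/-- the averaging operator applied to `idem p y`. -/
theorem avg_idem {E : Type} [Field E] [CharZero E] {ξ y : E} {p : ℕ} (hp : p.Prime)
    (hξ : IsPrimitiveRoot ξ p) (σ : ℕ → E →+* E) (hσy : ∀ k, σ k y = ξ ^ k * y) :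
    ∑ k ∈ Finset.range p, ξ⁻¹ ^ k * σ k (idem p y) = y := by
  have hp0 : (p : E) ≠ 0 := Nat.cast_ne_zero.2 hp.ne_zero
  have h1 : ∀ k, ξ⁻¹ ^ k * σ k (idem p y)
      = ∑ i ∈ Finset.range p, (ξ⁻¹ ^ k * (ξ ^ k) ^ i) * (y ^ i / p) := by
    intro k
    rw [idem, map_div₀, map_sum, map_natCast, Finset.sum_div, Finset.mul_sum]
    refine Finset.sum_congr rfl fun i _ => ?_
    rw [map_pow, hσy, mul_pow]
    ring
  simp_rw [h1]
  rw [Finset.sum_comm]
  simp_rw [← Finset.sum_mul]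
  rw [Finset.sum_congr rfl (fun i hi => by rw [sum_char hp hξ (Finset.mem_range.1 hi)])]
  simp only [ite_mul, zero_mul]
  rw [Finset.sum_ite_eq' (Finset.range p) 1]
  rw [if_pos (Finset.mem_range.2 hp.one_lt), pow_one]
  field_simp

theorem core {E : Type} [Field E] [Algebra K E] [Algebra F E] [IsScalarTower K F E]
    [FiniteDimensional F E] (hϖ : Irreducible ϖ) (hB : Branches (K := K) ϖ x Vi V0)
    (hE : ∀ z : E, IsAlgebraic K z → z ∈ (algebraMap K E).range)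
    {p : ℕ} (hp : p.Prime) (hpR : IsUnit (p : R)) {ζ : K} (hζ : IsPrimitiveRoot ζ p)
    {u : F} (hui : u - 1 ∈ Vi.nonunits) (hu0 : u - 1 ∈ V0.nonunits)
    {y : E} (hy : y ^ p = algebraMap F E u)
    (hfin : ∀ n : Ideal (CInt R K x), IsClosedPt ϖ n → LocData Vi V0 n p u)
    (hinf : ∀ n : Ideal (CInt R K x⁻¹), IsClosedPt ϖ n → LocData Vi V0 n p u)
    (σ : ℕ → E →+* E) (hσF : ∀ k a, σ k (algebraMap F E a) = algebraMap F E a)
    (hσy : ∀ k, σ k y = algebraMap K E ζ ^ k * y) : False := by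
  have : CharZero E := charZero_of_injective_algebraMap (algebraMap K E).injective
  obtain ⟨r, η, hη, hrη⟩ := glue_prime (E := E) hϖ hB hE hp hpR hui hu0 hy hfin hinf
  set ξ : E := algebraMap K E ζ with hξdef
  have hξ : IsPrimitiveRoot ξ p := hζ.map_of_injective (algebraMap K E).injective
  have hσR : ∀ k (s : R), σ k (rE R K E s) = rE R K E s := by
    intro k s
    rw [← map_rE (F := F) (E := E), hσF]
  have hσx : ∀ k, σ k (algebraMap F E x) = algebraMap F E x := fun k => hσF k x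
  -- `ξ⁻¹` is integral
  have hone : InO K ϖ (algebraMap F E x) (1 : E) := InO.of_mem_CInt hϖ (Subring.one_mem _)
  have hξO : InO K ϖ (algebraMap F E x) ξ⁻¹ := by
    refine InO_of_pow hϖ hp.ne_zero ?_
    rw [inv_pow, hξ.pow_eq_one, inv_one]
    exact hone
  -- apply the averaging operator
  have hT : ∑ k ∈ Finset.range p, ξ⁻¹ ^ k * σ k (rE R K E r - idem p y)
      = ∑ k ∈ Finset.range p, ξ⁻¹ ^ k * σ k (rE R K E ϖ * η) := by rw [hrη]
  have hL : ∑ k ∈ Finset.range p, ξ⁻¹ ^ k * σ k (rE R K E r - idem p y) = - y := by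
    simp_rw [map_sub, mul_sub, Finset.sum_sub_distrib, hσR]
    rw [avg_idem hp hξ σ hσy, ← Finset.sum_mul, hξ.inv.geom_sum_eq_zero hp.one_lt]
    ring
  have hRr : ∑ k ∈ Finset.range p, ξ⁻¹ ^ k * σ k (rE R K E ϖ * η)
      = rE R K E ϖ * ∑ k ∈ Finset.range p, ξ⁻¹ ^ k * σ k η := by
    rw [Finset.mul_sum]
    refine Finset.sum_congr rfl fun k _ => ?_
    rw [map_mul, hσR]
    ring
  have hTO : InO K ϖ (algebraMap F E x) (∑ k ∈ Finset.range p, ξ⁻¹ ^ k * σ k η) := by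
    rw [← mem_ORing hϖ]
    refine Subring.sum_mem _ fun k _ => ?_
    rw [mem_ORing hϖ]
    exact (hξO.pow hϖ k).mul hϖ (InO_map_end (σ k) (hσR k) (hσx k) hη)
  set η' := ∑ k ∈ Finset.range p, ξ⁻¹ ^ k * σ k η with hη'
  have hyη : y = rE R K E ϖ * (-η') := by
    rw [mul_neg, ← hRr, ← hT, hL, neg_neg]
  have hϖ0 : rE R K F ϖ ≠ 0 := by
    intro h
    exact hϖ.ne_zero (rE_injective (K := K) (E := F) (by rw [h, map_zero]))
  obtain ⟨q, rfl⟩ : ∃ q, p = q + 1 := ⟨p - 1, (Nat.succ_pred_eq_of_pos hp.pos).symm⟩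
  have hc : InO K ϖ (algebraMap F E x) (algebraMap F E ((rE R K F ϖ)⁻¹ * u)) := by
    have : algebraMap F E ((rE R K F ϖ)⁻¹ * u) = rE R K E ϖ ^ q * (-η') ^ (q + 1) := by
      have hϖE : rE R K E ϖ ≠ 0 := by
        rw [← map_rE (F := F) (E := E)]
        exact (_root_.map_ne_zero _).2 hϖ0
      rw [map_mul, map_inv₀, map_rE, ← hy]
      conv_lhs => rw [hyη]
      rw [mul_pow, pow_succ (rE R K E ϖ) q]
      field_simp
    rw [this]
    exact ((InO.of_mem_CInt hϖ (rE_mem_CInt _ ϖ)).pow hϖ q).mul hϖ ((hTO.neg).pow hϖ _)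
  have hc' := ((hB.inO_iff _).1 (InO_of_map hc)).1
  exact false_of_eq_mul hB.mem_i hui hc' (by rw [← mul_assoc, mul_inv_cancel₀ hϖ0, one_mul])

end RootA

theorem exists_root (hϖ : Irreducible ϖ) (hB : Branches (K := K) ϖ x Vi V0)
    {p : ℕ} (hp : p.Prime) (hpR : IsUnit (p : R)) {ζ : K} (hζ : IsPrimitiveRoot ζ p)
    {𝕃 : Type} [Field 𝕃] [Algebra K 𝕃] [Algebra F 𝕃] [IsScalarTower K F 𝕃]
    (h𝕃 : ∀ z : 𝕃, IsAlgebraic K z → z ∈ (algebraMap K 𝕃).range)
    {u : F} (hui : u - 1 ∈ Vi.nonunits) (hu0 : u - 1 ∈ V0.nonunits)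
    {y : 𝕃} (hy : y ^ p = algebraMap F 𝕃 u)
    (hfin : ∀ n : Ideal (CInt R K x), IsClosedPt ϖ n → LocData Vi V0 n p u)
    (hinf : ∀ n : Ideal (CInt R K x⁻¹), IsClosedPt ϖ n → LocData Vi V0 n p u) :
    ∃ w : F, w ^ p = u := by
  by_contra hno
  push Not at hno
  have hirr : Irreducible (X ^ p - C u : F[X]) := X_pow_sub_C_irreducible_of_prime hp hno
  have : Fact (Irreducible (X ^ p - C u : F[X])) := ⟨hirr⟩
  have hne : (X ^ p - C u : F[X]) ≠ 0 := hirr.ne_zero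
  have : FiniteDimensional F (AdjoinRoot (X ^ p - C u : F[X])) :=
    (AdjoinRoot.powerBasis hne).finite
  have hroot : (AdjoinRoot.root (X ^ p - C u : F[X])) ^ p
      = algebraMap F (AdjoinRoot (X ^ p - C u : F[X])) u := by
    have := AdjoinRoot.eval₂_root (X ^ p - C u : F[X])
    rw [eval₂_sub, eval₂_pow, eval₂_X, eval₂_C, sub_eq_zero] at this
    rw [this, AdjoinRoot.algebraMap_eq]
  -- `K` is algebraically closed in `E`
  have hE : ∀ z : AdjoinRoot (X ^ p - C u : F[X]), IsAlgebraic K z →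
      z ∈ (algebraMap K (AdjoinRoot (X ^ p - C u : F[X]))).range := by
    intro z hz
    let φ : AdjoinRoot (X ^ p - C u : F[X]) →ₐ[K] 𝕃 :=
      AdjoinRoot.liftAlgHom (X ^ p - C u : F[X]) (IsScalarTower.toAlgHom K F 𝕃) y (by
        rw [eval₂_sub, eval₂_pow, eval₂_X, eval₂_C, hy]
        simp)
    obtain ⟨c, hc⟩ := h𝕃 (φ z) (hz.algHom φ)
    refine ⟨c, φ.toRingHom.injective ?_⟩
    simp only [AlgHom.toRingHom_eq_coe, RingHom.coe_coe, AlgHom.commutes]
    exact hc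
  refine RootA.core (E := AdjoinRoot (X ^ p - C u : F[X])) hϖ hB hE hp hpR hζ hui hu0 hroot hfin hinf
    (fun k => AdjoinRoot.lift (algebraMap F (AdjoinRoot (X ^ p - C u : F[X])))
      (algebraMap K (AdjoinRoot (X ^ p - C u : F[X])) ζ ^ k * AdjoinRoot.root _) (by
        rw [eval₂_sub, eval₂_pow, eval₂_X, eval₂_C, mul_pow, hroot, ← pow_mul, mul_comm k p, pow_mul,
          ← map_pow, hζ.pow_eq_one, map_one, one_pow, one_mul, sub_self])) ?_ ?_
  · intro k a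
    exact AdjoinRoot.lift_of _
  · intro k
    rw [AdjoinRoot.lift_root]

end Fermat.Agent.S34
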