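import Fermat.Agent.S34.Loc

set_option autoImplicit false

/-!
# S34 / Tower : `CInt`, `InO`, `CongA` in a finite extension `E / F`   (task T-Tower)

`E / F` a field extension (possibly `E = F`), `tE := algebraMap F E t`.
All statements are transport of integrality along `algebraMap F E` (an injective ring hom commuting with `evR`).
`finiteDimensional_tower`: `K⟮x⟯ → F → E`; map `K⟮x⟯ ≃ K⟮algebraMap x⟯` (`IntermediateField.map`/`adjoin_map`); compare
`S18/AT/Root.lean` (`Root.fin`, `Root.map_le`) for the same argument.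
-/

noncomputable section

namespace Fermat.Agent.S34

open Polynomial IntermediateField Fermat.Agent.S18

variable {R K F E : Type} [CommRing R] [IsDomain R] [IsDiscreteValuationRing R] [Field K] [CharZero K]
  [Algebra R K] [IsFractionRing R K] [Field F] [Algebra K F] [Field E] [Algebra K E] [Algebra F E]
  [IsScalarTower K F E]

theorem map_rE (r : R) : algebraMap F E (rE R K F r) = rE R K E r := by
  show algebraMap F E (algebraMap K F (algebraMap R K r)) = algebraMap K E (algebraMap R K r)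
  exact (IsScalarTower.algebraMap_apply K F E _).symm

theorem tower_comp_rE : (algebraMap F E).comp (rE R K F) = rE R K E :=
  RingHom.ext fun r => map_rE r

theorem map_evR (t : F) (P : R[X]) : algebraMap F E (evR R K t P) = evR R K (algebraMap F E t) P := by
  show algebraMap F E (eval₂ (rE R K F) t P) = eval₂ (rE R K E) (algebraMap F E t) P
  rw [Polynomial.hom_eval₂, tower_comp_rE]

theorem tower_comp_evR (t : F) :
    (algebraMap F E).comp (evR R K t) = evR R K (algebraMap F E t) :=
  RingHom.ext fun P => map_evR t P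

theorem map_mem_CInt {t z : F} (hz : z ∈ CInt R K t) :
    algebraMap F E z ∈ CInt R K (algebraMap F E t) := by
  obtain ⟨p, hp, h⟩ := hz
  refine ⟨p, hp, ?_⟩
  rw [← tower_comp_evR, ← Polynomial.hom_eval₂, h, map_zero]

theorem mem_CInt_of_map {t z : F} (hz : algebraMap F E z ∈ CInt R K (algebraMap F E t)) :
    z ∈ CInt R K t := by
  obtain ⟨p, hp, h⟩ := hz
  refine ⟨p, hp, ?_⟩
  rw [← tower_comp_evR, ← Polynomial.hom_eval₂] at h
  exact (map_eq_zero_iff _ (algebraMap F E).injective).1 h

theorem map_InO {ϖ : R} {t z : F} (hz : InO K ϖ t z) : InO K ϖ (algebraMap F E t) (algebraMap F E z) := by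
  obtain ⟨s, hs, h⟩ := hz
  refine ⟨s, hs, ?_⟩
  rw [← map_evR, ← map_mul]
  exact map_mem_CInt h

theorem InO_of_map {ϖ : R} {t z : F} (hz : InO K ϖ (algebraMap F E t) (algebraMap F E z)) :
    InO K ϖ t z := by
  obtain ⟨s, hs, h⟩ := hz
  refine ⟨s, hs, ?_⟩
  rw [← map_evR, ← map_mul] at h
  exact mem_CInt_of_map h

/-- roots of integral elements are integral. -/
theorem mem_CInt_of_pow {t z : E} {k : ℕ} (hk : k ≠ 0) (hz : z ^ k ∈ CInt R K t) : z ∈ CInt R K t := by
  letI : Algebra R[X] E := (evR R K t).toAlgebra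
  have h : IsIntegral R[X] (z ^ k) := hz
  exact IsIntegral.of_pow (Nat.pos_of_ne_zero hk) h

theorem InO_of_pow {ϖ : R} (hϖ : Irreducible ϖ) {t z : E} {k : ℕ} (hk : k ≠ 0) (hz : InO K ϖ t (z ^ k)) :
    InO K ϖ t z := by
  obtain ⟨s, hs, h⟩ := hz
  refine ⟨s, hs, mem_CInt_of_pow hk ?_⟩
  obtain ⟨j, rfl⟩ : ∃ j, k = j + 1 := Nat.exists_eq_succ_of_ne_zero hk
  have h1 : (evR R K t s * z) ^ (j + 1) = (evR R K t s) ^ j * (evR R K t s * z ^ (j + 1)) := by
    ring
  rw [h1]
  refine (CInt R K t).mul_mem ((CInt R K t).pow_mem ?_ j) h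
  exact (evR R K t).isIntegralElem_map

theorem tower_end_comp_evR {t : E} (σ : E →+* E) (hσR : ∀ r : R, σ (rE R K E r) = rE R K E r)
    (hσt : σ t = t) : σ.comp (evR R K t) = evR R K t := by
  refine RingHom.ext fun P => ?_
  show σ (eval₂ (rE R K E) t P) = eval₂ (rE R K E) t P
  rw [Polynomial.hom_eval₂, hσt]
  congr 1
  exact RingHom.ext hσR

/-- a ring endomorphism of `E` fixing `R` and `t` preserves `CInt` and `InO`. -/
theorem CInt_map_end {t : E} (σ : E →+* E) (hσR : ∀ r : R, σ (rE R K E r) = rE R K E r) (hσt : σ t = t)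
    {z : E} (hz : z ∈ CInt R K t) : σ z ∈ CInt R K t := by
  obtain ⟨p, hp, h⟩ := hz
  refine ⟨p, hp, ?_⟩
  rw [← tower_end_comp_evR σ hσR hσt, ← Polynomial.hom_eval₂, h, map_zero]

theorem InO_map_end {ϖ : R} {t : E} (σ : E →+* E) (hσR : ∀ r : R, σ (rE R K E r) = rE R K E r)
    (hσt : σ t = t) {z : E} (hz : InO K ϖ t z) : InO K ϖ t (σ z) := by
  obtain ⟨s, hs, h⟩ := hz
  refine ⟨s, hs, ?_⟩
  have h1 : evR R K t s * σ z = σ (evR R K t s * z) := by
    rw [map_mul]
    congr 1
    exact (RingHom.congr_fun (tower_end_comp_evR σ hσR hσt) s).symm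
  rw [h1]
  exact CInt_map_end σ hσR hσt h

theorem transcendental_map {x : F} (hx : Transcendental K x) : Transcendental K (algebraMap F E x) := by
  intro halg
  exact hx ((isAlgebraic_algebraMap_iff (algebraMap F E).injective).mp halg)

theorem tower_map_le {x : F} (z : F) (hz : z ∈ K⟮x⟯) : algebraMap F E z ∈ K⟮algebraMap F E x⟯ := by
  have h1 : (K⟮x⟯).map (IsScalarTower.toAlgHom K F E) ≤ K⟮algebraMap F E x⟯ := by
    rw [IntermediateField.adjoin_map, Set.image_singleton, IntermediateField.adjoin_simple_le_iff]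
    exact mem_adjoin_simple_self K _
  exact h1 ⟨z, hz, rfl⟩

theorem finiteDimensional_tower [FiniteDimensional F E] {x : F} (hfin : FiniteDimensional K⟮x⟯ F) :
    FiniteDimensional K⟮algebraMap F E x⟯ E := by
  have h2 : Module.Finite K⟮x⟯ E := Module.Finite.trans F E
  let f : K⟮x⟯ →+* K⟮algebraMap F E x⟯ :=
    { toFun := fun z => ⟨algebraMap F E z.1, tower_map_le z.1 z.2⟩
      map_one' := Subtype.ext (by simp)
      map_mul' := fun a b => Subtype.ext (by simp)
      map_zero' := Subtype.ext (by simp)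
      map_add' := fun a b => Subtype.ext (by simp) }
  letI : Algebra K⟮x⟯ K⟮algebraMap F E x⟯ := f.toAlgebra
  haveI : IsScalarTower K⟮x⟯ K⟮algebraMap F E x⟯ E := IsScalarTower.of_algebraMap_eq (fun x => rfl)
  exact Module.Finite.of_restrictScalars_finite K⟮x⟯ K⟮algebraMap F E x⟯ E

end Fermat.Agent.S34
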